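import Fermat.Agent.S14Lib.ThaineRel

/-!
# Second order jets at `λ = 1 - ζ`: logarithmic derivatives
-/

set_option autoImplicit false
set_option linter.unusedSectionVars false

open NumberField Ideal Polynomial
open scoped Pointwise

namespace Fermat.Agent.S14Lib

section JetRing

variable (F : Type*) [CommRing F]

/-- The ring of (iterated) jets `F[ε₁, ε₂]`. -/
abbrev Jet := DualNumber (DualNumber F)

variable {F}

/-- coordinates -/
def jA (x : Jet F) : F := x.fst.fst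
def jB (x : Jet F) : F := x.fst.snd
def jC (x : Jet F) : F := x.snd.fst
def jD (x : Jet F) : F := x.snd.snd

/-- constructor -/
def jmk (a b c d : F) : Jet F := (((a, b) : DualNumber F), ((c, d) : DualNumber F))

@[simp] theorem jA_mk (a b c d : F) : jA (jmk a b c d) = a := rfl
@[simp] theorem jB_mk (a b c d : F) : jB (jmk a b c d) = b := rfl
@[simp] theorem jC_mk (a b c d : F) : jC (jmk a b c d) = c := rfl
@[simp] theorem jD_mk (a b c d : F) : jD (jmk a b c d) = d := rfl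

theorem jet_ext {x y : Jet F} (h1 : jA x = jA y) (h2 : jB x = jB y) (h3 : jC x = jC y)
    (h4 : jD x = jD y) : x = y :=
  TrivSqZeroExt.ext (TrivSqZeroExt.ext h1 h2) (TrivSqZeroExt.ext h3 h4)

theorem jA_mul (x y : Jet F) : jA (x * y) = jA x * jA y := rfl

theorem jB_mul (x y : Jet F) : jB (x * y) = jA x * jB y + jB x * jA y := by
  simp only [jB, jA, DualNumber.snd_mul, TrivSqZeroExt.fst_mul]

theorem jC_mul (x y : Jet F) : jC (x * y) = jA x * jC y + jC x * jA y := by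
  simp only [jC, jA, DualNumber.snd_mul, TrivSqZeroExt.fst_mul, TrivSqZeroExt.fst_add]

theorem jD_mul (x y : Jet F) :
    jD (x * y) = jA x * jD y + jB x * jC y + (jC x * jB y + jD x * jA y) := by
  simp only [jD, jC, jB, jA, DualNumber.snd_mul, TrivSqZeroExt.snd_add]

@[simp] theorem jA_add (x y : Jet F) : jA (x + y) = jA x + jA y := rfl
@[simp] theorem jB_add (x y : Jet F) : jB (x + y) = jB x + jB y := rfl
@[simp] theorem jC_add (x y : Jet F) : jC (x + y) = jC x + jC y := rfl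
@[simp] theorem jD_add (x y : Jet F) : jD (x + y) = jD x + jD y := rfl
@[simp] theorem jA_one : jA (1 : Jet F) = 1 := rfl
@[simp] theorem jB_one : jB (1 : Jet F) = 0 := rfl
@[simp] theorem jC_one : jC (1 : Jet F) = 0 := rfl
@[simp] theorem jD_one : jD (1 : Jet F) = 0 := rfl
@[simp] theorem jA_zero : jA (0 : Jet F) = 0 := rfl
@[simp] theorem jB_zero : jB (0 : Jet F) = 0 := rfl
@[simp] theorem jC_zero : jC (0 : Jet F) = 0 := rfl
@[simp] theorem jD_zero : jD (0 : Jet F) = 0 := rfl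
@[simp] theorem jA_neg (x : Jet F) : jA (-x) = - jA x := rfl
@[simp] theorem jB_neg (x : Jet F) : jB (-x) = - jB x := rfl
@[simp] theorem jC_neg (x : Jet F) : jC (-x) = - jC x := rfl
@[simp] theorem jD_neg (x : Jet F) : jD (-x) = - jD x := rfl

/-- the element `(1+ε₁)(1+ε₂)` -/
def jY : Jet F := jmk 1 1 1 1

theorem jY_pow (n : ℕ) : (jY : Jet F) ^ n = jmk 1 (n : F) (n : F) ((n : F) ^ 2) := by
  induction n with
  | zero => apply jet_ext <;> simp
  | succ n ih =>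
    rw [pow_succ, ih]
    apply jet_ext
    · rw [jA_mul]; simp [jY]
    · rw [jB_mul]; simp [jY, add_comm]
    · rw [jC_mul]; simp [jY, add_comm]
    · rw [jD_mul]; simp [jY]; ring

end JetRing

section Log

variable {F : Type*} [Field F]

/-- second logarithmic derivative -/
def l2 (x : Jet F) : F := jD x / jA x - jB x * jC x / (jA x) ^ 2

/-- first logarithmic derivative -/
def l1 (x : Jet F) : F := jB x / jA x

theorem l2_mul {x y : Jet F} (hx : jA x ≠ 0) (hy : jA y ≠ 0) : l2 (x * y) = l2 x + l2 y := by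
  rw [l2, l2, l2, jA_mul, jB_mul, jC_mul, jD_mul]
  field_simp
  ring

theorem l1_mul {x y : Jet F} (hx : jA x ≠ 0) (hy : jA y ≠ 0) : l1 (x * y) = l1 x + l1 y := by
  rw [l1, l1, l1, jA_mul, jB_mul]
  field_simp
  ring

theorem l2_one : l2 (1 : Jet F) = 0 := by simp [l2]

theorem l1_one : l1 (1 : Jet F) = 0 := by simp [l1]

theorem jA_pow (x : Jet F) (n : ℕ) : jA (x ^ n) = jA x ^ n := by
  induction n with
  | zero => simp
  | succ n ih => rw [pow_succ, jA_mul, ih, pow_succ]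

theorem l2_pow {x : Jet F} (hx : jA x ≠ 0) (n : ℕ) : l2 (x ^ n) = n * l2 x := by
  induction n with
  | zero => simp [l2_one]
  | succ n ih =>
    rw [pow_succ, l2_mul (by rw [jA_pow]; exact pow_ne_zero _ hx) hx, ih]
    push_cast; ring

theorem l1_pow {x : Jet F} (hx : jA x ≠ 0) (n : ℕ) : l1 (x ^ n) = n * l1 x := by
  induction n with
  | zero => simp [l1_one]
  | succ n ih =>
    rw [pow_succ, l1_mul (by rw [jA_pow]; exact pow_ne_zero _ hx) hx, ih]
    push_cast; ring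

theorem jA_ne_zero_of_isUnit {x : Jet F} (hx : IsUnit x) : jA x ≠ 0 := by
  obtain ⟨y, hy⟩ := hx.exists_right_inv
  intro h
  have := congrArg jA hy
  rw [jA_mul, h, zero_mul, jA_one] at this
  exact zero_ne_one this

theorem jA_prod {ι : Type*} (s : Finset ι) (f : ι → Jet F) :
    jA (∏ i ∈ s, f i) = ∏ i ∈ s, jA (f i) := by
  classical
  induction s using Finset.induction_on with
  | empty => simp
  | insert a s ha ih => rw [Finset.prod_insert ha, Finset.prod_insert ha, jA_mul, ih]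

theorem l2_prod {ι : Type*} (s : Finset ι) (f : ι → Jet F) (h : ∀ i ∈ s, jA (f i) ≠ 0) :
    l2 (∏ i ∈ s, f i) = ∑ i ∈ s, l2 (f i) := by
  classical
  induction s using Finset.induction_on with
  | empty => simp [l2_one]
  | insert a s ha ih =>
    rw [Finset.prod_insert ha, Finset.sum_insert ha, l2_mul, ih]
    · exact fun i hi => h i (Finset.mem_insert_of_mem hi)
    · exact h a (Finset.mem_insert_self a s)
    · rw [jA_prod]
      exact Finset.prod_ne_zero_iff.2 fun i hi => h i (Finset.mem_insert_of_mem hi)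

end Log

section Rho

variable {p : ℕ} [Fact p.Prime] {K : Type} [Field K] [NumberField K]
  [IsCyclotomicExtension {p} ℚ K]

theorem sum_jY_pow (h5 : 5 ≤ p) : ∑ i ∈ Finset.range p, (jY : Jet (ZMod p)) ^ i = 0 := by
  have hp' : p.Prime := Fact.out
  have key : ∀ k : ℕ, k < p - 1 → ∑ i ∈ Finset.range p, ((i : ℕ) : ZMod p) ^ k = 0 := by
    intro k hk
    have h1 := FiniteField.sum_pow_lt_card_sub_one (K := ZMod p) k (by rwa [ZMod.card])
    rw [← h1]
    refine Finset.sum_nbij' (fun i => ((i : ℕ) : ZMod p)) (fun x => x.val) ?_ ?_ ?_ ?_ ?_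
    · intro i _; exact Finset.mem_univ _
    · intro x _; exact Finset.mem_range.2 (ZMod.val_lt x)
    · intro i hi; exact ZMod.val_cast_of_lt (Finset.mem_range.1 hi)
    · intro x _; exact ZMod.natCast_zmod_val x
    · intro i _; rfl
  have hA : ∀ (s : Finset ℕ) (f : ℕ → Jet (ZMod p)), jA (∑ i ∈ s, f i) = ∑ i ∈ s, jA (f i) := by
    intro s f
    exact map_sum (⟨⟨jA, jA_zero⟩, jA_add⟩ : Jet (ZMod p) →+ ZMod p) f s
  have hB : ∀ (s : Finset ℕ) (f : ℕ → Jet (ZMod p)), jB (∑ i ∈ s, f i) = ∑ i ∈ s, jB (f i) := by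
    intro s f
    exact map_sum (⟨⟨jB, jB_zero⟩, jB_add⟩ : Jet (ZMod p) →+ ZMod p) f s
  have hC : ∀ (s : Finset ℕ) (f : ℕ → Jet (ZMod p)), jC (∑ i ∈ s, f i) = ∑ i ∈ s, jC (f i) := by
    intro s f
    exact map_sum (⟨⟨jC, jC_zero⟩, jC_add⟩ : Jet (ZMod p) →+ ZMod p) f s
  have hD : ∀ (s : Finset ℕ) (f : ℕ → Jet (ZMod p)), jD (∑ i ∈ s, f i) = ∑ i ∈ s, jD (f i) := by
    intro s f
    exact map_sum (⟨⟨jD, jD_zero⟩, jD_add⟩ : Jet (ZMod p) →+ ZMod p) f s
  apply jet_ext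
  · rw [hA]; simp [jY_pow]
  · rw [hB]; simpa [jY_pow] using key 1 (by omega)
  · rw [hC]; simpa [jY_pow] using key 1 (by omega)
  · rw [hD]; simpa [jY_pow] using key 2 (by omega)

/-- The jet homomorphism `𝓞 K → F_p[ε₁,ε₂]`, `ζ ↦ (1+ε₁)(1+ε₂)`. -/
theorem exists_rho (h5 : 5 ≤ p) {z : K} (hz : IsPrimitiveRoot z p) :
    ∃ ρ : 𝓞 K →+* Jet (ZMod p), ρ hz.toInteger = jY := by
  have hp' : p.Prime := Fact.out
  have : NeZero p := ⟨hp'.ne_zero⟩
  have h1 : aeval (jY : Jet (ZMod p)) (minpoly ℤ hz.integralPowerBasis.gen) = 0 := by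
    have h2 : minpoly ℤ hz.integralPowerBasis.gen = cyclotomic p ℤ := by
      rw [hz.integralPowerBasis_gen, cyclotomic_eq_minpoly hz hp'.pos,
        ← RingOfIntegers.minpoly_coe]
      rfl
    rw [h2, cyclotomic_prime, map_sum]
    simp only [map_pow, aeval_X]
    exact sum_jY_pow h5
  refine ⟨(hz.integralPowerBasis.lift jY h1 : 𝓞 K →+* Jet (ZMod p)), ?_⟩
  have h3 := hz.integralPowerBasis.lift_gen jY h1
  rw [hz.integralPowerBasis_gen] at h3
  exact h3

theorem rho_smul {ρ : 𝓞 K →+* Jet (ZMod p)} {z : K} {hz : IsPrimitiveRoot z p}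
    (hρ : ρ hz.toInteger = jY) (σ : Gal(K/ℚ)) (x : 𝓞 K) :
    jA (ρ (σ • x)) = jA (ρ x) ∧
    jB (ρ (σ • x)) = (IsCyclotomicExtension.Rat.galEquivZMod p K σ : (ZMod p)ˣ) * jB (ρ x) ∧
    jC (ρ (σ • x)) = (IsCyclotomicExtension.Rat.galEquivZMod p K σ : (ZMod p)ˣ) * jC (ρ x) ∧
    jD (ρ (σ • x)) =
      (IsCyclotomicExtension.Rat.galEquivZMod p K σ : (ZMod p)ˣ) ^ 2 * jD (ρ x) := by
  have hp' : p.Prime := Fact.out
  have : NeZero p := ⟨hp'.ne_zero⟩
  set a : ZMod p := ((IsCyclotomicExtension.Rat.galEquivZMod p K σ : (ZMod p)ˣ) : ZMod p) with ha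
  have htop := IsCyclotomicExtension.Rat.adjoin_singleton_eq_top hz
  have hx : x ∈ Algebra.adjoin ℤ {hz.toInteger} := by
    rw [htop]; trivial
  induction hx using Algebra.adjoin_induction with
  | mem y hy =>
    rw [Set.mem_singleton_iff] at hy
    subst hy
    rw [IsCyclotomicExtension.Rat.galEquivZMod_smul_of_pow_eq p K σ
      hz.toInteger_isPrimitiveRoot.pow_eq_one, map_pow, hρ, jY_pow, ← ha, ZMod.natCast_zmod_val]
    simp [jY]
  | algebraMap r =>
    have h1 : σ • (algebraMap ℤ (𝓞 K) r) = algebraMap ℤ (𝓞 K) r := by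
      rw [Algebra.algebraMap_eq_smul_one, smul_comm, smul_one]
    have h2 : ρ (algebraMap ℤ (𝓞 K) r) = r := by simp
    have h3 : ∀ r : ℤ, jB (r : Jet (ZMod p)) = 0 ∧ jC (r : Jet (ZMod p)) = 0 ∧
        jD (r : Jet (ZMod p)) = 0 := by
      intro r
      refine ⟨rfl, rfl, rfl⟩
    obtain ⟨h4, h5, h6⟩ := h3 r
    rw [h1, h2, h4, h5, h6]
    simp
  | add x y _ _ hx hy =>
    obtain ⟨h1, h2, h3, h4⟩ := hx
    obtain ⟨h1', h2', h3', h4'⟩ := hy
    rw [smul_add, map_add, map_add]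
    simp only [jA_add, jB_add, jC_add, jD_add, h1, h2, h3, h4, h1', h2', h3', h4']
    refine ⟨trivial, ?_, ?_, ?_⟩ <;> ring
  | mul x y _ _ hx hy =>
    obtain ⟨h1, h2, h3, h4⟩ := hx
    obtain ⟨h1', h2', h3', h4'⟩ := hy
    rw [smul_mul', map_mul, map_mul]
    simp only [jA_mul, jB_mul, jC_mul, jD_mul, h1, h2, h3, h4, h1', h2', h3', h4']
    refine ⟨trivial, ?_, ?_, ?_⟩ <;> ring

/-- The `ω²`-projection. -/
noncomputable def eproj (p : ℕ) [Fact p.Prime] {K : Type} [Field K] [NumberField K]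
    [IsCyclotomicExtension {p} ℚ K] (x : 𝓞 K) : 𝓞 K :=
  ∏ σ : Gal(K/ℚ), (σ⁻¹ • x) ^ (nexp p σ)

theorem eproj_mul (x y : 𝓞 K) : eproj p (x * y) = eproj p x * eproj p y := by
  simp only [eproj, smul_mul', mul_pow, Finset.prod_mul_distrib]

theorem l2_smul {ρ : 𝓞 K →+* Jet (ZMod p)} {z : K} {hz : IsPrimitiveRoot z p}
    (hρ : ρ hz.toInteger = jY) (σ : Gal(K/ℚ)) (x : 𝓞 K) :
    l2 (ρ (σ • x)) = (IsCyclotomicExtension.Rat.galEquivZMod p K σ : (ZMod p)ˣ) ^ 2 * l2 (ρ x) := by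
  obtain ⟨h1, h2, h3, h4⟩ := rho_smul hρ σ x
  rw [l2, l2, h1, h2, h3, h4]
  ring

theorem l2_eproj {ρ : 𝓞 K →+* Jet (ZMod p)} {z : K} {hz : IsPrimitiveRoot z p}
    (hρ : ρ hz.toInteger = jY) {x : 𝓞 K} (hx : jA (ρ x) ≠ 0) :
    l2 (ρ (eproj p x)) = - l2 (ρ x) := by
  have hp' : p.Prime := Fact.out
  have h0 : ∀ σ : Gal(K/ℚ), jA (ρ (σ⁻¹ • x)) ≠ 0 := by
    intro σ
    rw [(rho_smul hρ σ⁻¹ x).1]
    exact hx
  rw [eproj, map_prod, l2_prod]
  · have h1 : ∀ σ : Gal(K/ℚ), l2 (ρ ((σ⁻¹ • x) ^ nexp p σ)) = l2 (ρ x) := by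
      intro σ
      rw [map_pow, l2_pow (h0 σ), l2_smul hρ, nexp_cast, ← mul_assoc, ← mul_pow, map_inv,
        Units.mul_inv, one_pow, one_mul]
    rw [Finset.sum_congr rfl fun σ _ => h1 σ, Finset.sum_const, Finset.card_univ,
      ← Nat.card_eq_fintype_card]
    have : IsGalois ℚ K := IsCyclotomicExtension.isGalois {p} ℚ K
    rw [IsGalois.card_aut_eq_finrank, IsCyclotomicExtension.Rat.finrank p K,
      Nat.totient_prime hp', nsmul_eq_mul, Nat.cast_sub hp'.one_le]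
    simp
  · intro σ _
    rw [map_pow, jA_pow]
    exact pow_ne_zero _ (h0 σ)

theorem four_ne_zero' (h5 : 5 ≤ p) : (4 : ZMod p) ≠ 0 := by
  intro h
  have h1 : ((4 : ℕ) : ZMod p) = 0 := by exact_mod_cast h
  rw [ZMod.natCast_eq_zero_iff] at h1
  have := Nat.le_of_dvd (by norm_num) h1
  omega

theorem two_ne_zero' (h5 : 5 ≤ p) : (2 : ZMod p) ≠ 0 := by
  intro h
  have h1 : ((2 : ℕ) : ZMod p) = 0 := by exact_mod_cast h
  rw [ZMod.natCast_eq_zero_iff] at h1
  have := Nat.le_of_dvd (by norm_num) h1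
  omega

theorem jA_one_add {ρ : 𝓞 K →+* Jet (ZMod p)} {z : K} {hz : IsPrimitiveRoot z p}
    (hρ : ρ hz.toInteger = jY) : jA (ρ (1 + hz.toInteger)) = 2 := by
  rw [map_add, map_one, hρ, jA_add, jA_one, jY, jA_mk]
  norm_num

theorem l2_one_add (h5 : 5 ≤ p) {ρ : 𝓞 K →+* Jet (ZMod p)} {z : K} {hz : IsPrimitiveRoot z p}
    (hρ : ρ hz.toInteger = jY) : l2 (ρ (1 + hz.toInteger)) = 1 / 4 := by
  have h2 := two_ne_zero' h5
  have h4 := four_ne_zero' h5
  rw [l2, map_add, map_one, hρ]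
  simp only [jA_add, jB_add, jC_add, jD_add, jA_one, jB_one, jC_one, jD_one, jY, jA_mk, jB_mk,
    jC_mk, jD_mk]
  have : (1 : ZMod p) + 1 = 2 := by norm_num
  rw [this]
  field_simp
  norm_num

theorem l2_eproj_one_add_ne_zero (h5 : 5 ≤ p) {ρ : 𝓞 K →+* Jet (ZMod p)} {z : K}
    {hz : IsPrimitiveRoot z p} (hρ : ρ hz.toInteger = jY) :
    l2 (ρ (eproj p (1 + hz.toInteger))) ≠ 0 := by
  rw [l2_eproj hρ (by rw [jA_one_add hρ]; exact two_ne_zero' h5), l2_one_add h5 hρ]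
  rw [neg_ne_zero]
  exact one_div_ne_zero (four_ne_zero' h5)

/-- `eproj` commutes with the Galois action. -/
theorem eproj_smul (τ : Gal(K/ℚ)) (x : 𝓞 K) : eproj p (τ • x) = τ • eproj p x := by
  have hcomm : ∀ σ τ : Gal(K/ℚ), σ * τ = τ * σ := by
    intro σ τ
    apply (IsCyclotomicExtension.Rat.galEquivZMod p K).injective
    rw [map_mul, map_mul, mul_comm]
  rw [eproj, eproj, Finset.smul_prod']
  refine Finset.prod_congr rfl fun σ _ => ?_
  rw [smul_pow', ← mul_smul, ← mul_smul, hcomm]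

/-- The cyclotomic number `E₂` is not a `p`-th power. -/
theorem cycE_not_pow (h5 : 5 ≤ p) {z : K} (hz : IsPrimitiveRoot z p) (x : K) :
    x ^ p ≠ (cycE hz : 𝓞 K) := by
  intro hx
  have hp' : p.Prime := Fact.out
  have : NeZero p := ⟨hp'.ne_zero⟩
  obtain ⟨ρ, hρ⟩ := exists_rho h5 hz
  -- `x` is integral
  have hxint : IsIntegral ℤ x := by
    apply IsIntegral.of_pow hp'.pos
    rw [hx]
    exact RingOfIntegers.isIntegral_coe _
  let X : 𝓞 K := ⟨x, hxint⟩
  have hX : X ^ p = cycE hz := RingOfIntegers.ext hx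
  have hE : cycE hz = eproj p (1 - hz.toInteger) := rfl
  have hζ1 : (1 : 𝓞 K) - hz.toInteger ≠ 0 := by
    rw [sub_ne_zero]
    exact fun h => hz.toInteger_isPrimitiveRoot.ne_one hp'.one_lt h.symm
  -- the automorphism `ζ ↦ ζ²`
  have h2cop : Nat.Coprime 2 p := by
    rw [Nat.coprime_primes Nat.prime_two hp']; omega
  let τ : Gal(K/ℚ) := (IsCyclotomicExtension.Rat.galEquivZMod p K).symm (ZMod.unitOfCoprime 2 h2cop)
  have hτ : τ • hz.toInteger = hz.toInteger ^ 2 := by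
    rw [IsCyclotomicExtension.Rat.galEquivZMod_smul_of_pow_eq p K τ
      hz.toInteger_isPrimitiveRoot.pow_eq_one, MulEquiv.apply_symm_apply, ZMod.coe_unitOfCoprime,
      ZMod.val_cast_of_lt (by omega)]
  have h1 : τ • (1 - hz.toInteger) = (1 - hz.toInteger) * (1 + hz.toInteger) := by
    rw [smul_sub, smul_one, hτ]; ring
  have h2 : (τ • X) ^ p = X ^ p * eproj p (1 + hz.toInteger) := by
    rw [← smul_pow', hX, hE, ← eproj_smul, h1, eproj_mul]
  have hE0 : cycE hz ≠ 0 := by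
    rw [cycE, Finset.prod_ne_zero_iff]
    intro σ _
    apply pow_ne_zero
    intro h
    apply hζ1
    have := congrArg (σ • ·) h
    simpa using this
  have hX0 : X ≠ 0 := by
    intro h
    rw [← hX, h, zero_pow hp'.ne_zero] at hE0
    exact hE0 rfl
  -- divide
  have h3 : X ∣ τ • X := by
    have h4 : X ^ p ∣ (τ • X) ^ p := ⟨_, h2⟩
    exact (IsIntegrallyClosed.pow_dvd_pow_iff hp'.ne_zero).1 h4
  obtain ⟨Y, hY⟩ := h3
  rw [hY, mul_pow] at h2
  have h4 : Y ^ p = eproj p (1 + hz.toInteger) := mul_left_cancel₀ (pow_ne_zero p hX0) h2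
  apply l2_eproj_one_add_ne_zero h5 hρ
  have h6 : jA (ρ (Y ^ p)) ≠ 0 := by
    rw [h4, eproj, map_prod, jA_prod, Finset.prod_ne_zero_iff]
    intro σ _
    rw [map_pow, jA_pow]
    apply pow_ne_zero
    rw [(rho_smul hρ σ⁻¹ _).1, jA_one_add hρ]
    exact two_ne_zero' h5
  have h7 : jA (ρ Y) ≠ 0 := by
    rw [map_pow, jA_pow] at h6
    exact fun h => h6 (by rw [h, zero_pow hp'.ne_zero])
  rw [← h4, map_pow, l2_pow h7]
  simp

end Rho

end Fermat.Agent.S14Lib
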