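import Fermat.Agent.S14Lib.Thaine

/-!
# Splitting of primes in Kummer extensions of `ℚ(ζ_p)`
-/

set_option autoImplicit false

open NumberField Ideal Polynomial
open scoped Pointwise

namespace Fermat.Agent.S14Lib

theorem finrank_le_card_ideals (L : Type*) [Field L] [NumberField L] {q : ℕ} (hq : q.Prime)
    (h : ∀ Q : Ideal (𝓞 L), Q.IsPrime → (q : 𝓞 L) ∈ Q →
      Q.ramificationIdx ℤ = 1 ∧ Q.inertiaDeg ℤ = 1) :
    Module.finrank ℚ L ≤ Nat.card {I : Ideal (𝓞 L) // absNorm I = q} := by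
  have : Fact q.Prime := ⟨hq⟩
  have hprime : (span {(q : ℤ)}).IsPrime := inferInstance
  have hfin : Finite ((span {(q : ℤ)}).primesOver (𝓞 L)) :=
    (Algebra.QuasiFinite.finite_primesOver (span {(q : ℤ)}))
  have := Fintype.ofFinite ((span {(q : ℤ)}).primesOver (𝓞 L))
  have h1 := sum_ramification_inertia_eq_finrank (span {(q : ℤ)}) (𝓞 L)
  have hmem : ∀ Q : (span {(q : ℤ)}).primesOver (𝓞 L), (q : 𝓞 L) ∈ Q.1 := by
    intro Q
    have hQ := Q.2.2
    have := Q.1.mem_of_liesOver (span {(q : ℤ)}) (q : ℤ)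
    simpa using this.1 (mem_span_singleton_self _)
  have h2 : Fintype.card ((span {(q : ℤ)}).primesOver (𝓞 L)) = Module.finrank ℤ (𝓞 L) := by
    rw [← h1, Finset.sum_congr rfl (fun Q _ => by
      obtain ⟨h3, h4⟩ := h Q.1 Q.2.1 (hmem Q)
      rw [h3, h4]), Finset.sum_const, Finset.card_univ]
    simp
  rw [← RingOfIntegers.rank, ← h2, ← Nat.card_eq_fintype_card]
  have hfin2 : Finite {I : Ideal (𝓞 L) // absNorm I = q} :=
    (finite_setOfPred_absNorm_eq q).to_subtype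
  refine Nat.card_le_card_of_injective (fun Q => ⟨Q.1, ?_⟩) ?_
  · have := Q.2.1
    have := Q.2.2
    rw [← pow_inertiaDeg q, (h Q.1 Q.2.1 (hmem Q)).2, pow_one]
  · intro Q Q' hQ
    simpa [Subtype.ext_iff] using hQ

variable {p q : ℕ} [Fact p.Prime] [Fact q.Prime] {K : Type} [Field K] [NumberField K]
  [IsCyclotomicExtension {p} ℚ K] {L : Type*} [Field L] [NumberField L] [Algebra K L]

theorem stabilizer_kummer {y : 𝓞 L} {E : 𝓞 K} (hy : y ^ p = algebraMap (𝓞 K) (𝓞 L) E)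
    (hgen : ∀ σ : Gal(L/K), σ • y = y → σ = 1) {z : K} (hz : IsPrimitiveRoot z p) (hpq : p ≠ q)
    {P : Ideal (𝓞 K)} (hP : P.IsPrime) {Q : Ideal (𝓞 L)} (hQ : Q.IsPrime) [Q.LiesOver P]
    (hqP : (q : 𝓞 K) ∈ P)
    {b : 𝓞 K} (hb : b ∉ P) (hEb : E - b ^ p ∈ P) : MulAction.stabilizer Gal(L/K) Q = ⊥ := by
  have hp' : p.Prime := Fact.out
  have hq' : q.Prime := Fact.out
  have hmem : ∀ x : 𝓞 K, algebraMap (𝓞 K) (𝓞 L) x ∈ Q ↔ x ∈ P := fun x =>
    (Q.mem_of_liesOver P x).symm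
  set B := algebraMap (𝓞 K) (𝓞 L) b with hB
  set Z := algebraMap (𝓞 K) (𝓞 L) hz.toInteger with hZdef
  have hZ : IsPrimitiveRoot Z p :=
    hz.toInteger_isPrimitiveRoot.map_of_injective (FaithfulSMul.algebraMap_injective (𝓞 K) (𝓞 L))
  have hyQ : y ∉ Q := by
    intro h
    have h1 : y ^ p ∈ Q := Q.pow_mem_of_mem h p hp'.pos
    rw [hy, hmem] at h1
    have h2 : b ^ p ∈ P := by
      have := P.sub_mem h1 hEb
      simpa using this
    exact hb (hP.mem_of_pow_mem _ h2)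
  have hBQ : y ^ p - B ^ p ∈ Q := by
    rw [hy, hB, ← map_pow, ← map_sub, hmem]
    exact hEb
  have key : ∀ x x' : 𝓞 L, ∀ J : Ideal (𝓞 L), J.IsPrime → x ^ p - x' ^ p ∈ J →
      ∃ i, i < p ∧ x - Z ^ i * x' ∈ J := by
    intro x x' J hJ h
    rw [hZ.pow_sub_pow_eq_prod_sub_mul x x' hp'.pos] at h
    obtain ⟨μ, hμ, h1⟩ := (hJ.prod_mem_iff).1 h
    rw [mem_nthRootsFinset hp'.pos] at hμ
    obtain ⟨i, hi, rfl⟩ := hZ.eq_pow_of_pow_eq_one hμ
    exact ⟨i, hi, h1⟩
  obtain ⟨i, -, hi⟩ := key y B Q hQ hBQ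
  rw [eq_bot_iff]
  intro σ hσ
  rw [Subgroup.mem_bot]
  apply hgen
  have hfix : ∀ x : 𝓞 K, σ • algebraMap (𝓞 K) (𝓞 L) x = algebraMap (𝓞 K) (𝓞 L) x := fun x =>
    RingOfIntegers.ext (σ.commutes (x : K))
  have h1 : (σ • y) ^ p - y ^ p ∈ (⊥ : Ideal (𝓞 L)) := by
    rw [← smul_pow', hy, hfix, sub_self]
    exact Ideal.zero_mem _
  obtain ⟨j, hj, h2⟩ := key (σ • y) y ⊥ isPrime_bot h1
  rw [mem_bot, sub_eq_zero] at h2
  -- apply `σ`
  have h3 : σ • (y - Z ^ i * B) ∈ Q := by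
    rw [MulAction.mem_stabilizer_iff] at hσ
    rw [← hσ]
    exact Ideal.smul_mem_pointwise_smul_iff.2 hi
  have h4 : σ • (y - Z ^ i * B) = Z ^ j * y - Z ^ i * B := by
    rw [smul_sub, smul_mul', h2, hB, hfix, smul_pow', hZdef, hfix]
  rw [h4] at h3
  have h5 : (Z ^ j - 1) * y ∈ Q := by
    have := Q.sub_mem h3 hi
    have h6 : Z ^ j * y - Z ^ i * B - (y - Z ^ i * B) = (Z ^ j - 1) * y := by ring
    rwa [h6] at this
  have h6 := (hQ.mem_or_mem h5).resolve_right hyQ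
  by_cases hj0 : j = 0
  · rw [h2, hj0, pow_zero, one_mul]
  exfalso
  have hZj : IsPrimitiveRoot (Z ^ j) p :=
    hZ.pow_of_coprime j (Nat.coprime_of_lt_prime hj0 hj hp').symm
  have h7 := hZj.geom_sum_eq_zero hp'.one_lt
  have h8 : (p : 𝓞 L) ∈ Q := by
    rw [← Ideal.Quotient.eq_zero_iff_mem] at h6 ⊢
    have h9 := congrArg (Ideal.Quotient.mk Q) h7
    rw [map_sum, map_zero] at h9
    rw [map_sub, map_one, sub_eq_zero] at h6
    have h10 : ∀ k ∈ Finset.range p, Ideal.Quotient.mk Q ((Z ^ j) ^ k) = 1 := by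
      intro k _
      rw [map_pow, h6, one_pow]
    rw [Finset.sum_congr rfl h10, Finset.sum_const, Finset.card_range, nsmul_eq_mul, mul_one] at h9
    rw [map_natCast]
    exact h9
  have h9 : (q : 𝓞 L) ∈ Q := by
    have := (hmem q).2 hqP
    simpa using this
  obtain ⟨u, v, huv⟩ := Nat.isCoprime_iff_coprime.2 ((Nat.coprime_primes hp' hq').2 hpq)
  apply hQ.ne_top
  rw [Ideal.eq_top_iff_one]
  have h10 : ((u : 𝓞 L)) * p + v * q = 1 := by exact_mod_cast congrArg (Int.cast : ℤ → 𝓞 L) huv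
  rw [← h10]
  exact Q.add_mem (Q.mul_mem_left _ h8) (Q.mul_mem_left _ h9)

/-- Numerical splitting criterion in a Kummer extension. -/
theorem exists_kummer_field {E : 𝓞 K} (hE : ∀ x : K, x ^ p ≠ E) {z : K}
    (hz : IsPrimitiveRoot z p) :
    ∃ (L : Type) (_ : Field L) (_ : NumberField L), ∀ (q : ℕ), q.Prime → q % p = 1 →
      (∀ P : Ideal (𝓞 K), P.IsPrime → (q : 𝓞 K) ∈ P → ∃ b, b ∉ P ∧ E - b ^ p ∈ P) →
      p * (p - 1) ≤ Nat.card {I : Ideal (𝓞 L) // absNorm I = q} := by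
  have hp' : p.Prime := Fact.out
  have : NeZero p := ⟨hp'.ne_zero⟩
  have hirr : Irreducible (X ^ p - C (E : K)) := X_pow_sub_C_irreducible_of_prime hp' hE
  have hne : (primitiveRoots p K).Nonempty := ⟨z, (mem_primitiveRoots hp'.pos).2 hz⟩
  let L := (X ^ p - C (E : K)).SplittingField
  have hfd : FiniteDimensional K L := inferInstance
  have hcz : CharZero L := algebraRat.charZero L
  have hL : NumberField L := NumberField.of_module_finite K L
  have hgal : IsGalois K L := isGalois_of_isSplittingField_X_pow_sub_C hne hirr L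
  have hrank : Module.finrank K L = p := finrank_of_isSplittingField_X_pow_sub_C hne hirr L
  refine ⟨L, inferInstance, hL, fun q hq hqp hq2 => ?_⟩
  have : Fact q.Prime := ⟨hq⟩
  have hpq : p ≠ q := by
    rintro rfl
    simp at hqp
  have hrank2 : Module.finrank ℚ L = p * (p - 1) := by
    rw [← Module.finrank_mul_finrank ℚ K L, hrank, IsCyclotomicExtension.Rat.finrank p K,
      Nat.totient_prime hp', mul_comm]
  rw [← hrank2]
  apply finrank_le_card_ideals L hq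
  intro Q hQ hqQ
  set P : Ideal (𝓞 K) := Q.under (𝓞 K) with hPdef
  have hP : P.IsPrime := inferInstance
  have hQP : Q.LiesOver P := inferInstance
  have hqP : (q : 𝓞 K) ∈ P := by
    rw [hPdef, Ideal.mem_comap]
    simpa using hqQ
  obtain ⟨b, hb, hEb⟩ := hq2 P hP hqP
  have hP0 := ne_bot_of_mem hq hqP
  have hQ0 := ne_bot_of_mem hq hqQ
  -- the root
  let α : L := rootOfSplitsXPowSubC hp'.pos (E : K) L
  have hα : α ^ p = algebraMap K L (E : K) := rootOfSplitsXPowSubC_pow (E : K) L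
  have hαint : IsIntegral ℤ α := by
    apply IsIntegral.of_pow hp'.pos
    rw [hα]
    exact (RingOfIntegers.isIntegral_coe E).algebraMap
  let y : 𝓞 L := ⟨α, hαint⟩
  have hy : y ^ p = algebraMap (𝓞 K) (𝓞 L) E := RingOfIntegers.ext hα
  have hgen : ∀ σ : Gal(L/K), σ • y = y → σ = 1 := by
    intro σ hσ
    have h1 : σ α = α := congrArg (algebraMap (𝓞 L) L) hσ
    have h2 := IntermediateField.adjoin_root_eq_top_of_isSplittingField hne hirr hα
    have h3 := (IntermediateField.adjoin_simple_le_iff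
      (K := IntermediateField.fixedField (Subgroup.zpowers σ)) (α := α) (F := K)).2 (by
        rw [IntermediateField.mem_fixedField_iff]
        intro τ hτ
        obtain ⟨n, rfl⟩ := hτ
        have h4 : σ ∈ MulAction.stabilizer Gal(L/K) α := h1
        exact Subgroup.zpow_mem _ h4 n)
    rw [h2, top_le_iff] at h3
    ext x
    have h5 : x ∈ IntermediateField.fixedField (Subgroup.zpowers σ) := by
      rw [h3]; trivial
    rw [IntermediateField.mem_fixedField_iff] at h5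
    exact h5 σ (Subgroup.mem_zpowers σ)
  have hstab := stabilizer_kummer (K := K) (L := L) hy hgen hz hpq hP hQ hqP hb hEb
  have h1 := Ideal.card_stabilizer_eq (G := Gal(L/K)) P Q
  rw [hstab, ramificationIdxIn_eq_ramificationIdx P Q Gal(L/K), inertiaDegIn_eq_inertiaDeg P Q
    Gal(L/K)] at h1
  have h2 : Q.ramificationIdx (𝓞 K) * Q.inertiaDeg (𝓞 K) = 1 := by
    rw [← h1]; simp
  obtain ⟨h3, h4⟩ := mul_eq_one.1 h2
  constructor
  · rw [Ideal.ramificationIdx_tower (R := ℤ) (q := P) (r := Q), h3,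
      ramificationIdx_bot_q (K := K) hpq hP hqP, mul_one]
  · rw [Ideal.inertiaDeg_tower (R := ℤ) (q := P) (r := Q), h4, mul_one]
    have := liesOver_of_mem hq hP hqP
    rw [IsCyclotomicExtension.Rat.inertiaDeg_eq_of_not_dvd q K P (m := p)
      (by rwa [(Nat.prime_dvd_prime_iff_eq hq hp'), eq_comm])]
    rw [orderOf_eq_one_iff]
    have : ((q : ℕ) : ZMod p) = ((1 : ℕ) : ZMod p) := by
      rw [ZMod.natCast_eq_natCast_iff', hqp, Nat.mod_eq_of_lt hp'.one_lt]
    simpa using this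

end Fermat.Agent.S14Lib
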