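import Fermat.Agent.S14Lib.ClassFun
import Fermat.Agent.S14Lib.Jets
import Fermat.Agent.S14Lib.KummerSplit
import Fermat.Agent.Cheb.Density

/-!
# The density contradiction
-/

set_option autoImplicit false
set_option linter.unusedSectionVars false

open NumberField Ideal
open scoped Pointwise nonZeroDivisors

namespace Fermat.Agent.S14Lib

variable {p : ℕ} [Fact p.Prime] {K : Type} [Field K] [NumberField K]

/-- The analytic input: primes in a subgroup of the class group have (upper) density at most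
one over the index. -/
def PrimeBound (K : Type) [Field K] [NumberField K] : Prop :=
  ∀ H : Subgroup (ClassGroup (𝓞 K)), ∃ C : ℝ, ∀ s : ℝ, 1 < s → s ≤ 2 →
    Summable (fun P : {P : (Ideal (𝓞 K))⁰ // (P : Ideal (𝓞 K)).IsPrime ∧ ClassGroup.mk0 P ∈ H} =>
      (absNorm ((P : (Ideal (𝓞 K))⁰) : Ideal (𝓞 K)) : ℝ) ^ (-s)) ∧
    (H.index : ℝ) * ∑' P : {P : (Ideal (𝓞 K))⁰ // (P : Ideal (𝓞 K)).IsPrime ∧
      ClassGroup.mk0 P ∈ H}, (absNorm ((P : (Ideal (𝓞 K))⁰) : Ideal (𝓞 K)) : ℝ) ^ (-s) ≤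
      Real.log (1 / (s - 1)) + C

variable [IsCyclotomicExtension {p} ℚ K]

theorem absNorm_eq_of_mem {q : ℕ} (hq : q.Prime) (hqp : q % p = 1) {P : Ideal (𝓞 K)}
    (hP : P.IsPrime) (hqP : (q : 𝓞 K) ∈ P) : absNorm P = q := by
  have hp' : p.Prime := Fact.out
  have hqf : Fact q.Prime := ⟨hq⟩
  have := liesOver_of_mem hq hP hqP
  have hne : p ≠ q := by
    rintro rfl
    simp at hqp
  rw [← pow_inertiaDeg q, IsCyclotomicExtension.Rat.inertiaDeg_eq_of_not_dvd q K P (m := p)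
      (by rwa [(Nat.prime_dvd_prime_iff_eq hq hp'), eq_comm])]
  have h1 : orderOf (q : ZMod p) = 1 := by
    rw [orderOf_eq_one_iff]
    have : ((q : ℕ) : ZMod p) = ((1 : ℕ) : ZMod p) := by
      rw [ZMod.natCast_eq_natCast_iff', hqp, Nat.mod_eq_of_lt hp'.one_lt]
    simpa using this
  rw [h1, pow_one]

theorem mod_eq_one_of_absNorm {q : ℕ} (hq : q.Prime) (hne : q ≠ p) {P : Ideal (𝓞 K)}
    (hP : absNorm P = q) : q % p = 1 := by
  have hp' : p.Prime := Fact.out
  have hqf : Fact q.Prime := ⟨hq⟩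
  have hPp : P.IsPrime := isPrime_of_irreducible_absNorm (by rw [hP]; exact hq)
  have hqP : (q : 𝓞 K) ∈ P := by rw [← hP]; exact absNorm_mem P
  have := liesOver_of_mem hq hPp hqP
  have h1 := pow_inertiaDeg q P
  rw [hP, IsCyclotomicExtension.Rat.inertiaDeg_eq_of_not_dvd q K P (m := p)
      (by rwa [(Nat.prime_dvd_prime_iff_eq hq hp')])] at h1
  have h2 : orderOf (q : ZMod p) = 1 := by
    apply Nat.pow_right_injective hq.two_le
    change q ^ _ = q ^ 1
    rw [h1, pow_one]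
  rw [orderOf_eq_one_iff] at h2
  have h3 : ((q : ℕ) : ZMod p) = ((1 : ℕ) : ZMod p) := by simpa using h2
  rw [ZMod.natCast_eq_natCast_iff', Nat.mod_eq_of_lt hp'.one_lt] at h3
  exact h3

theorem exists_prime_above (K : Type) [Field K] [NumberField K] {q : ℕ} (hq : q.Prime) :
    ∃ P : Ideal (𝓞 K), P.IsPrime ∧ (q : 𝓞 K) ∈ P := by
  have hqf : Fact q.Prime := ⟨hq⟩
  obtain ⟨P, hP, hPq⟩ := exists_maximal_ideal_liesOver_of_isIntegral (S := 𝓞 K) (span {(q : ℤ)})
  refine ⟨P, hP.isPrime, ?_⟩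
  have := (P.mem_of_liesOver (span {(q : ℤ)}) (q : ℤ)).1 (mem_span_singleton_self _)
  simpa using this

theorem exists_smul_of_mem {q : ℕ} (hq : q.Prime) {P Q : Ideal (𝓞 K)}
    (hP : P.IsPrime) (hQ : Q.IsPrime) (hqP : (q : 𝓞 K) ∈ P) (hqQ : (q : 𝓞 K) ∈ Q) [IsGalois ℚ K] :
    ∃ σ : Gal(K/ℚ), σ • P = Q := by
  have := liesOver_of_mem hq hP hqP
  have := liesOver_of_mem hq hQ hqQ
  exact Ideal.exists_smul_eq_of_isGaloisGroup (span {(q : ℤ)}) P Q Gal(K/ℚ)

theorem card_ideals_le {q : ℕ} (hq : q.Prime) (hqp : q % p = 1) :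
    Nat.card {I : Ideal (𝓞 K) // absNorm I = q} ≤ p - 1 := by
  have hp' : p.Prime := Fact.out
  have : IsGalois ℚ K := IsCyclotomicExtension.isGalois {p} ℚ K
  obtain ⟨P, hP, hqP⟩ := exists_prime_above K hq
  have hcard : Nat.card Gal(K/ℚ) = p - 1 := by
    rw [IsGalois.card_aut_eq_finrank, IsCyclotomicExtension.Rat.finrank p K,
      Nat.totient_prime hp']
  rw [← hcard]
  have h1 : ∀ σ : Gal(K/ℚ), absNorm (σ • P) = q := fun σ =>
    absNorm_eq_of_mem hq hqp inferInstance ((natCast_mem_smul σ).2 hqP)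
  apply Nat.card_le_card_of_surjective (fun σ : Gal(K/ℚ) => (⟨σ • P, h1 σ⟩ :
    {I : Ideal (𝓞 K) // absNorm I = q}))
  rintro ⟨I, hI⟩
  have hIp : I.IsPrime := isPrime_of_irreducible_absNorm (by rw [hI]; exact hq)
  have hqI : (q : 𝓞 K) ∈ I := by rw [← hI]; exact absNorm_mem I
  obtain ⟨σ, hσ⟩ := exists_smul_of_mem hq hP hIp hqP hqI
  exact ⟨σ, Subtype.ext hσ⟩

theorem density_contradiction (h5 : 5 ≤ p) {z : K} (hz : IsPrimitiveRoot z p)
    (hbound : PrimeBound K) (f : ClassGroup (𝓞 K) →* Multiplicative (ZMod p)) (hf : f ≠ 1)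
    (hfσ : ∀ (σ : Gal(K/ℚ)) c', Multiplicative.toAdd (f (cact σ c')) =
        ((IsCyclotomicExtension.Rat.galEquivZMod p K σ : (ZMod p)ˣ) : ZMod p) ^ 2 *
        Multiplicative.toAdd (f c')) : False := by
  classical
  have hp' : p.Prime := Fact.out
  have : IsGalois ℚ K := IsCyclotomicExtension.isGalois {p} ℚ K
  -- the functional on ideals
  let F : Ideal (𝓞 K) → ZMod p := fun I =>
    if h : I = ⊥ then 0 else
      Multiplicative.toAdd (f (ClassGroup.mk0 ⟨I, mem_nonZeroDivisors_iff_ne_zero.2 h⟩))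
  have hF : ∀ (I : Ideal (𝓞 K)) (h : I ≠ ⊥), F I =
      Multiplicative.toAdd (f (ClassGroup.mk0 ⟨I, mem_nonZeroDivisors_iff_ne_zero.2 h⟩)) :=
    fun I h => dif_neg h
  have hmul : ∀ I J, I ≠ ⊥ → J ≠ ⊥ → F (I * J) = F I + F J := by
    intro I J hI hJ
    have hIJ : I * J ≠ ⊥ := mul_ne_zero hI hJ
    rw [hF _ hIJ, hF _ hI, hF _ hJ, ← toAdd_mul, ← map_mul, ← map_mul]
    rfl
  have hprin : ∀ x, x ≠ 0 → F (span {x}) = 0 := by
    intro x hx
    have hx' : span {x} ≠ (⊥ : Ideal (𝓞 K)) := by simpa using hx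
    rw [hF _ hx', (ClassGroup.mk0_eq_one_iff _).2 ⟨x, rfl⟩, map_one, toAdd_one]
  have hequiv : ∀ (σ : Gal(K/ℚ)) (I : Ideal (𝓞 K)), I ≠ ⊥ → F (σ • I) =
      ((IsCyclotomicExtension.Rat.galEquivZMod p K σ : (ZMod p)ˣ) : ZMod p) ^ 2 * F I := by
    intro σ I hI
    rw [hF _ (smul_ne_bot σ hI), hF _ hI, ← hfσ, cact_mk0]
    rfl
  -- Kummer field
  obtain ⟨L, instL, instNL, hL⟩ := exists_kummer_field (E := cycE hz) (cycE_not_pow h5 hz) hz
  obtain ⟨C₁, hC₁⟩ := Cheb.exists_bound_degreeOne K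
  obtain ⟨C₂, hC₂⟩ := Cheb.exists_bound_degreeOne L
  obtain ⟨C₃, hC₃⟩ := hbound f.ker
  -- index of the kernel
  have hindex : f.ker.index = p := by
    rw [Subgroup.index_ker]
    have hcard : Nat.card (Multiplicative (ZMod p)) = p := by
      rw [Nat.card_congr Multiplicative.toAdd, Nat.card_zmod]
    have h1 : Nat.card f.range ∣ p := by
      conv_rhs => rw [← hcard]
      exact Subgroup.card_subgroup_dvd_card f.range
    rcases (Nat.dvd_prime hp').1 h1 with h2 | h2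
    · exfalso
      apply hf
      rw [Subgroup.card_eq_one] at h2
      ext c
      have h3 : f c ∈ f.range := ⟨c, rfl⟩
      rw [h2, Subgroup.mem_bot] at h3
      rw [h3]; rfl
    · exact h2
  -- chosen primes
  choose P hP hqP using fun q : Nat.Primes => exists_prime_above K q.2
  have hP0 : ∀ q, P q ≠ ⊥ := fun q => ne_bot_of_mem q.2 (hqP q)
  let g0 : Nat.Primes → ℝ := fun q => if (q : ℕ) % p = 1 ∧ F (P q) = 0 then ((p - 1 : ℕ) : ℝ) else 0
  let g1 : Nat.Primes → ℝ := fun q => if (q : ℕ) % p = 1 ∧ F (P q) ≠ 0 then ((p - 1 : ℕ) : ℝ) else 0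
  have hg0 : ∀ q, 0 ≤ g0 q := fun q => by
    simp only [g0]; split_ifs <;> positivity
  have hg1 : ∀ q, 0 ≤ g1 q := fun q => by
    simp only [g1]; split_ifs <;> positivity
  have hg0' : ∀ q, g0 q ≤ ((p - 1 : ℕ) : ℝ) := fun q => by
    simp only [g0]; split_ifs <;> [exact le_rfl; positivity]
  have hg1' : ∀ q, g1 q ≤ ((p - 1 : ℕ) : ℝ) := fun q => by
    simp only [g1]; split_ifs <;> [exact le_rfl; positivity]
  have hw : ∀ (s : ℝ) (q : Nat.Primes), 0 ≤ ((q : ℕ) : ℝ) ^ (-s) := fun s q => by positivity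
  have hsum : ∀ s : ℝ, 1 < s → Summable (fun q : Nat.Primes => ((q : ℕ) : ℝ) ^ (-s)) :=
    fun s hs => Nat.Primes.summable_rpow.2 (by linarith)
  have hs0 : ∀ s : ℝ, 1 < s → Summable (fun q : Nat.Primes => g0 q * ((q : ℕ) : ℝ) ^ (-s)) := by
    intro s hs
    refine Summable.of_nonneg_of_le (fun q => mul_nonneg (hg0 q) (hw s q))
      (fun q => mul_le_mul_of_nonneg_right (hg0' q) (hw s q)) ((hsum s hs).mul_left _)
  have hs1 : ∀ s : ℝ, 1 < s → Summable (fun q : Nat.Primes => g1 q * ((q : ℕ) : ℝ) ^ (-s)) := by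
    intro s hs
    refine Summable.of_nonneg_of_le (fun q => mul_nonneg (hg1 q) (hw s q))
      (fun q => mul_le_mul_of_nonneg_right (hg1' q) (hw s q)) ((hsum s hs).mul_left _)
  -- (1) lower bound for the total
  let p₀ : Nat.Primes := ⟨p, hp'⟩
  let A : ℝ := (Nat.card {I : Ideal (𝓞 K) // absNorm I = p} : ℝ)
  have hlow : ∀ s : ℝ, 1 < s → s ≤ 2 → Real.log (1 / (s - 1)) - C₁ ≤
      (∑' q : Nat.Primes, g0 q * ((q : ℕ) : ℝ) ^ (-s)) +
      (∑' q : Nat.Primes, g1 q * ((q : ℕ) : ℝ) ^ (-s)) + A := by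
    intro s hs hs2
    have h1 := (abs_le.1 (hC₁ s hs hs2)).1
    have h2 : ∑' q : Nat.Primes, (Nat.card {I : Ideal (𝓞 K) // absNorm I = (q : ℕ)} : ℝ) *
        ((q : ℕ) : ℝ) ^ (-s) ≤ ∑' q : Nat.Primes, ((g0 q * ((q : ℕ) : ℝ) ^ (-s) +
          g1 q * ((q : ℕ) : ℝ) ^ (-s)) + if q = p₀ then A else 0) := by
      refine Summable.tsum_le_tsum ?_ (Cheb.summable_idealCount_primes K hs)
        (((hs0 s hs).add (hs1 s hs)).add (summable_of_ne_finset_zero (s := {p₀})
          (fun q hq => if_neg (fun h => hq (Finset.mem_singleton.2 h)))))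
      intro q
      by_cases hqp : q = p₀
      · rw [if_pos hqp]
        have h3 : (Nat.card {I : Ideal (𝓞 K) // absNorm I = (q : ℕ)} : ℝ) = A := by
          rw [hqp]
        rw [h3]
        have h4 : A * ((q : ℕ) : ℝ) ^ (-s) ≤ A * 1 := by
          apply mul_le_mul_of_nonneg_left _ (Nat.cast_nonneg _)
          exact Real.rpow_le_one_of_one_le_of_nonpos (by exact_mod_cast q.2.one_lt.le)
            (by linarith)
        have h5 := mul_nonneg (hg0 q) (hw s q)
        have h6 := mul_nonneg (hg1 q) (hw s q)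
        linarith
      · rw [if_neg hqp, add_zero, ← add_mul]
        apply mul_le_mul_of_nonneg_right _ (hw s q)
        have hne : (q : ℕ) ≠ p := fun h => hqp (Subtype.ext h)
        by_cases hmod : (q : ℕ) % p = 1
        · have h3 := card_ideals_le (K := K) q.2 hmod
          have h4 : g0 q + g1 q = ((p - 1 : ℕ) : ℝ) := by
            simp only [g0, g1]
            by_cases h : F (P q) = 0
            · rw [if_pos ⟨hmod, h⟩, if_neg (fun h' => h'.2 h), add_zero]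
            · rw [if_neg (fun h' => h h'.2), if_pos ⟨hmod, h⟩, zero_add]
          rw [h4]
          exact_mod_cast h3
        · have h3 : Nat.card {I : Ideal (𝓞 K) // absNorm I = (q : ℕ)} = 0 := by
            rw [Nat.card_eq_zero]
            left
            exact ⟨fun I => hmod (mod_eq_one_of_absNorm q.2 hne I.2)⟩
          rw [h3, Nat.cast_zero]
          exact add_nonneg (hg0 q) (hg1 q)
    rw [((hs0 s hs).add (hs1 s hs)).tsum_add (summable_of_ne_finset_zero (s := {p₀})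
          (fun q hq => if_neg (fun h => hq (Finset.mem_singleton.2 h)))), (hs0 s hs).tsum_add (hs1 s hs),
      tsum_ite_eq p₀ (fun _ => A)] at h2
    linarith
  -- (2) upper bound for `g1`
  have hup1 : ∀ s : ℝ, 1 < s → s ≤ 2 → (p : ℝ) *
      (∑' q : Nat.Primes, g1 q * ((q : ℕ) : ℝ) ^ (-s)) ≤ Real.log (1 / (s - 1)) + C₂ := by
    intro s hs hs2
    have h1 := (abs_le.1 (hC₂ s hs hs2)).2
    have h2 : (p : ℝ) * (∑' q : Nat.Primes, g1 q * ((q : ℕ) : ℝ) ^ (-s)) ≤
        ∑' q : Nat.Primes, (Nat.card {I : Ideal (𝓞 L) // absNorm I = (q : ℕ)} : ℝ) *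
        ((q : ℕ) : ℝ) ^ (-s) := by
      rw [← tsum_mul_left]
      refine Summable.tsum_le_tsum ?_ ((hs1 s hs).mul_left _) (Cheb.summable_idealCount_primes L hs)
      intro q
      rw [← mul_assoc]
      apply mul_le_mul_of_nonneg_right _ (hw s q)
      by_cases h : (q : ℕ) % p = 1 ∧ F (P q) ≠ 0
      · have h3 : g1 q = ((p - 1 : ℕ) : ℝ) := if_pos h
        rw [h3]
        have hne : p ≠ (q : ℕ) := by
          intro h'
          rw [← h'] at h
          simp at h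
        have hqf : Fact (q : ℕ).Prime := ⟨q.2⟩
        have h4 := hL q q.2 h.1 (by
          intro Q hQ hqQ
          obtain ⟨σ, hσ⟩ := exists_smul_of_mem q.2 (hP q) hQ (hqP q) hqQ
          apply cycE_pow hmul hprin hequiv hne h.1 hz hQ hqQ
          rw [← hσ, hequiv σ _ (hP0 q)]
          exact mul_ne_zero (pow_ne_zero _ (Units.ne_zero _)) h.2)
        exact_mod_cast h4
      · have h3 : g1 q = 0 := if_neg h
        rw [h3, mul_zero]
        exact Nat.cast_nonneg _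
    linarith
  -- (3) upper bound for `g0`
  have hup0 : ∀ s : ℝ, 1 < s → s ≤ 2 → (p : ℝ) *
      (∑' q : Nat.Primes, g0 q * ((q : ℕ) : ℝ) ^ (-s)) ≤ Real.log (1 / (s - 1)) + C₃ := by
    intro s hs hs2
    obtain ⟨h1, h2⟩ := hC₃ s hs hs2
    rw [hindex] at h2
    refine le_trans (mul_le_mul_of_nonneg_left ?_ (Nat.cast_nonneg p)) h2
    let S0 := {q : Nat.Primes // (q : ℕ) % p = 1 ∧ F (P q) = 0}
    let i : S0 × Gal(K/ℚ) → {P : (Ideal (𝓞 K))⁰ // (P : Ideal (𝓞 K)).IsPrime ∧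
        ClassGroup.mk0 P ∈ f.ker} := fun x =>
      ⟨⟨x.2 • P x.1, mem_nonZeroDivisors_iff_ne_zero.2 (smul_ne_bot x.2 (hP0 x.1))⟩, by
        have := hP x.1
        exact (inferInstance : (x.2 • P x.1).IsPrime), by
        have h3 : F (x.2 • P x.1) = 0 := by
          rw [hequiv _ _ (hP0 _), x.1.2.2, mul_zero]
        rw [hF _ (smul_ne_bot x.2 (hP0 x.1))] at h3
        rw [MonoidHom.mem_ker]
        exact h3⟩
    have hnorm : ∀ x, absNorm ((i x : (Ideal (𝓞 K))⁰) : Ideal (𝓞 K)) = ((x.1 : Nat.Primes) : ℕ) := by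
      intro x
      have := hP x.1
      exact absNorm_eq_of_mem x.1.1.2 x.1.2.1 inferInstance ((natCast_mem_smul x.2).2 (hqP x.1))
    have hi : Function.Injective i := by
      intro x y hxy
      have h3 : (x.1 : Nat.Primes) = y.1 := by
        apply Subtype.ext
        rw [← hnorm x, ← hnorm y, hxy]
      obtain ⟨⟨q, hq⟩, σ⟩ := x
      obtain ⟨⟨q', hq'⟩, τ⟩ := y
      simp only at h3
      subst h3
      have h4 : σ • P q = τ • P q := by
        have := congrArg (fun z => ((z.1 : (Ideal (𝓞 K))⁰) : Ideal (𝓞 K))) hxy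
        exact this
      have hqf : Fact (q : ℕ).Prime := ⟨q.2⟩
      have h5 := smul_injective_of_mem hq.1 (hP q) (hqP q) h4
      rw [h5]
    have h3 := tsum_comp_le_tsum_of_inj h1 (fun P => by positivity) hi
    refine le_trans (le_of_eq ?_) h3
    have h4 : ∀ x, ((fun P : {P : (Ideal (𝓞 K))⁰ // (P : Ideal (𝓞 K)).IsPrime ∧
        ClassGroup.mk0 P ∈ f.ker} => (absNorm ((P : (Ideal (𝓞 K))⁰) : Ideal (𝓞 K)) : ℝ) ^ (-s)) ∘ i)
        x = (((x.1 : Nat.Primes) : ℕ) : ℝ) ^ (-s) := by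
      intro x
      simp only [Function.comp]
      rw [hnorm]
    have h5 : Summable (fun x : S0 × Gal(K/ℚ) => (((x.1 : Nat.Primes) : ℕ) : ℝ) ^ (-s)) := by
      have := h1.comp_injective hi
      refine this.congr (fun x => ?_)
      exact h4 x
    rw [tsum_congr h4, h5.tsum_prod]
    have hcard : Nat.card Gal(K/ℚ) = p - 1 := by
      rw [IsGalois.card_aut_eq_finrank, IsCyclotomicExtension.Rat.finrank p K,
        Nat.totient_prime hp']
    have h6 : ∀ q : S0, ∑' σ : Gal(K/ℚ), (((q : Nat.Primes) : ℕ) : ℝ) ^ (-s) =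
        ((p - 1 : ℕ) : ℝ) * (((q : Nat.Primes) : ℕ) : ℝ) ^ (-s) := by
      intro q
      rw [tsum_fintype, Finset.sum_const, Finset.card_univ, ← Nat.card_eq_fintype_card, hcard,
        nsmul_eq_mul]
    rw [tsum_congr h6]
    have h7 := tsum_subtype {q : Nat.Primes | (q : ℕ) % p = 1 ∧ F (P q) = 0}
      (fun q : Nat.Primes => ((p - 1 : ℕ) : ℝ) * ((q : ℕ) : ℝ) ^ (-s))
    refine Eq.trans ?_ h7.symm
    refine tsum_congr fun q => ?_
    simp only [g0, Set.indicator_apply, Set.mem_ofPred_eq]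
    split_ifs <;> simp
  -- conclusion
  apply Cheb.not_bddNear_log
  refine ⟨(p * (C₁ + A) + C₂ + C₃), fun s hs hs2 => ?_⟩
  have h1 := hlow s hs hs2
  have h2 := hup1 s hs hs2
  have h3 := hup0 s hs hs2
  have hlog : 0 ≤ Real.log (1 / (s - 1)) := by
    apply Real.log_nonneg
    rw [le_div_iff₀ (by linarith)]
    linarith
  rw [abs_of_nonneg hlog]
  set ℓ := Real.log (1 / (s - 1)) with hℓ
  set X0 := ∑' q : Nat.Primes, g0 q * ((q : ℕ) : ℝ) ^ (-s)
  set X1 := ∑' q : Nat.Primes, g1 q * ((q : ℕ) : ℝ) ^ (-s)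
  have hp5 : (5 : ℝ) ≤ p := by exact_mod_cast h5
  have h4 : (p : ℝ) * (ℓ - C₁) ≤ (p : ℝ) * (X0 + X1 + A) :=
    mul_le_mul_of_nonneg_left h1 (by linarith)
  have h5' : (p : ℝ) * ℓ ≥ 3 * ℓ := mul_le_mul_of_nonneg_right (by linarith) hlog
  nlinarith

end Fermat.Agent.S14Lib
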