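import Fermat.Agent.S14Lib.KummerMain
import Fermat.Agent.Frob.Places
import Fermat.Agent.CycChar.Basic
import Fermat.Prelude.Def_ExtCitation_AdmissibleExtension_v2
import Fermat.Prelude.Def_ExtCitation_KummerBridge

/-!
# From admissible extensions to Kummer data at finite level
-/

set_option autoImplicit false
set_option linter.unusedSectionVars false

open NumberField ExtCitation
open scoped Pointwise

namespace Fermat.Agent.S14Lib

local notation "Qbar" => AlgebraicClosure ℚ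
local notation "Γℚ" => (AlgebraicClosure ℚ ≃ₐ[ℚ] AlgebraicClosure ℚ)

section Lin

variable {p : ℕ} [Fact p.Prime] {V : Type} [AddCommGroup V] [Module (ZMod p) V]

theorem finrank_of_card {W : Type} [AddCommGroup W] [Module (ZMod p) W] {n : ℕ}
    (h : Nat.card W = p ^ n) : Module.Finite (ZMod p) W ∧ Module.finrank (ZMod p) W = n := by
  have hp : p.Prime := Fact.out
  have hfin : Finite W := Nat.finite_of_card_ne_zero (by rw [h]; exact pow_ne_zero _ hp.ne_zero)
  have hmf : Module.Finite (ZMod p) W := Module.Finite.of_finite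
  refine ⟨hmf, ?_⟩
  have h1 := Module.natCard_eq_pow_finrank (K := ZMod p) (V := W)
  rw [h, Nat.card_zmod] at h1
  exact (Nat.pow_right_injective hp.two_le h1).symm

theorem isCompl_span {C : Submodule (ZMod p) V} (hC : Nat.card C = p ^ 1)
    (hV : Nat.card V = p ^ 2) {v : V} (hv : v ∉ C) : IsCompl C (Submodule.span (ZMod p) {v}) := by
  obtain ⟨hfC, hrC⟩ := finrank_of_card hC
  obtain ⟨hfV, hrV⟩ := finrank_of_card hV
  have hv0 : v ≠ 0 := by
    rintro rfl
    exact hv C.zero_mem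
  have hdisj : Disjoint C (Submodule.span (ZMod p) {v}) := by
    rw [Submodule.disjoint_def]
    intro x hx hx'
    obtain ⟨t, rfl⟩ := Submodule.mem_span_singleton.1 hx'
    by_cases ht : t = 0
    · rw [ht, zero_smul]
    · exfalso
      apply hv
      have := C.smul_mem t⁻¹ hx
      rwa [← mul_smul, inv_mul_cancel₀ ht, one_smul] at this
  refine ⟨hdisj, ?_⟩
  rw [codisjoint_iff]
  apply Submodule.eq_top_of_disjoint _ _ _ hdisj
  rw [hrC, hrV, finrank_span_singleton hv0]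

end Lin

section Coc

variable {p : ℕ} [Fact p.Prime] {V : Type} [AddCommGroup V] [Module (ZMod p) V]
  [DistribMulAction Γℚ V] [SMulCommClass Γℚ (ZMod p) V] {C : Submodule (ZMod p) V}

/-- the mod `p` cyclotomic character as a scalar -/
noncomputable def chiQ (p : ℕ) [Fact p.Prime] (σ : Γℚ) : ZMod p := ((cycloChar p σ : (ZMod p)ˣ) : ZMod p)

theorem chiQ_mul (σ τ : Γℚ) : chiQ p (σ * τ) = chiQ p σ * chiQ p τ := by
  rw [chiQ, map_mul, Units.val_mul]; rfl

theorem chiQ_ne_zero (σ : Γℚ) : chiQ p σ ≠ 0 := Units.ne_zero _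

theorem exists_coc (hadm : IsAdmissibleExtension p V C) :
    ∃ (c₀ v₀ : V) (a : Γℚ → ZMod p), c₀ ∈ C ∧ c₀ ≠ 0 ∧ (∀ x ∈ C, ∃ t : ZMod p, x = t • c₀) ∧
      v₀ ∉ C ∧ ∀ σ : Γℚ, σ • v₀ = chiQ p σ • v₀ + a σ • c₀ := by
  have hp : p.Prime := Fact.out
  obtain ⟨hfC, hrC⟩ := finrank_of_card (p := p) (W := C) (n := 1) (by
    rw [pow_one]; exact hadm.card_sub)
  obtain ⟨c, hc0, hc⟩ := finrank_eq_one_iff'.1 hrC
  have hCtop : C ≠ ⊤ := by
    intro h
    have h1 := hadm.card_sub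
    rw [h, Nat.card_congr (Submodule.topEquiv (R := ZMod p) (M := V)).toEquiv, hadm.card_total] at h1
    have h2 : p ^ 2 = p ^ 1 := by rw [h1, pow_one]
    have := Nat.pow_right_injective hp.two_le h2
    omega
  obtain ⟨v₀, -, hv₀⟩ := SetLike.exists_of_lt (lt_top_iff_ne_top.2 hCtop)
  have hgen : ∀ x ∈ C, ∃ t : ZMod p, x = t • (c : V) := by
    intro x hx
    obtain ⟨t, ht⟩ := hc ⟨x, hx⟩
    exact ⟨t, (congrArg Subtype.val ht).symm⟩
  have h1 : ∀ σ : Γℚ, ∃ t : ZMod p, σ • v₀ - chiQ p σ • v₀ = t • (c : V) := by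
    intro σ
    apply hgen
    have h2 := hadm.cyclo_quot σ v₀
    rw [← coe_cycloChar] at h2
    exact h2
  choose a ha using h1
  refine ⟨c, v₀, a, c.2, fun h => hc0 (Subtype.ext h), hgen, hv₀, fun σ => ?_⟩
  rw [← ha σ]
  abel

variable {c₀ v₀ : V} {a : Γℚ → ZMod p}

theorem coeff_unique (hc₀ : c₀ ∈ C) (hc₀0 : c₀ ≠ 0) (hv₀ : v₀ ∉ C) {s t s' t' : ZMod p}
    (h : s • v₀ + t • c₀ = s' • v₀ + t' • c₀) : s = s' ∧ t = t' := by
  have h1 : (s - s') • v₀ = (t' - t) • c₀ := by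
    rw [sub_smul, sub_smul, sub_eq_sub_iff_add_eq_add, h]
    abel
  have hs : s - s' = 0 := by
    by_contra hne
    apply hv₀
    have h2 : v₀ = (s - s')⁻¹ • (t' - t) • c₀ := by
      rw [← h1, ← mul_smul, inv_mul_cancel₀ hne, one_smul]
    rw [h2]
    exact C.smul_mem _ (C.smul_mem _ hc₀)
  rw [hs, zero_smul, eq_comm, smul_eq_zero] at h1
  exact ⟨sub_eq_zero.1 hs, (sub_eq_zero.1 (h1.resolve_right hc₀0)).symm⟩

theorem coc_mul (hadm : IsAdmissibleExtension p V C) (hc₀ : c₀ ∈ C) (hc₀0 : c₀ ≠ 0)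
    (hv₀ : v₀ ∉ C) (ha : ∀ σ : Γℚ, σ • v₀ = chiQ p σ • v₀ + a σ • c₀) (σ τ : Γℚ) :
    a (σ * τ) = chiQ p τ * a σ + a τ := by
  have h1 := ha (σ * τ)
  rw [mul_smul, ha τ, smul_add, smul_comm σ (chiQ p τ), smul_comm σ (a τ),
    hadm.fixed_sub σ c₀ hc₀, ha σ, smul_add, ← mul_smul, ← mul_smul, add_assoc, ← add_smul] at h1
  exact (coeff_unique hc₀ hc₀0 hv₀ h1).2.symm

theorem splits_of_coc (hadm : IsAdmissibleExtension p V C) (hc₀ : c₀ ∈ C)
    (hc₀0 : c₀ ≠ 0) (hv₀ : v₀ ∉ C) (ha : ∀ σ : Γℚ, σ • v₀ = chiQ p σ • v₀ + a σ • c₀)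
    (h0 : ∀ σ : Γℚ, chiQ p σ = 1 → a σ = 0) {g : Γℚ} (hg : chiQ p g ≠ 1) : SplitsGlobally C := by
  set r := chiQ p g with hr
  have hr1 : r - 1 ≠ 0 := sub_ne_zero.2 hg
  let v₁ : V := v₀ + (a g / (r - 1)) • c₀
  have hv₁ : v₁ ∉ C := by
    intro h
    apply hv₀
    have : v₀ = v₁ - (a g / (r - 1)) • c₀ := by simp [v₁]
    rw [this]
    exact C.sub_mem h (C.smul_mem _ hc₀)
  -- the coefficient of `σ v₁`
  let b : Γℚ → ZMod p := fun σ => a σ + (a g / (r - 1)) * (1 - chiQ p σ)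
  have hb : ∀ σ : Γℚ, σ • v₁ = chiQ p σ • v₁ + b σ • c₀ := by
    intro σ
    simp only [v₁, b]
    rw [smul_add, smul_comm σ (a g / (r - 1)), hadm.fixed_sub σ c₀ hc₀, ha σ, smul_add, ← mul_smul,
      add_smul, mul_sub, sub_smul, mul_one, mul_comm (chiQ p σ)]
    abel
  have hbg : b g = 0 := by
    simp only [b]
    rw [← hr]
    field_simp
    ring
  have hb0 : ∀ σ : Γℚ, chiQ p σ = 1 → b σ = 0 := by
    intro σ hσ
    simp only [b]
    rw [h0 σ hσ, hσ]
    ring
  have hbmul := coc_mul hadm hc₀ hc₀0 hv₁ hb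
  have hball : ∀ σ : Γℚ, b σ = 0 := by
    intro σ
    have h1 : σ * g = (σ * g * σ⁻¹ * g⁻¹) * (g * σ) := by group
    have hχ : chiQ p (σ * g * σ⁻¹ * g⁻¹) = 1 := by
      simp only [chiQ, map_mul, map_inv]
      rw [mul_comm (cycloChar p σ), mul_inv_cancel_right, mul_inv_cancel, Units.val_one]
    have h2 := hbmul σ g
    rw [h1, hbmul, hb0 _ hχ, hbmul g σ, hbg, mul_zero, mul_zero, zero_add, zero_add, add_zero] at h2
    have h3 : (r - 1) * b σ = 0 := by
      rw [sub_mul, one_mul, sub_eq_zero]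
      exact h2.symm
    exact (mul_eq_zero.1 h3).resolve_left hr1
  refine ⟨Submodule.span (ZMod p) {v₁}, ?_, ?_⟩
  · intro σ x hx
    obtain ⟨t, rfl⟩ := Submodule.mem_span_singleton.1 hx
    rw [smul_comm, hb σ, hball σ, zero_smul, add_zero]
    exact Submodule.smul_mem _ _ (Submodule.smul_mem _ _ (Submodule.mem_span_singleton_self _))
  · exact isCompl_span (by rw [pow_one]; exact hadm.card_sub) hadm.card_total hv₁

end Coc

theorem chiQ_apply {p : ℕ} [Fact p.Prime] (σ : Γℚ) {ζ : Qbar} (hζ : ζ ^ p = 1) :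
    σ ζ = ζ ^ (chiQ p σ).val := CycChar.apply_eq_pow_cycloChar p σ hζ

theorem pow_val_inj {p : ℕ} [Fact p.Prime] {M : Type*} [CommMonoid M] {ζ : M} (hζ : IsPrimitiveRoot ζ p)
    {x y : ZMod p} (h : ζ ^ x.val = ζ ^ y.val) : x = y :=
  ZMod.val_injective p (hζ.pow_inj (ZMod.val_lt x) (ZMod.val_lt y) h)

theorem extVanishingCts_of_bound {p : ℕ} [Fact p.Prime] (h3 : 3 ≤ p)
    (hb : ∀ (K : Type) [Field K] [NumberField K], PrimeBound K) : ExtVanishingCts p := by
  intro V _ _ _ _ C hadm'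
  by_contra hns
  have hp : p.Prime := Fact.out
  have : NeZero p := ⟨hp.ne_zero⟩
  have hadm := hadm'.toIsAdmissibleExtension
  obtain ⟨c₀, v₀, a, hc₀, hc₀0, hgen, hv₀, ha⟩ := exists_coc hadm
  have hmul := coc_mul hadm hc₀ hc₀0 hv₀ ha
  -- level
  let U : Set Γℚ := {σ | ∀ v : V, σ • v = v}
  have hU : U ∈ nhds (1 : Γℚ) := hadm'.open_kernel.mem_nhds (fun v => one_smul _ v)
  obtain ⟨E₀, hfd, hnormal, hE₀⟩ := (krullTopology_mem_nhds_one_iff_of_normal ℚ Qbar U).1 hU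
  obtain ⟨ζ, hζ⟩ : ∃ ζ : Qbar, IsPrimitiveRoot ζ p := HasEnoughRootsOfUnity.exists_primitiveRoot Qbar p
  have hfdζ : FiniteDimensional ℚ (IntermediateField.adjoin ℚ {ζ}) :=
    IntermediateField.adjoin.finiteDimensional (hζ.isIntegral hp.pos).tower_top
  let F : IntermediateField ℚ Qbar := E₀ ⊔ IntermediateField.adjoin ℚ {ζ}
  let L : IntermediateField ℚ Qbar := IntermediateField.normalClosure ℚ F Qbar
  have hLfd : FiniteDimensional ℚ L := normalClosure.is_finiteDimensional ℚ F Qbar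
  have hLn : Normal ℚ L := normalClosure.normal ℚ F Qbar
  have hLg : IsGalois ℚ L := {}
  have hLN : NumberField L := { to_finiteDimensional := inferInstance }
  have hFL : F ≤ L := F.le_normalClosure
  have hζL : ζ ∈ L := hFL ((le_sup_right : _ ≤ F)
    (IntermediateField.mem_adjoin_simple_self ℚ ζ))
  have hE₀L : E₀ ≤ L := le_sup_left.trans hFL
  let ζL : L := ⟨ζ, hζL⟩
  have hζL' : IsPrimitiveRoot ζL p := by
    have : IsPrimitiveRoot (algebraMap L Qbar ζL) p := hζ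
    exact this.of_map_of_injective (algebraMap L Qbar).injective
  let K : IntermediateField ℚ L := IntermediateField.adjoin ℚ {ζL}
  have hKcyc : IsCyclotomicExtension {p} ℚ K :=
    hζL'.intermediateField_adjoin_isCyclotomicExtension ℚ
  have hKN : NumberField K := { to_finiteDimensional := inferInstance }
  let z : K := ⟨ζL, IntermediateField.mem_adjoin_simple_self ℚ ζL⟩
  have hz : IsPrimitiveRoot z p := by
    have : IsPrimitiveRoot (algebraMap K L z) p := hζL'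
    exact this.of_map_of_injective (algebraMap K L).injective
  have hKn : Normal ℚ K := (IsCyclotomicExtension.isGalois {p} ℚ K).to_normal
  -- restriction
  have hsurj : ∀ h : Gal(L/ℚ), ∃ σ : Γℚ, σ.restrictNormal L = h :=
    AlgEquiv.restrictNormalHom_surjective (F := ℚ) (K₁ := L) Qbar
  have hres : ∀ (σ : Γℚ) (x : L), (((σ.restrictNormal L) x : L) : Qbar) = σ (x : Qbar) :=
    fun σ x => AlgEquiv.restrictNormal_commutes σ L x
  have hkey : ∀ σ σ' : Γℚ, σ.restrictNormal L = σ'.restrictNormal L → a σ = a σ' := by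
    intro σ σ' h
    have h1 : ∀ x ∈ L, σ x = σ' x := by
      intro x hx
      have h2 := hres σ ⟨x, hx⟩
      have h3 := hres σ' ⟨x, hx⟩
      rw [h] at h2
      rw [← h2, ← h3]
    have h2 : σ⁻¹ * σ' ∈ U := by
      apply hE₀
      rw [SetLike.mem_coe, IntermediateField.mem_fixingSubgroup_iff]
      intro x hx
      rw [AlgEquiv.mul_apply, ← h1 x (hE₀L hx)]
      exact σ.symm_apply_apply x
    have h3 : σ • v₀ = σ' • v₀ := by
      have h4 := h2 v₀
      rw [mul_smul, inv_smul_eq_iff] at h4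
      exact h4.symm
    rw [ha σ, ha σ'] at h3
    exact (coeff_unique hc₀ hc₀0 hv₀ h3).2
  choose lift hlift using hsurj
  let aL : Gal(L/ℚ) → ZMod p := fun h => a (lift h)
  have haL : ∀ σ : Γℚ, aL (σ.restrictNormal L) = a σ := fun σ => hkey _ _ (hlift _)
  have hchi : ∀ σ : Γℚ, (chiL p K (σ.restrictNormal L) : ZMod p) = chiQ p σ := by
    intro σ
    apply pow_val_inj hζ
    rw [← chiQ_apply σ hζ.pow_eq_one]
    have h1 := congrArg (algebraMap (𝓞 L) L) (apply_zeta (L := L) hz (σ.restrictNormal L))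
    rw [map_pow] at h1
    have h2 : (σ.restrictNormal L) ζL = ζL ^ (chiL p K (σ.restrictNormal L) : ZMod p).val := h1
    have h4 := congrArg (algebraMap L Qbar) h2
    rw [map_pow] at h4
    exact h4.symm.trans (hres σ ζL)
  have hmulL : ∀ g h : Gal(L/ℚ), aL (g * h) = (chiL p K h : ZMod p) * aL g + aL h := by
    intro g h
    obtain ⟨σ, rfl⟩ : ∃ σ : Γℚ, σ.restrictNormal L = g := ⟨_, hlift g⟩
    obtain ⟨τ, rfl⟩ : ∃ τ : Γℚ, τ.restrictNormal L = h := ⟨_, hlift h⟩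
    have h1 : σ.restrictNormal L * τ.restrictNormal L = (σ * τ).restrictNormal L :=
      (map_mul (AlgEquiv.restrictNormalHom (F := ℚ) (K₁ := Qbar) L) σ τ).symm
    rw [h1, haL, haL, haL, hchi, hmul]
  have hgalKL : IsGalois K L := IsGalois.tower_top_of_isGalois ℚ K L
  -- non-splitting
  have hne : ∃ τ : Gal(L/K), aL (τ.restrictScalars ℚ) ≠ 0 := by
    by_contra! hall
    apply hns
    have h0 : ∀ σ : Γℚ, chiQ p σ = 1 → a σ = 0 := by
      intro σ hσ
      rw [← haL]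
      have h1 : (σ.restrictNormal L).restrictNormal K = 1 := by
        apply (IsCyclotomicExtension.Rat.galEquivZMod p K).injective
        rw [map_one]
        ext
        rw [Units.val_one, ← hσ]
        exact hchi σ
      have h2 : ∀ x : K, (σ.restrictNormal L) (algebraMap K L x) = algebraMap K L x := by
        intro x
        rw [← AlgEquiv.restrictNormal_commutes, h1]
        rfl
      have h3 := hall (toK (σ.restrictNormal L) h2)
      rw [toK_restrictScalars] at h3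
      exact h3
    have h2cop : Nat.Coprime 2 p := by
      rw [Nat.coprime_primes Nat.prime_two hp]; omega
    obtain ⟨gL, hgL⟩ := AlgEquiv.restrictNormalHom_surjective (F := ℚ) (K₁ := K) L
      ((IsCyclotomicExtension.Rat.galEquivZMod p K).symm (ZMod.unitOfCoprime 2 h2cop))
    obtain ⟨g, rfl⟩ : ∃ σ : Γℚ, σ.restrictNormal L = gL := ⟨_, hlift gL⟩
    refine splits_of_coc hadm hc₀ hc₀0 hv₀ ha h0 (g := g) ?_
    rw [← hchi g]
    have h4 : chiL p K (g.restrictNormal L) = ZMod.unitOfCoprime 2 h2cop := by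
      have h5 : (g.restrictNormal L).restrictNormal K =
        (IsCyclotomicExtension.Rat.galEquivZMod p K).symm (ZMod.unitOfCoprime 2 h2cop) := hgL
      rw [chiL, h5, MulEquiv.apply_symm_apply]
    rw [h4, ZMod.coe_unitOfCoprime]
    intro h6
    have h7 : ((2 : ℕ) : ZMod p) = ((1 : ℕ) : ZMod p) := by rw [h6, Nat.cast_one]
    rw [ZMod.natCast_eq_natCast_iff', Nat.mod_eq_of_lt (by omega), Nat.mod_eq_of_lt (by omega)] at h7
    omega
  -- inertia
  have hI : ∀ Q : Ideal (𝓞 L), Q.IsPrime → Q ≠ ⊥ → (p : 𝓞 L) ∉ Q →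
      ∀ τ ∈ Q.inertia Gal(L/ℚ), aL τ = 0 := by
    intro Q hQ hQ0 hpQ τ hτ
    have hQmax : Q.IsMaximal := hQ.isMaximal hQ0
    obtain ⟨A, hA⟩ := Frob.exists_below_eq (L := Qbar) Q
    obtain ⟨ℓ, hℓ, hℓQ⟩ : ∃ ℓ : ℕ, ℓ.Prime ∧ (ℓ : 𝓞 L) ∈ Q := by
      have : NeZero Q := ⟨hQ0⟩
      refine ⟨_, Nat.absNorm_under_prime Q, ?_⟩
      have h := Ideal.absNorm_mem (Q.under ℤ)
      rw [Ideal.mem_comap] at h
      simpa using h
    have hA' : A.LiesOverPrime ℓ := Frob.liesOverPrime_of_mem_below (R := 𝓞 L) (by rw [hA]; exact hℓQ)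
    have hℓp : ℓ ≠ p := by rintro rfl; exact hpQ hℓQ
    obtain ⟨σ, hσ, hσ'⟩ := Frob.exists_mem_inertia_restrict (L := Qbar) (K := ℚ) L A hℓ hA' τ
      (by rw [hA]; exact hτ)
    rw [← hσ', haL]
    have h1 := hadm.unramified_outside ℓ hℓ hℓp A hA' σ hσ v₀
    have h2 : (1 : ZMod p) • v₀ + (0 : ZMod p) • c₀ = chiQ p σ • v₀ + a σ • c₀ := by
      rw [← ha σ, h1, one_smul, zero_smul, add_zero]
    exact (coeff_unique hc₀ hc₀0 hv₀ h2).2.symm
  -- decomposition
  have hD : ∀ Q : Ideal (𝓞 L), Q.IsPrime → (p : 𝓞 L) ∈ Q → ∀ τ : Gal(L/K), τ • Q = Q →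
      aL (τ.restrictScalars ℚ) = 0 := by
    intro Q hQ hpQ τ hτ
    have hQ0 : Q ≠ ⊥ := ne_bot_of_mem hp hpQ
    have hQmax : Q.IsMaximal := hQ.isMaximal hQ0
    obtain ⟨A, hA⟩ := Frob.exists_below_eq (L := Qbar) Q
    have hA' : A.LiesOverPrime p := Frob.liesOverPrime_of_mem_below (R := 𝓞 L) (by rw [hA]; exact hpQ)
    obtain ⟨σ, hσ, hσ'⟩ := Frob.exists_mem_decomposition_restrict (L := Qbar) (K := ℚ) L A hp hA'
      (τ.restrictScalars ℚ) (by rw [hA]; exact hτ)
    have hχ : chiQ p σ = 1 := by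
      rw [← hchi, hσ', chiL_of_fix, Units.val_one]
    rw [← hσ', haL]
    obtain ⟨C', hC'stab, hC'⟩ := hadm.locally_split A hA'
    obtain ⟨c, hc, v', hv', hcv⟩ := Submodule.mem_sup.1
      (show v₀ ∈ C ⊔ C' by rw [hC'.sup_eq_top]; trivial)
    have h1 : σ • v' = v' + a σ • c₀ := by
      have h2 := ha σ
      rw [hχ, one_smul] at h2
      have h3 : v' = v₀ - c := by rw [← hcv]; abel
      rw [h3, smul_sub, hadm.fixed_sub σ c hc, h2]
      abel
    have h2 : a σ • c₀ ∈ C' := by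
      have h3 : a σ • c₀ = σ • v' - v' := by rw [h1]; abel
      rw [h3]
      exact C'.sub_mem (hC'stab σ hσ v' hv') hv'
    have h3 : a σ • c₀ ∈ C := C.smul_mem _ hc₀
    have h4 := (Submodule.disjoint_def.1 hC'.disjoint) _ h3 h2
    exact (smul_eq_zero.1 h4).resolve_right hc₀0
  exact kummer_main h3 hz hmulL hne hI hD (hb K)

end Fermat.Agent.S14Lib
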