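import Fermat.Agent.S14Lib.Thaine2

/-!
# Thaine's relation in the class group
-/

set_option autoImplicit false

open NumberField Ideal Polynomial UniqueFactorizationMonoid
open scoped Pointwise

namespace Fermat.Agent.S14Lib

section General

variable {R : Type*} [CommRing R] [IsDedekindDomain R] {A : Type*} [AddCommGroup A]

theorem map_multiset_prod {F : Ideal R → A}
    (hmul : ∀ I J, I ≠ ⊥ → J ≠ ⊥ → F (I * J) = F I + F J) (s : Multiset (Ideal R))
    (hs : ∀ I ∈ s, I ≠ ⊥) : F s.prod = (s.map F).sum := by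
  have h1 : F 1 = 0 := by
    have := hmul 1 1 (by simp) (by simp)
    rw [mul_one] at this
    simpa using this
  induction s using Multiset.induction_on with
  | empty => simpa using h1
  | cons a s ih =>
    rw [Multiset.prod_cons, Multiset.map_cons, Multiset.sum_cons, hmul, ih]
    · exact fun I hI => hs I (Multiset.mem_cons_of_mem hI)
    · exact hs a (Multiset.mem_cons_self a s)
    · have : (0 : Ideal R) ∉ s := fun h0 => hs 0 (Multiset.mem_cons_of_mem h0) rfl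
      exact Multiset.prod_ne_zero this

theorem map_span_eq_sum [DecidableEq (Ideal R)] {F : Ideal R → A}
    (hmul : ∀ I J, I ≠ ⊥ → J ≠ ⊥ → F (I * J) = F I + F J) {I : Ideal R} (hI : I ≠ ⊥) :
    F I = ∑ P ∈ (normalizedFactors I).toFinset, multiplicity P I • F P := by
  conv_lhs => rw [← Ideal.prod_normalizedFactors_eq_self hI]
  rw [map_multiset_prod hmul, Finset.sum_multiset_map_count]
  · refine Finset.sum_congr rfl fun P hP => ?_
    rw [Multiset.mem_toFinset] at hP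
    rw [multiplicity_eq_count_normalizedFactors (irreducible_of_normalized_factor P hP) hI,
      normalize_normalized_factor P hP]
  · intro P hP h0
    exact (prime_of_normalized_factor P hP).ne_zero h0

end General

variable {p q : ℕ} [Fact p.Prime] [Fact q.Prime] {K : Type} [Field K] [NumberField K]
  [IsCyclotomicExtension {p} ℚ K]

theorem stabilizer_eq_bot (hqp : q % p = 1) {P : Ideal (𝓞 K)} (hP : P.IsPrime)
    (hq : (q : 𝓞 K) ∈ P) : MulAction.stabilizer Gal(K/ℚ) P = ⊥ := by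
  have hp' : p.Prime := Fact.out
  have hq' : q.Prime := Fact.out
  have hP0 := ne_bot_of_mem hq' hq
  have := hP.isMaximal hP0
  have := liesOver_of_mem hq' hP hq
  have hcop : q.Coprime p := by
    rw [Nat.coprime_comm, hp'.coprime_iff_not_dvd]
    intro h
    rw [Nat.mod_eq_zero_of_dvd h] at hqp
    exact zero_ne_one hqp
  rw [eq_bot_iff]
  intro σ hσ
  have h1 := IsCyclotomicExtension.Rat.mem_zpowers_galEquivZMod_of_mem_stabilizer p K q P hcop hσ
  have h2 : ZMod.unitOfCoprime q hcop = 1 := by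
    ext
    rw [ZMod.coe_unitOfCoprime, Units.val_one]
    have : ((q : ℕ) : ZMod p) = ((1 : ℕ) : ZMod p) := by
      rw [ZMod.natCast_eq_natCast_iff', hqp, Nat.mod_eq_of_lt hp'.one_lt]
    simpa using this
  rw [h2, Subgroup.zpowers_one_eq_bot, Subgroup.mem_bot, map_eq_one_iff _ (MulEquiv.injective _)]
    at h1
  rw [h1]
  exact Subgroup.one_mem _

theorem smul_injective_of_mem (hqp : q % p = 1) {P : Ideal (𝓞 K)} (hP : P.IsPrime)
    (hq : (q : 𝓞 K) ∈ P) : Function.Injective (fun σ : Gal(K/ℚ) => σ • P) := by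
  intro σ τ h
  have h1 : τ⁻¹ * σ ∈ MulAction.stabilizer Gal(K/ℚ) P := by
    rw [MulAction.mem_stabilizer_iff, mul_smul]
    change σ • P = τ • P at h
    rw [h, inv_smul_smul]
  rw [stabilizer_eq_bot hqp hP hq, Subgroup.mem_bot] at h1
  exact (inv_mul_eq_one.1 h1).symm

theorem natCast_mem_smul {P : Ideal (𝓞 K)} {n : ℕ} (σ : Gal(K/ℚ)) :
    (n : 𝓞 K) ∈ σ • P ↔ (n : 𝓞 K) ∈ P := by
  have h : σ • (n : 𝓞 K) = n := by
    rw [← Nat.smul_one_eq_cast, smul_comm, smul_one]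
  conv_lhs => rw [← h]
  exact Ideal.smul_mem_pointwise_smul_iff

/-- **Thaine's relation**. -/
theorem thaine_relation {F : Ideal (𝓞 K) → ZMod p}
    (hmul : ∀ I J, I ≠ ⊥ → J ≠ ⊥ → F (I * J) = F I + F J)
    (hprin : ∀ x, x ≠ 0 → F (span {x}) = 0) (hpq : p ≠ q) (hqp : q % p = 1)
    {z : K} (hz : IsPrimitiveRoot z p) {P : Ideal (𝓞 K)} (hP : P.IsPrime) (hq : (q : 𝓞 K) ∈ P) :
    ∃ (s : ℕ) (a : Gal(K/ℚ) → ℕ), s.Coprime q ∧ ∑ σ, (a σ : ZMod p) * F (σ • P) = 0 ∧
      ∀ σ : Gal(K/ℚ), σ⁻¹ • (1 - hz.toInteger) - (s : 𝓞 K) ^ (a σ) ∈ P := by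
  classical
  have hp' : p.Prime := Fact.out
  have hq' : q.Prime := Fact.out
  have hP0 := ne_bot_of_mem hq' hq
  have : IsGalois ℚ K := IsCyclotomicExtension.isGalois {p} ℚ K
  obtain ⟨s, κ, hs, hκ, h1, h2⟩ := exists_thaine_element hpq hqp hz
  refine ⟨s, fun σ => multiplicity (σ • P) (span {κ}), hs, ?_, ?_⟩
  · have hκ0 : span {κ} ≠ (⊥ : Ideal (𝓞 K)) := by simpa using hκ
    have h3 := hprin κ hκ
    rw [map_span_eq_sum hmul hκ0] at h3
    set T1 := (normalizedFactors (span {κ})).toFinset with hT1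
    set T2 : Finset (Ideal (𝓞 K)) := Finset.univ.image (fun σ : Gal(K/ℚ) => σ • P) with hT2
    have h4 : ∑ Q ∈ T1, multiplicity Q (span {κ}) • F Q =
        ∑ Q ∈ T1 ∪ T2, multiplicity Q (span {κ}) • F Q := by
      apply Finset.sum_subset Finset.subset_union_left
      intro Q hQ hQ1
      rw [Finset.mem_union, or_iff_right hQ1, hT2, Finset.mem_image] at hQ
      obtain ⟨σ, -, rfl⟩ := hQ
      have hQp : (σ • P).IsPrime := inferInstance
      have hQ0 : σ • P ≠ ⊥ := ne_bot_of_mem hq' ((natCast_mem_smul σ).2 hq)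
      have h5 : multiplicity (σ • P) (span {κ}) = 0 := by
        rw [multiplicity_eq_zero]
        intro hdvd
        apply hQ1
        rw [hT1, Multiset.mem_toFinset]
        exact (Ideal.mem_normalizedFactors_iff hκ0).2 ⟨hQp, Ideal.dvd_iff_le.1 hdvd⟩
      rw [h5, zero_smul]
    have h5 : ∑ Q ∈ T2, multiplicity Q (span {κ}) • F Q =
        ∑ Q ∈ T1 ∪ T2, multiplicity Q (span {κ}) • F Q := by
      apply Finset.sum_subset Finset.subset_union_right
      intro Q hQ hQ2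
      rw [Finset.mem_union, or_iff_left hQ2, hT1, Multiset.mem_toFinset] at hQ
      have hQp := ((Ideal.mem_normalizedFactors_iff hκ0).1 hQ).1
      have hQ0 : Q ≠ ⊥ := (prime_of_normalized_factor Q hQ).ne_zero
      have hqQ : (q : 𝓞 K) ∉ Q := by
        intro hqQ
        apply hQ2
        have := liesOver_of_mem hq' hQp hqQ
        have := liesOver_of_mem hq' hP hq
        obtain ⟨σ, hσ⟩ := Ideal.exists_smul_eq_of_isGaloisGroup (span {(q : ℤ)}) P Q Gal(K/ℚ)
        rw [hT2, Finset.mem_image]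
        exact ⟨σ, Finset.mem_univ _, hσ⟩
      obtain ⟨m, hm⟩ := h1 Q hQp hQ0 hqQ
      rw [hm, nsmul_eq_mul]
      simp
    rw [h4, ← h5, hT2, Finset.sum_image (fun _ _ _ _ h => smul_injective_of_mem hqp hP hq h)] at h3
    simpa [nsmul_eq_mul] using h3
  · intro σ
    have h3 := h2 (σ • P) inferInstance ((natCast_mem_smul σ).2 hq)
    have h4 : σ⁻¹ • ((1 - hz.toInteger) - (s : 𝓞 K) ^ multiplicity (σ • P) (span {κ})) ∈ P := by
      rw [← Ideal.smul_mem_pointwise_smul_iff (a := σ), smul_inv_smul]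
      exact h3
    have h5 : σ⁻¹ • (s : 𝓞 K) = s := by
      rw [← Nat.smul_one_eq_cast, smul_comm, smul_one]
    rw [smul_sub, smul_pow', h5] at h4
    exact h4

/-- The exponents `n_σ ≡ ω(σ)²` -/
noncomputable def nexp (p : ℕ) [Fact p.Prime] {K : Type} [Field K] [NumberField K]
    [IsCyclotomicExtension {p} ℚ K] (σ : Gal(K/ℚ)) : ℕ :=
  (((IsCyclotomicExtension.Rat.galEquivZMod p K σ : (ZMod p)ˣ) : ZMod p) ^ 2).val

theorem nexp_cast (σ : Gal(K/ℚ)) : ((nexp p σ : ℕ) : ZMod p) =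
    ((IsCyclotomicExtension.Rat.galEquivZMod p K σ : (ZMod p)ˣ) : ZMod p) ^ 2 := by
  rw [nexp, ZMod.natCast_zmod_val]

/-- The cyclotomic number `E₂ = ∏ σ⁻¹(1-ζ)^{n_σ}`. -/
noncomputable def cycE {z : K} (hz : IsPrimitiveRoot z p) : 𝓞 K :=
  ∏ σ : Gal(K/ℚ), (σ⁻¹ • (1 - hz.toInteger)) ^ (nexp p σ)

/-- Thaine: `E₂` is a `p`-th power modulo every degree one prime `P` with `F P ≠ 0`. -/
theorem cycE_pow {F : Ideal (𝓞 K) → ZMod p}
    (hmul : ∀ I J, I ≠ ⊥ → J ≠ ⊥ → F (I * J) = F I + F J)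
    (hprin : ∀ x, x ≠ 0 → F (span {x}) = 0)
    (hequiv : ∀ (σ : Gal(K/ℚ)) (I : Ideal (𝓞 K)), I ≠ ⊥ → F (σ • I) =
      ((IsCyclotomicExtension.Rat.galEquivZMod p K σ : (ZMod p)ˣ) : ZMod p) ^ 2 * F I)
    (hpq : p ≠ q) (hqp : q % p = 1)
    {z : K} (hz : IsPrimitiveRoot z p) {P : Ideal (𝓞 K)} (hP : P.IsPrime) (hq : (q : 𝓞 K) ∈ P)
    (hF : F P ≠ 0) : ∃ b : 𝓞 K, b ∉ P ∧ cycE hz - b ^ p ∈ P := by
  have hq' : q.Prime := Fact.out
  have hP0 := ne_bot_of_mem hq' hq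
  obtain ⟨s, a, hs, h1, h2⟩ := thaine_relation hmul hprin hpq hqp hz hP hq
  have h3 : ((∑ σ : Gal(K/ℚ), nexp p σ * a σ : ℕ) : ZMod p) = 0 := by
    have h4 : ∑ σ, (a σ : ZMod p) * F (σ • P) =
        ((∑ σ : Gal(K/ℚ), nexp p σ * a σ : ℕ) : ZMod p) * F P := by
      rw [Nat.cast_sum, Finset.sum_mul]
      refine Finset.sum_congr rfl fun σ _ => ?_
      rw [hequiv σ P hP0, Nat.cast_mul, nexp_cast]
      ring
    rw [h4] at h1
    exact (mul_eq_zero.1 h1).resolve_right hF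
  rw [ZMod.natCast_eq_zero_iff] at h3
  obtain ⟨m, hm⟩ := h3
  refine ⟨(s : 𝓞 K) ^ m, ?_, ?_⟩
  · intro h
    have h4 := hP.mem_of_pow_mem _ h
    obtain ⟨u, v, huv⟩ := Nat.isCoprime_iff_coprime.2 hs
    apply hP.ne_top
    rw [Ideal.eq_top_iff_one]
    have h5 : ((u : 𝓞 K)) * s + v * q = 1 := by exact_mod_cast congrArg (Int.cast : ℤ → 𝓞 K) huv
    rw [← h5]
    exact P.add_mem (P.mul_mem_left _ h4) (P.mul_mem_left _ hq)
  · rw [← Ideal.Quotient.eq, cycE, map_prod]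
    have h4 : ∀ σ : Gal(K/ℚ), Ideal.Quotient.mk P ((σ⁻¹ • (1 - hz.toInteger)) ^ nexp p σ) =
        (Ideal.Quotient.mk P (s : 𝓞 K)) ^ (nexp p σ * a σ) := by
      intro σ
      rw [map_pow, Ideal.Quotient.eq.2 (h2 σ), map_pow, ← pow_mul, mul_comm]
    rw [Finset.prod_congr rfl fun σ _ => h4 σ, Finset.prod_pow_eq_pow_sum, hm, ← pow_mul, map_pow,
      mul_comm]

end Fermat.Agent.S14Lib
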