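import Fermat.Agent.S14Lib.ClassRep
import Fermat.Agent.S14Lib.ThaineRel

/-!
# Equivariant functionals on the class group of `ℚ(ζ_p)`
-/

set_option autoImplicit false

open NumberField Ideal
open scoped Pointwise nonZeroDivisors

namespace Fermat.Agent.S14Lib

section Lift

variable {R : Type*} [CommRing R] [IsDedekindDomain R] {M : Type*} [CommMonoid M]

theorem span_mem_nonZeroDivisors {x : R} (hx : x ≠ 0) : span {x} ∈ (Ideal R)⁰ := by
  rw [mem_nonZeroDivisors_iff_ne_zero]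
  simpa using hx

/-- A homomorphism on ideals trivial on principal ideals descends to the class group. -/
noncomputable def classLift (φ : (Ideal R)⁰ →* M)
    (h : ∀ (x : R) (hx : x ≠ 0), φ ⟨span {x}, span_mem_nonZeroDivisors hx⟩ = 1) :
    ClassGroup R →* M :=
  have key : ∀ I J : (Ideal R)⁰, ClassGroup.mk0 I = ClassGroup.mk0 J → φ I = φ J := by
    intro I J hIJ
    rw [ClassGroup.mk0_eq_mk0_iff] at hIJ
    obtain ⟨x, y, hx, hy, hxy⟩ := hIJ
    have h1 : (⟨span {x}, span_mem_nonZeroDivisors hx⟩ : (Ideal R)⁰) * I =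
        ⟨span {y}, span_mem_nonZeroDivisors hy⟩ * J := Subtype.ext hxy
    have h2 := congrArg φ h1
    rwa [map_mul, map_mul, h x hx, h y hy, one_mul, one_mul] at h2
  { toFun := fun c => φ (Function.surjInv ClassGroup.mk0_surjective c)
    map_one' := by
      rw [← map_one φ]
      apply key
      rw [Function.surjInv_eq ClassGroup.mk0_surjective, map_one]
    map_mul' := by
      intro a b
      rw [← map_mul φ]
      apply key
      rw [Function.surjInv_eq ClassGroup.mk0_surjective, map_mul,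
        Function.surjInv_eq ClassGroup.mk0_surjective,
        Function.surjInv_eq ClassGroup.mk0_surjective] }

theorem classLift_mk0 (φ : (Ideal R)⁰ →* M)
    (h : ∀ (x : R) (hx : x ≠ 0), φ ⟨span {x}, span_mem_nonZeroDivisors hx⟩ = 1) (I : (Ideal R)⁰) :
    classLift φ h (ClassGroup.mk0 I) = φ I := by
  have key : ∀ I J : (Ideal R)⁰, ClassGroup.mk0 I = ClassGroup.mk0 J → φ I = φ J := by
    intro I J hIJ
    rw [ClassGroup.mk0_eq_mk0_iff] at hIJ
    obtain ⟨x, y, hx, hy, hxy⟩ := hIJ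
    have h1 : (⟨span {x}, span_mem_nonZeroDivisors hx⟩ : (Ideal R)⁰) * I =
        ⟨span {y}, span_mem_nonZeroDivisors hy⟩ * J := Subtype.ext hxy
    have h2 := congrArg φ h1
    rwa [map_mul, map_mul, h x hx, h y hy, one_mul, one_mul] at h2
  change φ (Function.surjInv ClassGroup.mk0_surjective (ClassGroup.mk0 I)) = φ I
  apply key
  rw [Function.surjInv_eq ClassGroup.mk0_surjective]

end Lift

variable {p : ℕ} [Fact p.Prime] {K : Type} [Field K] [NumberField K]

theorem smul_ne_bot (σ : Gal(K/ℚ)) {I : Ideal (𝓞 K)} (hI : I ≠ ⊥) : σ • I ≠ ⊥ := by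
  intro h
  apply hI
  have := congrArg (σ⁻¹ • ·) h
  simpa using this

/-- Galois action on nonzero ideals -/
noncomputable def ismul (σ : Gal(K/ℚ)) : (Ideal (𝓞 K))⁰ →* (Ideal (𝓞 K))⁰ where
  toFun I := ⟨σ • (I : Ideal (𝓞 K)), mem_nonZeroDivisors_iff_ne_zero.2
    (smul_ne_bot σ (mem_nonZeroDivisors_iff_ne_zero.1 I.2))⟩
  map_one' := Subtype.ext (smul_one σ)
  map_mul' _ _ := Subtype.ext (smul_mul' σ _ _)

/-- Galois action on the class group. -/
noncomputable def cact (σ : Gal(K/ℚ)) : ClassGroup (𝓞 K) →* ClassGroup (𝓞 K) :=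
  classLift (ClassGroup.mk0.comp (ismul σ)) (by
    intro x hx
    rw [MonoidHom.comp_apply, ClassGroup.mk0_eq_one_iff]
    refine ⟨σ • x, ?_⟩
    change σ • span {x} = _
    rw [Ideal.pointwise_smul_def, Ideal.map_span, Set.image_singleton]
    rfl)

theorem cact_mk0 (σ : Gal(K/ℚ)) (I : (Ideal (𝓞 K))⁰) :
    cact σ (ClassGroup.mk0 I) = ClassGroup.mk0 (ismul σ I) := classLift_mk0 _ _ _

theorem cact_mul (σ τ : Gal(K/ℚ)) (c : ClassGroup (𝓞 K)) :
    cact (σ * τ) c = cact σ (cact τ c) := by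
  obtain ⟨I, rfl⟩ := ClassGroup.mk0_surjective c
  rw [cact_mk0, cact_mk0, cact_mk0]
  congr 1
  exact Subtype.ext (mul_smul σ τ _)

variable [IsCyclotomicExtension {p} ℚ K]

theorem nexp_mul_dvd (σ τ : Gal(K/ℚ)) :
    (p : ℤ) ∣ (nexp p (σ * τ) : ℤ) - (nexp p σ : ℤ) * (nexp p τ : ℤ) := by
  rw [← ZMod.intCast_zmod_eq_zero_iff_dvd]
  push_cast
  rw [nexp_cast, nexp_cast, nexp_cast, map_mul, Units.val_mul]
  ring

theorem nexp_one_dvd : (p : ℤ) ∣ (nexp p (1 : Gal(K/ℚ)) : ℤ) - 1 := by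
  rw [← ZMod.intCast_zmod_eq_zero_iff_dvd]
  push_cast
  rw [nexp_cast, map_one, Units.val_one]
  ring

/-- Existence of the equivariant functional. -/
theorem exists_classFun {c : ClassGroup (𝓞 K)} (hc : c ≠ 1) (hcp : c ^ p = 1)
    (hcσ : ∀ σ : Gal(K/ℚ), cact σ c = c ^ (nexp p σ)) :
    ∃ f : ClassGroup (𝓞 K) →* Multiplicative (ZMod p), f ≠ 1 ∧ ∀ (σ : Gal(K/ℚ)) c',
      Multiplicative.toAdd (f (cact σ c')) =
        ((IsCyclotomicExtension.Rat.galEquivZMod p K σ : (ZMod p)ˣ) : ZMod p) ^ 2 *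
        Multiplicative.toAdd (f c') := by
  have hp' : p.Prime := Fact.out
  have hG : ¬ p ∣ Fintype.card Gal(K/ℚ) := by
    have : IsGalois ℚ K := IsCyclotomicExtension.isGalois {p} ℚ K
    rw [← Nat.card_eq_fintype_card, IsGalois.card_aut_eq_finrank,
      IsCyclotomicExtension.Rat.finrank p K, Nat.totient_prime hp']
    intro h
    exact absurd (Nat.le_of_dvd (Nat.sub_pos_of_lt hp'.one_lt) h)
      (not_le.2 (Nat.sub_lt hp'.pos one_pos))
  obtain ⟨f, hf, hfσ⟩ := exists_equivariant (A := Additive (ClassGroup (𝓞 K)))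
    (fun σ : Gal(K/ℚ) => MonoidHom.toAdditive (cact σ)) (fun σ τ y => cact_mul σ τ y) hG
    (fun σ => (nexp p σ : ℤ)) nexp_mul_dvd nexp_one_dvd (x₀ := Additive.ofMul c) hc hcp
    (fun σ => by
      rw [natCast_zsmul]
      exact hcσ σ)
  refine ⟨AddMonoidHom.toMultiplicativeRight f, ?_, ?_⟩
  · intro h
    apply hf
    ext x
    exact DFunLike.congr_fun h x
  · intro σ c'
    have := hfσ σ (Additive.ofMul c')
    rw [Int.cast_natCast, nexp_cast] at this
    exact this

end Fermat.Agent.S14Lib
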