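import Mathlib

/-!
# Equivariant functionals on finite groups with operators
-/

set_option autoImplicit false

open scoped Pointwise

namespace Fermat.Agent.S14Lib

theorem exists_hom_ne_zero' {Q : Type*} [AddCommGroup Q] {p : ℕ} [Fact p.Prime]
    [Module (ZMod p) Q] {x : Q} (hx : x ≠ 0) : ∃ f : Q →ₗ[ZMod p] ZMod p, f x ≠ 0 :=
  Module.Projective.exists_dual_ne_zero (ZMod p) hx

theorem exists_hom_ne_zero {Q : Type*} [AddCommGroup Q] {p : ℕ} [Fact p.Prime]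
    (hQ : ∀ y : Q, p • y = 0) {x : Q} (hx : x ≠ 0) : ∃ f : Q →+ ZMod p, f x ≠ 0 := by
  have inst : Module (ZMod p) Q := AddCommGroup.zmodModule hQ
  obtain ⟨φ, hφ⟩ := exists_hom_ne_zero' (p := p) hx
  exact ⟨φ.toAddMonoidHom, hφ⟩

/-- A finite abelian group whose multiplication by `p` is not injective has a nonzero homomorphism
to `ZMod p`. -/
theorem exists_hom_zmod {B : Type*} [AddCommGroup B] [Finite B] {p : ℕ} [Fact p.Prime] {b : B}
    (hb : b ≠ 0) (hpb : p • b = 0) : ∃ f : B →+ ZMod p, f ≠ 0 := by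
  let S : AddSubgroup B := (nsmulAddMonoidHom p : B →+ B).range
  have hS : S ≠ ⊤ := by
    intro h
    have h1 : Function.Surjective (nsmulAddMonoidHom p : B →+ B) := AddMonoidHom.range_eq_top.1 h
    have h2 := Finite.injective_iff_surjective.2 h1
    apply hb
    apply h2
    rw [map_zero]
    exact hpb
  obtain ⟨x, -, hx⟩ := SetLike.exists_of_lt (lt_top_iff_ne_top.2 hS)
  have hQ : ∀ y : B ⧸ S, p • y = 0 := by
    intro y
    obtain ⟨y, rfl⟩ := QuotientAddGroup.mk_surjective y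
    rw [← QuotientAddGroup.mk_nsmul, QuotientAddGroup.eq_zero_iff]
    exact ⟨y, rfl⟩
  have hx' : (QuotientAddGroup.mk x : B ⧸ S) ≠ 0 := by
    rw [Ne, QuotientAddGroup.eq_zero_iff]
    exact hx
  obtain ⟨φ, hφ⟩ := exists_hom_ne_zero hQ hx'
  refine ⟨φ.comp (QuotientAddGroup.mk' S), ?_⟩
  intro h
  exact hφ (DFunLike.congr_fun h x)

theorem exists_equivariant {G : Type*} [Group G] [Fintype G] {A : Type*} [AddCommGroup A]
    [Finite A] (act : G → A →+ A) (hact : ∀ σ τ y, act (σ * τ) y = act σ (act τ y))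
    {p : ℕ} [Fact p.Prime] (hG : ¬ p ∣ Fintype.card G) (n : G → ℤ)
    (hn : ∀ σ τ, (p : ℤ) ∣ n (σ * τ) - n σ * n τ) (hn1 : (p : ℤ) ∣ n 1 - 1)
    {x₀ : A} (hx₀ : x₀ ≠ 0) (hpx₀ : p • x₀ = 0) (hx₀n : ∀ σ, act σ x₀ = n σ • x₀) :
    ∃ f : A →+ ZMod p, f ≠ 0 ∧ ∀ σ y, f (act σ y) = (n σ : ZMod p) * f y := by
  classical
  have hp : p.Prime := Fact.out
  have hcard : Nat.card A ≠ 0 := Nat.card_pos.ne'
  obtain ⟨N, h, hh, hN⟩ := Nat.exists_eq_pow_mul_and_not_dvd hcard p hp.ne_one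
  let m : G → ℤ := fun σ => n σ ^ (p ^ N)
  have hm : ∀ σ τ, ((p : ℤ) ^ (N + 1)) ∣ m (σ * τ) - m σ * m τ := by
    intro σ τ
    have := dvd_sub_pow_of_dvd_sub (hn σ τ) N
    rw [mul_pow] at this
    exact this
  have hkill : ∀ (k : ℤ) (y : A), (p : ℤ) ^ (N + 1) ∣ k → (h : ℤ) • k • y = 0 := by
    intro k y hk
    obtain ⟨c, rfl⟩ := hk
    have h1 : (h : ℤ) • ((p : ℤ) ^ (N + 1) * c) • y =
        (p * c : ℤ) • ((Nat.card A : ℤ) • y) := by
      rw [← mul_smul, ← mul_smul, hN]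
      congr 1
      push_cast
      ring
    rw [h1, natCast_zsmul, card_nsmul_eq_zero', smul_zero]
  let e : A →+ A := ∑ σ : G, ((h : ℤ) * m σ) • act σ⁻¹
  have he : ∀ y, e y = ∑ σ : G, (h : ℤ) • m σ • act σ⁻¹ y := by
    intro y
    simp only [e, AddMonoidHom.finsetSum_apply, AddMonoidHom.smul_apply, mul_smul]
  have heτ : ∀ τ y, e (act τ y) = m τ • e y := by
    intro τ y
    rw [he, he, ← Equiv.sum_comp (Equiv.mulLeft τ), Finset.smul_sum]
    refine Finset.sum_congr rfl fun σ _ => ?_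
    rw [Equiv.coe_mulLeft, ← hact, mul_inv_rev, inv_mul_cancel_right]
    rw [← sub_eq_zero]
    have h1 : (h : ℤ) • m (τ * σ) • act σ⁻¹ y - m τ • (h : ℤ) • m σ • act σ⁻¹ y =
        (h : ℤ) • (m (τ * σ) - m τ * m σ) • act σ⁻¹ y := by
      rw [smul_comm (m τ) (h : ℤ), ← smul_sub, sub_smul, mul_smul]
    rw [h1]
    exact hkill _ _ (hm τ σ)
  have hmn : ∀ σ, (p : ℤ) ∣ m σ - n σ := by
    intro σ
    rw [← ZMod.intCast_zmod_eq_zero_iff_dvd]
    push_cast [m]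
    rw [ZMod.pow_card_pow, sub_self]
  have hpz : ∀ k : ℤ, (p : ℤ) ∣ k → k • x₀ = 0 := by
    rintro k ⟨c, rfl⟩
    rw [mul_comm, mul_smul, natCast_zsmul, hpx₀, smul_zero]
  have hex₀ : e x₀ = ((h * Fintype.card G : ℕ) : ℤ) • x₀ := by
    rw [he]
    have h1 : ∀ σ : G, (h : ℤ) • m σ • act σ⁻¹ x₀ = (h : ℤ) • x₀ := by
      intro σ
      rw [hx₀n, ← mul_smul (m σ), ← sub_eq_zero, ← smul_sub]
      have h2 : (m σ * n σ⁻¹) • x₀ - x₀ = (m σ * n σ⁻¹ - 1) • x₀ := by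
        rw [sub_smul, one_smul]
      rw [h2, hpz, smul_zero]
      have h3 : m σ * n σ⁻¹ - 1 = (m σ - n σ) * n σ⁻¹ - (n (σ * σ⁻¹) - n σ * n σ⁻¹) +
          (n (σ * σ⁻¹) - 1) := by ring
      rw [h3]
      refine dvd_add (dvd_sub (Dvd.dvd.mul_right (hmn σ) _) (hn σ σ⁻¹)) ?_
      rw [mul_inv_cancel]
      exact hn1
    rw [Finset.sum_congr rfl fun σ _ => h1 σ, Finset.sum_const, Finset.card_univ,
      ← natCast_zsmul, ← mul_smul]
    congr 1
    push_cast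
    ring
  have hex₀0 : e x₀ ≠ 0 := by
    intro h0
    rw [hex₀] at h0
    have h1 : IsCoprime ((h * Fintype.card G : ℕ) : ℤ) (p : ℤ) := by
      rw [isCoprime_comm, Nat.isCoprime_iff_coprime, hp.coprime_iff_not_dvd, hp.dvd_mul, not_or]
      exact ⟨hh, hG⟩
    obtain ⟨a, b, hab⟩ := h1
    apply hx₀
    calc x₀ = (a * ((h * Fintype.card G : ℕ) : ℤ) + b * p) • x₀ := by rw [hab, one_smul]
      _ = 0 := by
        rw [add_smul, mul_smul, h0, smul_zero, hpz _ (Dvd.intro_left _ rfl), add_zero]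
  -- the subgroup `B`
  let B : AddSubgroup A := e.range
  let b : B := ⟨e x₀, ⟨x₀, rfl⟩⟩
  have hb : b ≠ 0 := fun h0 => hex₀0 (congrArg Subtype.val h0)
  have hpb : p • b = 0 := by
    apply Subtype.ext
    change p • e x₀ = 0
    rw [← map_nsmul, hpx₀, map_zero]
  obtain ⟨f₁, hf₁⟩ := exists_hom_zmod hb hpb
  refine ⟨f₁.comp e.rangeRestrict, ?_, ?_⟩
  · intro h0
    apply hf₁
    ext b
    obtain ⟨y, hy⟩ := e.rangeRestrict_surjective b
    rw [← hy]
    exact DFunLike.congr_fun h0 y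
  · intro σ y
    have h1 : e.rangeRestrict (act σ y) = m σ • e.rangeRestrict y := by
      apply Subtype.ext
      change e (act σ y) = m σ • e y
      exact heτ σ y
    rw [AddMonoidHom.comp_apply, AddMonoidHom.comp_apply, h1, map_zsmul, zsmul_eq_mul]
    congr 1
    rw [← sub_eq_zero, ← Int.cast_sub, ZMod.intCast_zmod_eq_zero_iff_dvd]
    exact hmn σ

end Fermat.Agent.S14Lib
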