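import Mathlib

/-!
# The tower `ℚ ⊆ K = ℚ(ζ_p) ⊆ M = K(ζ_q)`
-/

set_option autoImplicit false

open NumberField Ideal Polynomial

namespace Fermat.Agent.S14Lib

variable (p q : ℕ) [Fact p.Prime] [Fact q.Prime] (K M : Type*) [Field K] [NumberField K]
  [Field M] [NumberField M] [Algebra K M] [IsCyclotomicExtension {p} ℚ K]
  [IsCyclotomicExtension {q} K M]

theorem isPrimitiveRoot_mul {R : Type*} [CommMonoid R] {p q : ℕ} (hp : p.Prime) (hq : q.Prime)
    (hpq : p ≠ q) {z w : R} (hz : IsPrimitiveRoot z p) (hw : IsPrimitiveRoot w q) :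
    IsPrimitiveRoot (z * w) (p * q) := by
  have hcop : p.Coprime q := (Nat.coprime_primes hp hq).2 hpq
  have h := IsPrimitiveRoot.orderOf (z * w)
  rwa [(Commute.all z w).orderOf_mul_eq_mul_orderOf_of_coprime (by
      rwa [← hz.eq_orderOf, ← hw.eq_orderOf]), ← hz.eq_orderOf, ← hw.eq_orderOf] at h

include K in
/-- `M = ℚ(ζ_{pq})` -/
theorem isCyclotomicExtension_mul (hpq : p ≠ q) : IsCyclotomicExtension {p * q} ℚ M := by
  have hp : p.Prime := Fact.out
  have hq : q.Prime := Fact.out
  have h1 : IsCyclotomicExtension ({p} ∪ {q}) ℚ M :=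
    IsCyclotomicExtension.trans {p} {q} ℚ K M (algebraMap K M).injective
  obtain ⟨z, hz⟩ := IsCyclotomicExtension.exists_isPrimitiveRoot ℚ M
    (show p ∈ ({p} ∪ {q} : Set ℕ) by simp) hp.ne_zero
  obtain ⟨w, hw⟩ := IsCyclotomicExtension.exists_isPrimitiveRoot ℚ M
    (show q ∈ ({p} ∪ {q} : Set ℕ) by simp) hq.ne_zero
  have h2 : IsCyclotomicExtension (({p} ∪ {q}) ∪ {p * q}) ℚ M :=
    IsCyclotomicExtension.union_of_isPrimitiveRoot _ _ _ (isPrimitiveRoot_mul hp hq hpq hz hw)
  have h3 : (({p} ∪ {q}) ∪ {p * q} : Set ℕ) = ({p * q} ∪ {p}) ∪ {q} := by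
    ext x; simp only [Set.mem_union, Set.mem_singleton_iff]; tauto
  rw [h3] at h2
  have hpq0 : p * q ≠ 0 := mul_ne_zero hp.ne_zero hq.ne_zero
  have h4 : IsCyclotomicExtension ({p * q} ∪ {p}) ℚ M :=
    (IsCyclotomicExtension.iff_union_of_dvd ℚ M
      ⟨p * q, by simp, hpq0, dvd_mul_left q p⟩).2 h2
  exact (IsCyclotomicExtension.iff_union_of_dvd ℚ M
      ⟨p * q, by simp, hpq0, dvd_mul_right p q⟩).2 h4

theorem finrank_tower (hpq : p ≠ q) : Module.finrank K M = q - 1 := by
  have hp : p.Prime := Fact.out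
  have hq : q.Prime := Fact.out
  have := isCyclotomicExtension_mul p q K M hpq
  have : NeZero (p * q) := ⟨mul_ne_zero hp.ne_zero hq.ne_zero⟩
  have h1 : Module.finrank ℚ M = (p * q).totient := IsCyclotomicExtension.Rat.finrank (p * q) M
  have h2 : Module.finrank ℚ K = p.totient := IsCyclotomicExtension.Rat.finrank p K
  have h3 := Module.finrank_mul_finrank ℚ K M
  rw [h1, h2, Nat.totient_mul ((Nat.coprime_primes hp hq).2 hpq), Nat.totient_prime hp,
    Nat.totient_prime hq] at h3
  exact Nat.eq_of_mul_eq_mul_left (Nat.sub_pos_of_lt hp.one_lt) h3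

include p M in
theorem irreducible_cyclotomic_tower (hpq : p ≠ q) : Irreducible (cyclotomic q K) := by
  have hq : q.Prime := Fact.out
  have : NeZero ((q : ℕ) : K) := ⟨by exact_mod_cast hq.ne_zero⟩
  have hw := IsCyclotomicExtension.zeta_spec q K M
  have h1 : (minpoly K (IsCyclotomicExtension.zeta q K M)).natDegree = q - 1 := by
    rw [← finrank_tower p q K M hpq, (hw.powerBasis K).finrank, IsPrimitiveRoot.powerBasis_dim]
  have h2 : minpoly K (IsCyclotomicExtension.zeta q K M) ∣ cyclotomic q K := by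
    apply minpoly.dvd
    rw [aeval_def, ← eval_map, map_cyclotomic, ← IsRoot.def]
    exact hw.isRoot_cyclotomic hq.pos
  have hint : IsIntegral K (IsCyclotomicExtension.zeta q K M) := Algebra.IsIntegral.isIntegral _
  have h3 : minpoly K (IsCyclotomicExtension.zeta q K M) = cyclotomic q K := by
    symm
    apply eq_of_monic_of_dvd_of_natDegree_le (minpoly.monic hint) (cyclotomic.monic q K) h2
    rw [h1, natDegree_cyclotomic, Nat.totient_prime hq]
  rw [← h3]
  exact minpoly.irreducible hint


variable {p q K M}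

/-- the norm of `1 - z w` is one -/
theorem norm_one_sub_mul (hpq : p ≠ q) (hqp : q % p = 1) {z : K} (hz : IsPrimitiveRoot z p) {w : M}
    (hw : IsPrimitiveRoot w q) : Algebra.norm K (1 - algebraMap K M z * w) = 1 := by
  classical
  have hp : p.Prime := Fact.out
  have hq : q.Prime := Fact.out
  have hirr := irreducible_cyclotomic_tower p q K M hpq
  have : IsGalois K M := IsCyclotomicExtension.isGalois {q} K M
  apply (algebraMap K M).injective
  rw [Algebra.norm_eq_prod_automorphisms, map_one]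
  have h1 : ∀ σ : M ≃ₐ[K] M, σ (1 - algebraMap K M z * w) = 1 - algebraMap K M z * σ w := by
    intro σ; simp
  simp_rw [h1]
  -- reindex by primitive roots
  have hinj : Set.InjOn (fun σ : M ≃ₐ[K] M => σ w) (Finset.univ : Finset (M ≃ₐ[K] M)) := by
    intro σ _ τ _ h
    apply IsCyclotomicExtension.algEquiv_eq_of_apply_eq (S := {q}) K M
    intro n hn _
    rw [Set.mem_singleton_iff] at hn
    subst hn
    exact ⟨w, hw, h⟩
  have hmaps : Set.MapsTo (fun σ : M ≃ₐ[K] M => σ w) (Finset.univ : Finset (M ≃ₐ[K] M))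
      (primitiveRoots q M) := by
    intro σ _
    rw [Finset.mem_coe, mem_primitiveRoots hq.pos]
    exact hw.map_of_injective σ.injective
  have h2 : ∏ σ : M ≃ₐ[K] M, (1 - algebraMap K M z * σ w) =
      ∏ μ ∈ primitiveRoots q M, (1 - algebraMap K M z * μ) := by
    apply Finset.prod_nbij (fun σ => σ w)
    · exact hmaps
    · exact hinj
    · apply Finset.surjOn_of_injOn_of_card_le _ hmaps hinj
      rw [hw.card_primitiveRoots, Nat.totient_prime hq, Finset.card_univ,
        ← Nat.card_eq_fintype_card, IsGalois.card_aut_eq_finrank, finrank_tower p q K M hpq]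
    · intro σ _
      rfl
  rw [h2]
  set a := algebraMap K M z with ha
  have haz : IsPrimitiveRoot a p := hz.map_of_injective (algebraMap K M).injective
  have h3 := hw.pow_sub_pow_eq_prod_sub_mul 1 a hq.pos
  have h4 : nthRootsFinset q (1 : M) = insert 1 (primitiveRoots q M) := by
    ext x
    rw [mem_nthRootsFinset hq.pos, Finset.mem_insert, mem_primitiveRoots hq.pos]
    constructor
    · intro hx
      by_cases h1x : x = 1
      · exact Or.inl h1x
      · exact Or.inr (IsPrimitiveRoot.iff_orderOf.2 (orderOf_eq_prime hx h1x))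
    · rintro (rfl | hx)
      · simp
      · exact hx.pow_eq_one
  have h5 : a ^ q = a := by
    conv_lhs => rw [← Nat.div_add_mod q p, hqp]
    rw [pow_add, pow_mul, haz.pow_eq_one, one_pow, one_mul, pow_one]
  rw [h4, Finset.prod_insert, one_pow, one_mul, h5] at h3
  · have h6 : (1 : M) - a ≠ 0 := by
      rw [sub_ne_zero]
      exact fun h => haz.ne_one hp.one_lt h.symm
    have h7 : ∏ x ∈ primitiveRoots q M, (1 - x * a) = 1 := by
      have := mul_left_cancel₀ h6 (h3.symm.trans (mul_one _).symm)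
      exact this
    exact (Finset.prod_congr rfl fun x _ => by rw [mul_comm]).trans h7
  · rw [mem_primitiveRoots hq.pos]
    intro h
    exact h.ne_one hq.one_lt rfl

end Fermat.Agent.S14Lib
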