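import Mathlib

/-!
# Dimension of eigenspaces modulo `p` for a lattice generated (up to finite index) by one element
-/

set_option autoImplicit false

namespace Fermat.Agent.S14Lib

section

variable {M : Type*} [AddCommGroup M]

/-- `n M` -/
def mulSub (M : Type*) [AddCommGroup M] (n : ℤ) : Submodule ℤ M :=
  LinearMap.range (n • (LinearMap.id : M →ₗ[ℤ] M))

theorem mem_mulSub {n : ℤ} {x : M} : x ∈ mulSub M n ↔ ∃ w, n • w = x := by
  rw [mulSub, LinearMap.mem_range]
  rfl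

theorem smul_mem_mulSub (n : ℤ) (x : M) : n • x ∈ mulSub M n := mem_mulSub.2 ⟨x, rfl⟩

theorem mul_smul_mem_mulSub {n k : ℤ} (h : n ∣ k) (x : M) : k • x ∈ mulSub M n := by
  obtain ⟨c, rfl⟩ := h
  rw [mul_smul]
  exact smul_mem_mulSub _ _

theorem map_mem_mulSub {n : ℤ} (f : Module.End ℤ M) {x : M} (hx : x ∈ mulSub M n) :
    f x ∈ mulSub M n := by
  obtain ⟨w, rfl⟩ := mem_mulSub.1 hx
  rw [map_smul]
  exact smul_mem_mulSub _ _

theorem mem_of_coprime_smul_mem {n k : ℤ} (h : IsCoprime k n) {x : M} (hx : k • x ∈ mulSub M n) :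
    x ∈ mulSub M n := by
  obtain ⟨u, v, huv⟩ := h
  have : x = u • (k • x) + v • (n • x) := by
    rw [← mul_smul, ← mul_smul, ← add_smul, huv, one_smul]
  rw [this]
  exact Submodule.add_mem _ (Submodule.smul_mem _ _ hx)
    (Submodule.smul_mem _ _ (smul_mem_mulSub _ _))

theorem pow_smul_sub_mem {n a : ℤ} {γ : Module.End ℤ M} {u : M} (hu : γ u - a • u ∈ mulSub M n)
    (i : ℕ) : (γ ^ i) u - (a ^ i) • u ∈ mulSub M n := by
  induction i with
  | zero => simp
  | succ i ih =>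
    have h1 : (γ ^ (i + 1)) u - (a ^ (i + 1)) • u =
        (γ ^ i) (γ u - a • u) + a • ((γ ^ i) u - (a ^ i) • u) := by
      rw [pow_succ, Module.End.mul_apply, map_sub, map_smul, smul_sub, ← mul_smul, pow_succ,
        mul_comm a]
      abel
    rw [h1]
    exact Submodule.add_mem _ (map_mem_mulSub _ hu) (Submodule.smul_mem _ _ ih)

/-- The idempotent-like element. -/
def idem (γ : Module.End ℤ M) (A : ℤ) (d : ℕ) : Module.End ℤ M :=
  ∑ i ∈ Finset.range d, γ ^ i * (A : Module.End ℤ M) ^ (d - 1 - i)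

theorem idem_apply (γ : Module.End ℤ M) (A : ℤ) (d : ℕ) (x : M) :
    idem γ A d x = ∑ i ∈ Finset.range d, (A ^ (d - 1 - i)) • (γ ^ i) x := by
  rw [idem, LinearMap.sum_apply]
  refine Finset.sum_congr rfl fun i _ => ?_
  rw [Module.End.mul_apply, ← Int.cast_pow, Module.End.intCast_apply, map_smul]

theorem gamma_idem (γ : Module.End ℤ M) (A : ℤ) {d : ℕ} (hd : γ ^ d = 1) (x : M) :
    γ (idem γ A d x) - A • (idem γ A d x) = (1 - A ^ d) • x := by
  have hc : Commute γ (A : Module.End ℤ M) := (Int.cast_commute A γ).symm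
  have h := hc.mul_geom_sum₂ d
  have h1 := congrArg (fun f : Module.End ℤ M => f x) h
  simp only [Module.End.mul_apply, LinearMap.sub_apply, hd] at h1
  rw [← Int.cast_pow, Module.End.intCast_apply, Module.End.intCast_apply, Module.End.one_apply] at h1
  rw [sub_smul, one_smul, ← h1]
  rfl

theorem idem_comm (γ : Module.End ℤ M) (A : ℤ) (d i : ℕ) (x : M) :
    idem γ A d ((γ ^ i) x) = (γ ^ i) (idem γ A d x) := by
  rw [idem_apply, idem_apply, map_sum]
  refine Finset.sum_congr rfl fun j _ => ?_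
  rw [map_smul, ← Module.End.mul_apply, ← Module.End.mul_apply, ← pow_add, ← pow_add, add_comm]

theorem idem_mod {γ : Module.End ℤ M} {A a n : ℤ} (hA : n ∣ A - a) {d : ℕ} (hd : 0 < d) {u : M}
    (hu : γ u - a • u ∈ mulSub M n) :
    idem γ A d u - ((d : ℤ) * a ^ (d - 1)) • u ∈ mulSub M n := by
  have h1 : ((d : ℤ) * a ^ (d - 1)) • u =
      ∑ i ∈ Finset.range d, (a ^ (d - 1 - i)) • (a ^ i) • u := by
    have h2 : ∀ i ∈ Finset.range d, (a ^ (d - 1 - i)) • (a ^ i) • u = (a ^ (d - 1)) • u := by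
      intro i hi
      rw [← mul_smul, ← pow_add]
      congr 2
      rw [Finset.mem_range] at hi
      omega
    rw [Finset.sum_congr rfl h2, Finset.sum_const, Finset.card_range, mul_smul, natCast_zsmul]
  rw [h1, idem_apply, ← Finset.sum_sub_distrib]
  refine Submodule.sum_mem _ fun i _ => ?_
  have h3 : (A ^ (d - 1 - i)) • (γ ^ i) u - (a ^ (d - 1 - i)) • (a ^ i) • u =
      (A ^ (d - 1 - i) - a ^ (d - 1 - i)) • (γ ^ i) u +
        (a ^ (d - 1 - i)) • ((γ ^ i) u - (a ^ i) • u) := by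
    rw [sub_smul, smul_sub]; abel
  rw [h3]
  exact Submodule.add_mem _ (mul_smul_mem_mulSub (hA.trans (sub_dvd_pow_sub_pow _ _ _)) _)
    (Submodule.smul_mem _ _ (pow_smul_sub_mem hu i))

/-- Dimension of the eigenspace is at most one. -/
theorem exists_dependence (htf : ∀ (n : ℤ) (x : M), n ≠ 0 → n • x = 0 → x = 0)
    {γ : Module.End ℤ M} {p d : ℕ} (hp : p.Prime) (hd0 : 0 < d) (hd : γ ^ d = 1)
    (hdp : IsCoprime (d : ℤ) p) {η : M} {m : ℕ} (hm : m ≠ 0)
    (hη : ∀ x : M, m • x ∈ Submodule.span ℤ (Set.range fun i : ℕ => (γ ^ i) η))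
    {a : ℤ} (ha : (p : ℤ) ∣ a ^ d - 1) {u v : M} (hu : γ u - a • u ∈ mulSub M p)
    (hv : γ v - a • v ∈ mulSub M p) :
    ∃ s t : ℤ, ¬ ((p : ℤ) ∣ s ∧ (p : ℤ) ∣ t) ∧ s • u + t • v ∈ mulSub M p := by
  have hpa : IsCoprime a (p : ℤ) := by
    rw [isCoprime_comm, Prime.coprime_iff_not_dvd (Nat.prime_iff_prime_int.1 hp)]
    intro h
    have h1 : (p : ℤ) ∣ 1 := by
      have h2 := dvd_sub (dvd_pow h hd0.ne') ha
      simpa using h2
    exact (Nat.prime_iff_prime_int.1 hp).not_isUnit (isUnit_of_dvd_one h1)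
  obtain ⟨k, m', hm', hmk⟩ := Nat.exists_eq_pow_mul_and_not_dvd hm p hp.ne_one
  set A : ℤ := a ^ (p ^ k) with hA
  set P : ℤ := (p : ℤ) ^ (k + 1) with hP
  have hAd : P ∣ 1 - A ^ d := by
    have h1 := dvd_sub_pow_of_dvd_sub ha k
    rw [one_pow, ← pow_mul, mul_comm d, pow_mul, ← hA] at h1
    rw [← neg_sub]
    exact (dvd_neg).2 h1
  have hAa : (p : ℤ) ∣ A - a := by
    have : Fact p.Prime := ⟨hp⟩
    rw [← ZMod.intCast_zmod_eq_zero_iff_dvd (A - a) p, hA]
    push_cast
    rw [ZMod.pow_card_pow, sub_self]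
  set e := idem γ A d with he
  have hγe : ∀ x, γ (e x) - A • e x ∈ mulSub M P := by
    intro x
    rw [he, gamma_idem γ A hd x]
    exact mul_smul_mem_mulSub hAd x
  -- multiples of `e η`
  have key : ∀ x ∈ Submodule.span ℤ (Set.range fun i : ℕ => (γ ^ i) η),
      ∃ c : ℤ, e x - c • e η ∈ mulSub M P := by
    intro x hx
    induction hx using Submodule.span_induction with
    | mem x hx =>
      obtain ⟨i, rfl⟩ := hx
      refine ⟨A ^ i, ?_⟩
      simp only
      rw [he, idem_comm]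
      exact pow_smul_sub_mem (hγe η) i
    | zero => exact ⟨0, by simp⟩
    | add x y _ _ hx hy =>
      obtain ⟨c, hc⟩ := hx
      obtain ⟨c', hc'⟩ := hy
      refine ⟨c + c', ?_⟩
      have : e (x + y) - (c + c') • e η = (e x - c • e η) + (e y - c' • e η) := by
        rw [map_add, add_smul]; abel
      rw [this]
      exact Submodule.add_mem _ hc hc'
    | smul r x _ hx =>
      obtain ⟨c, hc⟩ := hx
      refine ⟨r * c, ?_⟩
      have : e (r • x) - (r * c) • e η = r • (e x - c • e η) := by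
        rw [map_smul, smul_sub, mul_smul]
      rw [this]
      exact Submodule.smul_mem _ _ hc
  obtain ⟨α, hα⟩ := key _ (hη u)
  obtain ⟨β, hβ⟩ := key _ (hη v)
  obtain ⟨s, t, hst, hst0⟩ : ∃ s t : ℤ, ¬ ((p : ℤ) ∣ s ∧ (p : ℤ) ∣ t) ∧ s * α + t * β = 0 := by
    have hp1 : ¬ (p : ℤ) ∣ 1 := fun h =>
      (Nat.prime_iff_prime_int.1 hp).not_isUnit (isUnit_of_dvd_one h)
    by_cases h0 : α = 0
    · exact ⟨1, 0, fun h => hp1 h.1, by rw [h0]; ring⟩
    · set g : ℤ := (Int.gcd α β : ℤ) with hg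
      have hg0 : g ≠ 0 := by
        rw [hg]
        exact_mod_cast fun h => h0 (Int.gcd_eq_zero_iff.1 h).1
      obtain ⟨α', hα'⟩ : g ∣ α := Int.gcd_dvd_left ..
      obtain ⟨β', hβ'⟩ : g ∣ β := Int.gcd_dvd_right ..
      refine ⟨β', -α', ?_, by rw [hα', hβ']; ring⟩
      rintro ⟨h1, h2⟩
      rw [dvd_neg] at h2
      have h3 := Int.gcd_eq_gcd_ab α β
      rw [← hg, hα', hβ'] at h3
      apply hp1
      have h4 : (1 : ℤ) = α' * Int.gcdA (g * α') (g * β') + β' * Int.gcdB (g * α') (g * β') := by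
        apply mul_left_cancel₀ hg0
        rw [mul_one]
        conv_lhs => rw [h3]
        ring
      rw [h4]
      exact dvd_add (Dvd.dvd.mul_right h2 _) (Dvd.dvd.mul_right h1 _)
  refine ⟨s, t, hst, ?_⟩
  set z := s • u + t • v with hz
  have hz1 : (m : ℤ) • e z ∈ mulSub M P := by
    have h1 : (m : ℤ) • e z = s • (e (m • u) - α • e η) + t • (e (m • v) - β • e η) := by
      have h2 : s • (e (m • u) - α • e η) + t • (e (m • v) - β • e η) =
          s • e (m • u) + t • e (m • v) - (s * α + t * β) • e η := by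
        rw [smul_sub, smul_sub, add_smul, mul_smul, mul_smul]; abel
      rw [h2, hst0, zero_smul, sub_zero, hz, map_add, map_smul, map_smul, map_nsmul, map_nsmul,
        ← natCast_zsmul, ← natCast_zsmul, smul_add]
      rw [smul_comm (m : ℤ) s, smul_comm (m : ℤ) t]
    rw [h1]
    exact Submodule.add_mem _ (Submodule.smul_mem _ _ hα) (Submodule.smul_mem _ _ hβ)
  obtain ⟨w, hw⟩ := mem_mulSub.1 hz1
  have hz2 : (m' : ℤ) • e z ∈ mulSub M p := by
    refine mem_mulSub.2 ⟨w, ?_⟩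
    rw [← sub_eq_zero]
    apply htf ((p : ℤ) ^ k) _ (pow_ne_zero _ (by exact_mod_cast hp.ne_zero))
    rw [smul_sub, ← mul_smul, ← mul_smul, ← pow_succ, ← hP, hw, hmk]
    push_cast
    rw [sub_self]
  have hm'p : IsCoprime (m' : ℤ) (p : ℤ) := by
    rw [isCoprime_comm, Nat.isCoprime_iff_coprime, hp.coprime_iff_not_dvd]
    exact hm'
  have hz3 : e z ∈ mulSub M p := mem_of_coprime_smul_mem hm'p hz2
  have hzγ : γ z - a • z ∈ mulSub M p := by
    have : γ z - a • z = s • (γ u - a • u) + t • (γ v - a • v) := by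
      rw [hz, map_add, map_smul, map_smul, smul_add, smul_sub, smul_sub, smul_comm a s,
        smul_comm a t]
      abel
    rw [this]
    exact Submodule.add_mem _ (Submodule.smul_mem _ _ hu) (Submodule.smul_mem _ _ hv)
  have hz4 := idem_mod hAa hd0 hzγ
  rw [← he] at hz4
  have hz5 : ((d : ℤ) * a ^ (d - 1)) • z ∈ mulSub M p := by
    have := Submodule.sub_mem _ hz3 hz4
    simpa using this
  exact mem_of_coprime_smul_mem (hdp.mul_left hpa.pow_left) hz5

end

end Fermat.Agent.S14Lib
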