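import Fermat.Agent.S14Lib.Thaine2

/-!
# Local consequences of fixed radicals
-/

set_option autoImplicit false
set_option linter.unusedSectionVars false

open NumberField Ideal
open scoped Pointwise

namespace Fermat.Agent.S14Lib

variable {K L : Type} [Field K] [NumberField K] [Field L] [NumberField L] [Algebra K L]
  [IsGalois K L]

/-- If the radical `y` is fixed by inertia, then the valuation of `y ^ p` is divisible by `p`. -/
theorem dvd_multiplicity_of_inertia {p : ℕ} {y : 𝓞 L} (hy0 : y ≠ 0) {α : 𝓞 K}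
    (hα : algebraMap (𝓞 K) (𝓞 L) α = y ^ p) (hα0 : α ≠ 0) {P : Ideal (𝓞 K)} (hP : P.IsPrime)
    (hP0 : P ≠ ⊥) {Q : Ideal (𝓞 L)} (hQ : Q.IsPrime) [hQP : Q.LiesOver P]
    (hI : ∀ τ ∈ Q.inertia Gal(L/K), τ • y = y) : p ∣ multiplicity P (span {α}) := by
  have hQ0 : Q ≠ ⊥ := Ideal.ne_bot_of_liesOver_of_ne_bot hP0 Q
  let I : Subgroup Gal(L/K) := Q.inertia Gal(L/K)
  let E : IntermediateField K L := FixedPoints.intermediateField I
  have hGal : IsGaloisGroup I E L := IsGaloisGroup.subgroup Gal(L/K) K L I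
  have hGalO : IsGaloisGroup I (𝓞 E) (𝓞 L) := IsGaloisGroup.of_isFractionRing I (𝓞 E) (𝓞 L) E L
  -- `y` as an element of `𝓞 E`
  have hyE : (y : L) ∈ E := by
    intro τ
    exact congrArg (algebraMap (𝓞 L) L) (hI τ.1 τ.2)
  have hyint : IsIntegral ℤ (⟨(y : L), hyE⟩ : E) := by
    rw [← isIntegral_algebraMap_iff (algebraMap E L).injective]
    exact RingOfIntegers.isIntegral_coe y
  let yE : 𝓞 E := ⟨⟨(y : L), hyE⟩, hyint⟩
  have hyE' : algebraMap (𝓞 E) (𝓞 L) yE = y := RingOfIntegers.ext rfl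
  have hyE0 : yE ≠ 0 := by
    intro h
    rw [h, map_zero] at hyE'
    exact hy0 hyE'.symm
  let QE : Ideal (𝓞 E) := Q.under (𝓞 E)
  have hQE : QE.IsPrime := inferInstance
  have hQQE : Q.LiesOver QE := inferInstance
  have hQEP : QE.LiesOver P := by
    constructor
    rw [hQP.over, Ideal.under_under]
  have hQE0 : QE ≠ ⊥ := Ideal.ne_bot_of_liesOver_of_ne_bot hP0 QE
  have h1 : Q.ramificationIdx (𝓞 K) = Nat.card I := by
    rw [← ramificationIdxIn_eq_ramificationIdx P Q Gal(L/K),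
      ← card_inertia_eq_ramificationIdxIn (G := Gal(L/K)) P Q]
  have h2 : Q.ramificationIdx (𝓞 E) = Nat.card I := by
    rw [← ramificationIdxIn_eq_ramificationIdx QE Q I,
      ← card_inertia_eq_ramificationIdxIn (G := I) QE Q]
    have h3 : Q.inertia I = ⊤ := by
      rw [eq_top_iff]
      intro τ _ x
      exact τ.2 x
    rw [h3]
    exact Nat.card_congr Subgroup.topEquiv.toEquiv
  have h3 := multiplicity_eq_of_mul hP hQ hP0 hα0 hy0 h1
    (by rw [hα, span_singleton_pow])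
  have h4 := multiplicity_eq_of_mul hQE hQ hQE0 hyE0 hy0 h2 (n := 1)
    (by rw [hyE', pow_one])
  rw [one_mul] at h4
  refine ⟨multiplicity QE (span {yE}), ?_⟩
  apply Nat.eq_of_mul_eq_mul_left (Nat.card_pos (α := I))
  rw [h3, ← h4]
  ring

theorem smul_mem_pow_iff {σ : Gal(L/K)} {Q : Ideal (𝓞 L)} {x : 𝓞 L} {M : ℕ} :
    σ • x ∈ (σ • Q) ^ M ↔ x ∈ Q ^ M := by
  have h : (σ • Q) ^ M = σ • Q ^ M := (smul_pow' σ Q M).symm
  rw [h]
  exact Ideal.smul_mem_pointwise_smul_iff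

/-- Approximating a decomposition-invariant integer by an element of the base field. -/
theorem exists_approx_of_stabilizer {y : 𝓞 L} {Q : Ideal (𝓞 L)} (hQ : Q.IsPrime) (hQ0 : Q ≠ ⊥)
    (hD : ∀ τ ∈ MulAction.stabilizer Gal(L/K) Q, τ • y = y) (M : ℕ) :
    ∃ b : 𝓞 K, algebraMap (𝓞 K) (𝓞 L) b - y ∈ Q ^ M := by
  classical
  have hQmax := hQ.isMaximal hQ0
  let D : Subgroup Gal(L/K) := MulAction.stabilizer Gal(L/K) Q
  have hmemD : ∀ τ, τ ∈ D ↔ τ • Q = Q := fun τ => MulAction.mem_stabilizer_iff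
  let T : Finset Gal(L/K) := Finset.univ.filter (fun τ => τ ∉ D)
  let J : Ideal (𝓞 L) := ∏ τ ∈ T, (τ • Q) ^ M
  have hcop : IsCoprime (Q ^ M) J := by
    refine IsCoprime.prod_right fun τ hτ => ?_
    apply IsCoprime.pow
    rw [Ideal.isCoprime_iff_sup_eq]
    have hτQ : (τ • Q).IsMaximal := by
      have h1 : (τ • Q).IsPrime := inferInstance
      refine h1.isMaximal ?_
      intro h
      apply hQ0
      have := congrArg (τ⁻¹ • ·) h
      simpa using this
    refine hQmax.coprime_of_ne hτQ ?_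
    intro h
    rw [Finset.mem_filter, hmemD] at hτ
    exact hτ.2 h.symm
  obtain ⟨a, ha, z₀, hz₀, haz⟩ := Ideal.isCoprime_iff_exists.1 hcop
  have hz₀1 : z₀ - 1 ∈ Q ^ M := by
    rw [← haz]
    have : z₀ - (a + z₀) = -a := by ring
    rw [this]
    exact neg_mem ha
  have hz₀τ : ∀ τ, τ ∉ D → z₀ ∈ (τ • Q) ^ M := by
    intro τ hτ
    have h1 : J ≤ (τ • Q) ^ M :=
      Ideal.dvd_iff_le.1 (Finset.dvd_prod_of_mem (fun τ => (τ • Q) ^ M)
        (Finset.mem_filter.2 ⟨Finset.mem_univ _, hτ⟩))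
    exact h1 hz₀
  let z₁ : 𝓞 L := ∏ δ : D, δ.1 • z₀
  have hz₁D : ∀ δ ∈ D, δ • z₁ = z₁ := by
    intro δ hδ
    simp only [z₁, Finset.smul_prod']
    refine Eq.trans ?_ (Equiv.prod_comp (Equiv.mulLeft (⟨δ, hδ⟩ : D)) (fun x : D => x.1 • z₀))
    refine Finset.prod_congr rfl fun x _ => ?_
    rw [← mul_smul]
    rfl
  have hz₁1 : z₁ - 1 ∈ Q ^ M := by
    rw [← Ideal.Quotient.eq, map_one, map_prod]
    refine Finset.prod_eq_one fun δ _ => ?_
    rw [← map_one (Ideal.Quotient.mk (Q ^ M)), Ideal.Quotient.eq]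
    have h1 : δ.1 • (z₀ - 1) ∈ (δ.1 • Q) ^ M := smul_mem_pow_iff.2 hz₀1
    rw [smul_sub, smul_one, (hmemD _).1 δ.2] at h1
    exact h1
  have hz₁τ : ∀ τ, τ ∉ D → z₁ ∈ (τ • Q) ^ M := by
    intro τ hτ
    have h1 : z₀ ∣ z₁ := by
      have := Finset.dvd_prod_of_mem (fun δ : D => δ.1 • z₀) (Finset.mem_univ (1 : D))
      simpa using this
    exact Ideal.mem_of_dvd _ h1 (hz₀τ τ hτ)
  let w : 𝓞 L := z₁ * y
  have hwD : ∀ δ ∈ D, δ • w = w := by
    intro δ hδ
    simp only [w]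
    rw [smul_mul', hz₁D δ hδ, hD δ hδ]
  have hwy : w - y ∈ Q ^ M := by
    have : w - y = (z₁ - 1) * y := by simp only [w]; ring
    rw [this]
    exact Ideal.mul_mem_right _ _ hz₁1
  have hwτ : ∀ τ, τ ∉ D → w ∈ (τ • Q) ^ M := fun τ hτ => Ideal.mul_mem_right _ _ (hz₁τ τ hτ)
  -- the trace
  let b' : 𝓞 L := ∑ c : Gal(L/K) ⧸ D, c.out • w
  have hcoset : ∀ g h : Gal(L/K), (QuotientGroup.mk g : Gal(L/K) ⧸ D) = QuotientGroup.mk h →
      g • w = h • w := by
    intro g h hgh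
    rw [QuotientGroup.eq] at hgh
    have := hwD _ hgh
    rw [mul_smul, inv_smul_eq_iff] at this
    exact this.symm
  have hinv : ∀ g : Gal(L/K), g • b' = b' := by
    intro g
    simp only [b', Finset.smul_sum]
    refine Eq.trans ?_ (Equiv.sum_comp (MulAction.toPerm g : Equiv.Perm (Gal(L/K) ⧸ D))
      (fun c => c.out • w))
    refine Finset.sum_congr rfl fun c _ => ?_
    rw [← mul_smul]
    apply hcoset
    rw [MulAction.toPerm_apply, QuotientGroup.out_eq']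
    conv_rhs => rw [← QuotientGroup.out_eq' c]
    rfl
  obtain ⟨b, hb⟩ := Algebra.IsInvariant.isInvariant (A := 𝓞 K) (G := Gal(L/K)) b' hinv
  refine ⟨b, ?_⟩
  rw [hb]
  have h1 : b' - w ∈ Q ^ M := by
    simp only [b']
    rw [← Finset.sum_erase_add _ _ (Finset.mem_univ (QuotientGroup.mk 1 : Gal(L/K) ⧸ D))]
    have h2 : (QuotientGroup.mk 1 : Gal(L/K) ⧸ D).out • w = w := by
      have := hcoset (QuotientGroup.mk 1 : Gal(L/K) ⧸ D).out 1 (QuotientGroup.out_eq' _)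
      rwa [one_smul] at this
    rw [h2, add_sub_cancel_right]
    refine Ideal.sum_mem _ fun c hc => ?_
    have hc' := Finset.ne_of_mem_erase hc
    have h3 : c.out ∉ D := by
      intro h
      apply hc'
      rw [← QuotientGroup.out_eq' c, QuotientGroup.eq]
      simpa using h
    have h4 : (c.out)⁻¹ ∉ D := fun h => h3 (by simpa using D.inv_mem h)
    have h5 := hwτ _ h4
    have h6 := (smul_mem_pow_iff (σ := c.out) (Q := (c.out)⁻¹ • Q) (M := M)).2 h5
    rwa [smul_inv_smul] at h6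
  have h2 : b' - y = (b' - w) + (w - y) := by ring
  rw [h2]
  exact add_mem h1 hwy

/-- If the radical is invariant under decomposition then the radicand is locally a `p`-th power. -/
theorem exists_sub_pow_mem {p : ℕ} {y : 𝓞 L} {u : 𝓞 K}
    (hu : algebraMap (𝓞 K) (𝓞 L) u = y ^ p) {P : Ideal (𝓞 K)} (hP : P.IsPrime)
    (hP0 : P ≠ ⊥) {Q : Ideal (𝓞 L)} (hQ : Q.IsPrime) [hQP : Q.LiesOver P]
    (hD : ∀ τ ∈ MulAction.stabilizer Gal(L/K) Q, τ • y = y) (N : ℕ) :
    ∃ b : 𝓞 K, u - b ^ p ∈ P ^ N := by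
  have hQ0 : Q ≠ ⊥ := Ideal.ne_bot_of_liesOver_of_ne_bot hP0 Q
  obtain ⟨b, hb⟩ := exists_approx_of_stabilizer hQ hQ0 hD (N * Q.ramificationIdx (𝓞 K))
  refine ⟨b, ?_⟩
  have h1 : algebraMap (𝓞 K) (𝓞 L) (u - b ^ p) ∈ Q ^ (N * Q.ramificationIdx (𝓞 K)) := by
    rw [map_sub, map_pow, hu]
    obtain ⟨c, hc⟩ := sub_dvd_pow_sub_pow y (algebraMap (𝓞 K) (𝓞 L) b) p
    rw [hc]
    apply Ideal.mul_mem_right
    rw [← neg_sub]
    exact neg_mem hb
  by_cases h0 : u - b ^ p = 0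
  · rw [h0]; exact Ideal.zero_mem _
  have hne : span {u - b ^ p} ≠ (⊥ : Ideal (𝓞 K)) := by simpa using h0
  have h2 := emultiplicity_map_eq (P := P) (Q := Q) hP hQ hP0 hne
  rw [Ideal.map_span, Set.image_singleton] at h2
  have h3 : ((N * Q.ramificationIdx (𝓞 K) : ℕ) : ℕ∞) ≤
      emultiplicity Q (span {algebraMap (𝓞 K) (𝓞 L) (u - b ^ p)}) := by
    apply le_emultiplicity_of_pow_dvd
    rw [Ideal.dvd_iff_le, span_singleton_le_iff_mem]
    exact h1
  rw [h2] at h3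
  have he : Q.ramificationIdx (𝓞 K) ≠ 0 := by
    rw [← ramificationIdxIn_eq_ramificationIdx P Q Gal(L/K),
      ← card_inertia_eq_ramificationIdxIn (G := Gal(L/K)) P Q]
    exact Nat.card_pos.ne'
  rw [← span_singleton_le_iff_mem, ← Ideal.dvd_iff_le]
  have hPp : Prime P := (Ideal.prime_iff_isPrime hP0).2 hP
  have hfin : FiniteMultiplicity P (span {u - b ^ p}) := FiniteMultiplicity.of_prime_left hPp hne
  rw [hfin.pow_dvd_iff_le_multiplicity]
  rw [hfin.emultiplicity_eq_multiplicity] at h3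
  have h4 : N * Q.ramificationIdx (𝓞 K) ≤
      Q.ramificationIdx (𝓞 K) * multiplicity P (span {u - b ^ p}) := by exact_mod_cast h3
  rw [mul_comm] at h4
  exact Nat.le_of_mul_le_mul_left h4 (Nat.pos_of_ne_zero he)

end Fermat.Agent.S14Lib
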