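import Fermat.Agent.S14Lib.UnitPow

/-!
# The case `p = 3`
-/

set_option autoImplicit false
set_option linter.unusedSectionVars false

open NumberField

namespace Fermat.Agent.S14Lib

theorem unit_pow_three {p : ℕ} [Fact p.Prime] (hp3 : p = 3) {K : Type} [Field K] [NumberField K]
    [IsCyclotomicExtension {p} ℚ K] {z : K} (hz : IsPrimitiveRoot z p) (u : (𝓞 K)ˣ)
    (hu : ∀ σ : Gal(K/ℚ), ∃ c : (𝓞 K)ˣ, uact K σ u = c ^ p * u ^ (nexp p σ)) :
    ∃ w : (𝓞 K)ˣ, u = w ^ p := by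
  subst hp3
  let η : (𝓞 K)ˣ := (hz.toInteger_isPrimitiveRoot.isUnit (by decide)).unit
  have hη : (η : 𝓞 K) = hz.toInteger := IsUnit.unit_spec _
  have hmem := IsCyclotomicExtension.Rat.Three.Units.mem hz u
  -- `u = ε η ^ j`
  obtain ⟨ε, j, hε, huj⟩ : ∃ (ε : (𝓞 K)ˣ) (j : ℕ), (ε = 1 ∨ ε = -1) ∧ u = ε * η ^ j := by
    have hmem' : u ∈ [1, -1, η, -η, η ^ 2, -η ^ 2] := hmem
    simp only [List.mem_cons, List.mem_nil_iff, or_false] at hmem'
    rcases hmem' with h | h | h | h | h | h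
    · exact ⟨1, 0, Or.inl rfl, by rw [h]; simp⟩
    · exact ⟨-1, 0, Or.inr rfl, by rw [h]; simp⟩
    · exact ⟨1, 1, Or.inl rfl, by rw [h]; simp⟩
    · exact ⟨-1, 1, Or.inr rfl, by rw [h]; simp⟩
    · exact ⟨1, 2, Or.inl rfl, by rw [h]; simp⟩
    · exact ⟨-1, 2, Or.inr rfl, by rw [h]; simp⟩
  have hε3 : ε = ε ^ 3 := by
    rcases hε with rfl | rfl
    · simp
    · simp [pow_succ]
  have hη3 : η ^ 3 = 1 := by
    ext
    rw [Units.val_pow_eq_pow_val, hη, hz.toInteger_isPrimitiveRoot.pow_eq_one, Units.val_one]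
  -- complex conjugation
  have h2cop : Nat.Coprime 2 3 := by decide
  let σ : Gal(K/ℚ) := (IsCyclotomicExtension.Rat.galEquivZMod 3 K).symm (ZMod.unitOfCoprime 2 h2cop)
  have hσ : uact K σ η = η ^ 2 := by
    ext
    rw [coe_uact, hη, Units.val_pow_eq_pow_val, hη,
      IsCyclotomicExtension.Rat.galEquivZMod_smul_of_pow_eq 3 K σ
      hz.toInteger_isPrimitiveRoot.pow_eq_one, MulEquiv.apply_symm_apply, ZMod.coe_unitOfCoprime]
    rfl
  have hn : nexp 3 σ = 1 := by
    rw [nexp, MulEquiv.apply_symm_apply, ZMod.coe_unitOfCoprime]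
    rfl
  have hσε : uact K σ ε = ε := by
    rcases hε with rfl | rfl
    · rw [map_one]
    · ext
      rw [coe_uact]
      simp
  obtain ⟨c, hc⟩ := hu σ
  rw [hn, pow_one, huj, map_mul, map_pow, hσε, hσ] at hc
  have hc3 : η ^ j = c ^ 3 := by
    have h1 : ε * (η ^ 2) ^ j = ε * (c ^ 3 * η ^ j) := by rw [hc, mul_left_comm]
    have h2 := mul_left_cancel h1
    rw [← pow_mul, mul_comm, pow_mul, sq] at h2
    exact mul_right_cancel h2
  -- `c` has finite order
  have hcfin : IsOfFinOrder (((c : (𝓞 K)ˣ) : 𝓞 K) : K) := by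
    have h1 : IsOfFinOrder c := by
      rw [isOfFinOrder_iff_pow_eq_one]
      refine ⟨9, by norm_num, ?_⟩
      calc c ^ 9 = (c ^ 3) ^ 3 := by rw [← pow_mul]
        _ = (η ^ 3) ^ j := by rw [← hc3, ← pow_mul, ← pow_mul, mul_comm]
        _ = 1 := by rw [hη3, one_pow]
    exact (((algebraMap (𝓞 K) K) : 𝓞 K →* K).comp (Units.coeHom (𝓞 K))).isOfFinOrder h1
  obtain ⟨r, -, hr⟩ := hz.exists_pow_or_neg_mul_pow_of_isOfFinOrder (by decide) hcfin
  have hc3' : c ^ 3 = 1 ∨ c ^ 3 = -1 := by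
    rcases hr with h | h
    · left
      have h' : algebraMap (𝓞 K) K (c : 𝓞 K) = z ^ r := h
      refine Units.ext (RingOfIntegers.coe_injective ?_)
      rw [Units.val_pow_eq_pow_val, map_pow, h', ← pow_mul, mul_comm, pow_mul, hz.pow_eq_one,
        one_pow, Units.val_one, map_one]
    · right
      have h' : algebraMap (𝓞 K) K (c : 𝓞 K) = -z ^ r := h
      refine Units.ext (RingOfIntegers.coe_injective ?_)
      rw [Units.val_pow_eq_pow_val, map_pow, h', neg_pow, ← pow_mul, mul_comm r 3, pow_mul,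
        hz.pow_eq_one, one_pow, Units.val_neg, Units.val_one, map_neg, map_one]
      norm_num
  have hηj : η ^ j = 1 := by
    rcases hc3' with h | h
    · rw [hc3, h]
    · exfalso
      have h1 : (η ^ j) ^ 3 = 1 := by rw [← pow_mul, mul_comm, pow_mul, hη3, one_pow]
      rw [hc3, h] at h1
      have h2 : ((-1 : (𝓞 K)ˣ)) ^ 3 = -1 := by simp [pow_succ]
      rw [h2] at h1
      have h3 := congrArg (fun x : (𝓞 K)ˣ => ((x : 𝓞 K) : K)) h1
      simp only [Units.val_neg, Units.val_one, map_neg, map_one] at h3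
      norm_num at h3
  exact ⟨ε, by rw [huj, hηj, mul_one]; exact hε3⟩

end Fermat.Agent.S14Lib
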