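import Fermat.Agent.S14Lib.KummerRed
import Fermat.Agent.S14Lib.Three

/-!
# The main theorem at finite level
-/

set_option autoImplicit false
set_option linter.unusedSectionVars false

open NumberField Ideal UniqueFactorizationMonoid
open scoped Pointwise nonZeroDivisors

namespace Fermat.Agent.S14Lib

variable {p : ℕ} [Fact p.Prime] {K : Type} [Field K] [NumberField K]
  [IsCyclotomicExtension {p} ℚ K] {L : Type} [Field L] [NumberField L] [Algebra K L]

theorem isUnit_of_pow_mul {c : K} {n m : ℕ} (hn : n ≠ 0) {u v : (𝓞 K)ˣ}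
    (h : ((v : 𝓞 K) : K) = c ^ n * ((u : 𝓞 K) : K) ^ m) :
    ∃ c' : (𝓞 K)ˣ, ((c' : 𝓞 K) : K) = c ∧ v = c' ^ n * u ^ m := by
  have hu0 : ((u : 𝓞 K) : K) ≠ 0 := by
    intro h0
    have : (u : 𝓞 K) = 0 := RingOfIntegers.ext h0
    exact u.ne_zero this
  have h1 : c ^ n = ((((v * (u ^ m)⁻¹ : (𝓞 K)ˣ)) : 𝓞 K) : K) := by
    have h2 : ((((v * (u ^ m)⁻¹ : (𝓞 K)ˣ)) : 𝓞 K) : K) * ((u : 𝓞 K) : K) ^ m =
        ((v : 𝓞 K) : K) := by
      have h3 : (v * (u ^ m)⁻¹) * u ^ m = v := by group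
      have h4 := congrArg (fun x : (𝓞 K)ˣ => algebraMap (𝓞 K) K (x : 𝓞 K)) h3
      simp only [Units.val_mul, Units.val_pow_eq_pow_val, map_mul, map_pow] at h4
      simp only [Units.val_mul, map_mul]
      exact h4
    apply mul_right_cancel₀ (pow_ne_zero m hu0)
    rw [h2, h]
  have hint : IsIntegral ℤ c := by
    apply IsIntegral.of_pow (Nat.pos_of_ne_zero hn)
    rw [h1]
    exact RingOfIntegers.isIntegral_coe _
  let C : 𝓞 K := ⟨c, hint⟩
  have hC : C ^ n = ((v * (u ^ m)⁻¹ : (𝓞 K)ˣ) : 𝓞 K) := RingOfIntegers.ext h1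
  have hCu : IsUnit C := (isUnit_pow_iff hn).1 (by rw [hC]; exact Units.isUnit _)
  refine ⟨hCu.unit, rfl, ?_⟩
  have h5 : hCu.unit ^ n = v * (u ^ m)⁻¹ := Units.ext (by
    rw [Units.val_pow_eq_pow_val, IsUnit.unit_spec, hC])
  rw [h5]
  group

theorem kummer_main (h3 : 3 ≤ p) [IsGalois ℚ L] [Normal ℚ K] {z : K} (hz : IsPrimitiveRoot z p)
    {a : Gal(L/ℚ) → ZMod p} (ha : ∀ g h, a (g * h) = (chiL p K h : ZMod p) * a g + a h)
    (hne : ∃ τ : Gal(L/K), a (τ.restrictScalars ℚ) ≠ 0)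
    (hI : ∀ Q : Ideal (𝓞 L), Q.IsPrime → Q ≠ ⊥ → (p : 𝓞 L) ∉ Q → ∀ τ ∈ Q.inertia Gal(L/ℚ), a τ = 0)
    (hD : ∀ Q : Ideal (𝓞 L), Q.IsPrime → (p : 𝓞 L) ∈ Q → ∀ τ : Gal(L/K), τ • Q = Q →
      a (τ.restrictScalars ℚ) = 0)
    (hbound : PrimeBound K) : False := by
  classical
  have hp' : p.Prime := Fact.out
  have : NeZero p := ⟨hp'.ne_zero⟩
  have hgalKL : IsGalois K L := IsGalois.tower_top_of_isGalois ℚ K L
  let θ : Gal(L/K) → ZMod p := fun τ => a (τ.restrictScalars ℚ)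
  have hθ : ∀ g h, θ (g * h) = θ g + θ h := by
    intro g h
    have h1 := ha (g.restrictScalars ℚ) (h.restrictScalars ℚ)
    rw [chiL_of_fix, Units.val_one, one_mul] at h1
    exact h1
  obtain ⟨y, hy0, hy⟩ := exists_resolvent hz θ hθ
  obtain ⟨α, hα⟩ := exists_alpha hz hy
  set Z := algebraMap (𝓞 K) (𝓞 L) hz.toInteger with hZdef
  have hZ : IsPrimitiveRoot Z p :=
    hz.toInteger_isPrimitiveRoot.map_of_injective (FaithfulSMul.algebraMap_injective (𝓞 K) (𝓞 L))
  have hα0 : α ≠ 0 := by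
    rintro rfl
    rw [map_zero] at hα
    exact hy0 ((pow_eq_zero_iff hp'.ne_zero).1 hα.symm)
  -- `α` is not a `p`-th power
  have hnotpow : ∀ x : 𝓞 K, x ^ p ≠ α := by
    intro x hx
    obtain ⟨τ, hτ⟩ := hne
    have h1 : ((y : L)) ^ p = (algebraMap K L (x : K)) ^ p := by
      have h2 := congrArg (algebraMap (𝓞 L) L) hα
      rw [map_pow, ← hx, map_pow, map_pow] at h2
      exact h2.symm
    have h2 := smul_eq_of_alpha_pow hz ⟨(x : K), rfl⟩ h1 τ
    rw [hy τ] at h2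
    have h4 : Z ^ (θ τ).val = 1 := by
      apply mul_right_cancel₀ hy0
      rw [h2, one_mul]
    rw [hZ.pow_eq_one_iff_dvd] at h4
    have h5 := Nat.eq_zero_of_dvd_of_lt h4 (ZMod.val_lt _)
    rw [ZMod.val_eq_zero] at h5
    exact hτ h5
  have hfix : ∀ τ : Gal(L/K), a (τ.restrictScalars ℚ) = 0 → τ • y = y := by
    intro τ hτ
    have h1 : θ τ = 0 := hτ
    rw [hy, h1, ZMod.val_zero, pow_zero, one_mul]
  -- divisibility
  have hdvd : ∀ P : Ideal (𝓞 K), P.IsPrime → P ≠ ⊥ → p ∣ multiplicity P (span {α}) := by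
    intro P hP hP0
    have hPmax := hP.isMaximal hP0
    obtain ⟨Q, hQmax, hQP⟩ := exists_maximal_ideal_liesOver_of_isIntegral (S := 𝓞 L) P
    have hQ := hQmax.isPrime
    have hQ0 : Q ≠ ⊥ := Ideal.ne_bot_of_liesOver_of_ne_bot hP0 Q
    apply dvd_multiplicity_of_inertia hy0 hα hα0 hP hP0 hQ
    intro τ hτ
    apply hfix
    by_cases hpQ : (p : 𝓞 L) ∈ Q
    · exact hD Q hQ hpQ τ (inertia_le_stabilizer (M := Gal(L/K)) Q hτ)
    · exact hI Q hQ hQ0 hpQ _ (fun x => hτ x)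
  have hαspan : span {α} ≠ (⊥ : Ideal (𝓞 K)) := by simpa using hα0
  obtain ⟨𝔞, h𝔞⟩ := exists_eq_pow_of_dvd_multiplicity hαspan hdvd
  have h𝔞0 : 𝔞 ≠ ⊥ := by
    rintro rfl
    apply hαspan
    rw [h𝔞]
    exact zero_pow hp'.ne_zero
  -- the principal case is impossible
  have hprin : ∀ x : 𝓞 K, 𝔞 ≠ span {x} := by
    intro x hx
    rw [hx, span_singleton_pow, span_singleton_eq_span_singleton] at h𝔞
    obtain ⟨u, hu⟩ := h𝔞.symm
    -- `α = x ^ p * u`
    have hx0 : x ≠ 0 := by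
      rintro rfl
      rw [zero_pow hp'.ne_zero, zero_mul] at hu
      exact hα0 hu.symm
    set X := algebraMap (𝓞 K) (𝓞 L) x with hX
    have hX0 : X ≠ 0 := by
      rw [hX, Ne, FaithfulSMul.algebraMap_eq_zero_iff]
      exact hx0
    have hyX : y ^ p = X ^ p * algebraMap (𝓞 K) (𝓞 L) u := by
      rw [← hα, ← hu, map_mul, map_pow]
    obtain ⟨w, hw⟩ : X ∣ y := (IsIntegrallyClosed.pow_dvd_pow_iff hp'.ne_zero).1 ⟨_, hyX⟩
    have hwp : algebraMap (𝓞 K) (𝓞 L) u = w ^ p := by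
      rw [hw, mul_pow] at hyX
      exact (mul_left_cancel₀ (pow_ne_zero p hX0) hyX).symm
    have hw0 : w ≠ 0 := by
      rintro rfl
      rw [mul_zero] at hw
      exact hy0 hw
    have hwθ : ∀ τ : Gal(L/K), τ • w = Z ^ (a (τ.restrictScalars ℚ)).val * w := by
      intro τ
      have h1 := hy τ
      rw [hw, smul_mul', ← mul_assoc, mul_comm _ X, mul_assoc] at h1
      have h2 : τ • X = X := RingOfIntegers.ext (τ.commutes (x : K))
      rw [h2] at h1
      exact mul_left_cancel₀ hX0 h1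
    have hequ : ∀ σ : Gal(K/ℚ), ∃ c : (𝓞 K)ˣ, uact K σ u = c ^ p * u ^ (nexp p σ) := by
      intro σ
      obtain ⟨g, rfl⟩ := AlgEquiv.restrictNormalHom_surjective (F := ℚ) (K₁ := K) (E := L) σ
      obtain ⟨c, hc0, hc⟩ := radicand_equiv hz ha hw0 hwθ hwp g
      obtain ⟨c', -, hc'⟩ := isUnit_of_pow_mul (v := uact K (g.restrictNormal K) u) hp'.ne_zero hc
      exact ⟨c', hc'⟩
    obtain ⟨v, hv⟩ : ∃ v : (𝓞 K)ˣ, u = v ^ p := by
      by_cases hp3 : p = 3
      · exact unit_pow_three hp3 hz u hequ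
      · have h5 : 5 ≤ p := by
          by_contra h
          have h4 : p = 4 := by omega
          rw [h4] at hp'
          exact absurd hp' (by decide)
        apply unit_pow h5 hz u hequ
        -- the prime above `p`
        have hprime : (span {1 - hz.toInteger} : Ideal (𝓞 K)).IsPrime := by
          have h1 := hz.zeta_sub_one_prime'
          have h2 : Prime (1 - hz.toInteger) := by
            have := h1.neg
            rwa [neg_sub] at this
          exact (Ideal.span_singleton_prime h2.ne_zero).2 h2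
        have hP0 : (span {1 - hz.toInteger} : Ideal (𝓞 K)) ≠ ⊥ := by
          rw [Ne, span_singleton_eq_bot, sub_eq_zero]
          exact fun h => hz.toInteger_isPrimitiveRoot.ne_one hp'.one_lt h.symm
        have hPmax := hprime.isMaximal hP0
        obtain ⟨Q, hQmax, hQP⟩ := exists_maximal_ideal_liesOver_of_isIntegral (S := 𝓞 L)
          (span {1 - hz.toInteger} : Ideal (𝓞 K))
        have hpP : (p : 𝓞 K) ∈ (span {1 - hz.toInteger} : Ideal (𝓞 K)) := by
          have h1 := hz.toInteger_isPrimitiveRoot.geom_sum_eq_zero hp'.one_lt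
          rw [← Ideal.Quotient.eq_zero_iff_mem, map_natCast]
          have h2 := congrArg (Ideal.Quotient.mk (span {1 - hz.toInteger})) h1
          have h3 : Ideal.Quotient.mk (span {1 - hz.toInteger}) hz.toInteger = 1 := by
            rw [eq_comm, ← map_one (Ideal.Quotient.mk (span {1 - hz.toInteger})),
              Ideal.Quotient.eq]
            exact mem_span_singleton_self _
          rw [map_sum, map_zero] at h2
          simp only [map_pow, h3, one_pow, Finset.sum_const, Finset.card_range, nsmul_eq_mul,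
            mul_one] at h2
          exact h2
        have hpQ : (p : 𝓞 L) ∈ Q := by
          have := (Q.mem_of_liesOver (span {1 - hz.toInteger} : Ideal (𝓞 K)) (p : 𝓞 K)).1 hpP
          simpa using this
        exact exists_sub_pow_mem hwp hprime hP0 hQmax.isPrime (by
          intro τ hτ
          rw [hwθ, hD Q hQmax.isPrime hpQ τ hτ, ZMod.val_zero, pow_zero, one_mul]) 3
    apply hnotpow (x * v)
    rw [mul_pow, ← hu, hv, Units.val_pow_eq_pow_val]
  -- the class of `𝔞`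
  let A : (Ideal (𝓞 K))⁰ := ⟨𝔞, mem_nonZeroDivisors_iff_ne_zero.2 h𝔞0⟩
  have hc1 : ClassGroup.mk0 A ≠ 1 := by
    intro h
    have h1 := (ClassGroup.mk0_eq_one_iff A.2).1 h
    obtain ⟨x, hx⟩ := h1
    exact hprin x hx
  have hcp : (ClassGroup.mk0 A) ^ p = 1 := by
    rw [← map_pow]
    have h1 : A ^ p = ⟨span {α}, span_mem_nonZeroDivisors hα0⟩ := Subtype.ext h𝔞.symm
    rw [h1, ClassGroup.mk0_eq_one_iff]
    exact ⟨α, rfl⟩
  have hcσ : ∀ σ : Gal(K/ℚ), cact σ (ClassGroup.mk0 A) = (ClassGroup.mk0 A) ^ (nexp p σ) := by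
    intro σ
    obtain ⟨g, rfl⟩ := AlgEquiv.restrictNormalHom_surjective (F := ℚ) (K₁ := K) (E := L) σ
    obtain ⟨c, hc0, hc⟩ := radicand_equiv hz ha hy0 hy hα g
    rw [cact_mk0, ← map_pow, ClassGroup.mk0_eq_mk0_iff]
    obtain ⟨x₂, x₁, hx₁, hx₂⟩ := IsFractionRing.div_surjective (A := 𝓞 K) c
    have hx₁0 : x₁ ≠ 0 := nonZeroDivisors.ne_zero hx₁
    have hx₂0 : x₂ ≠ 0 := by
      rintro rfl
      rw [map_zero, zero_div] at hx₂
      exact hc0 hx₂.symm
    refine ⟨x₁, x₂, hx₁0, hx₂0, ?_⟩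
    apply ideal_pow_left_inj hp'.ne_zero
    set σ := AlgEquiv.restrictNormalHom K g with hσ
    have h1 : x₁ ^ p * (σ • α) = x₂ ^ p * α ^ (nexp p σ) := by
      apply RingOfIntegers.coe_injective
      rw [map_mul, map_mul, map_pow, map_pow, map_pow]
      have h2 : algebraMap (𝓞 K) K (σ • α) = c ^ p * (algebraMap (𝓞 K) K α) ^ nexp p σ := hc
      have h3 : algebraMap (𝓞 K) K x₁ ≠ 0 := by
        rw [Ne, FaithfulSMul.algebraMap_eq_zero_iff]
        exact hx₁0
      rw [h2, ← hx₂, div_pow]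
      field_simp
    have h2 : ((ismul σ A : (Ideal (𝓞 K))⁰) : Ideal (𝓞 K)) ^ p = span {σ • α} := by
      change (σ • 𝔞) ^ p = _
      rw [← smul_pow', ← h𝔞, Ideal.pointwise_smul_def, Ideal.map_span, Set.image_singleton]
      rfl
    have h3 : ((A ^ nexp p σ : (Ideal (𝓞 K))⁰) : Ideal (𝓞 K)) ^ p = span {α ^ nexp p σ} := by
      change (𝔞 ^ nexp p σ) ^ p = _
      rw [← pow_mul, mul_comm, pow_mul, ← h𝔞, span_singleton_pow]
    rw [mul_pow, mul_pow, h2, h3, span_singleton_pow, span_singleton_pow,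
      span_singleton_mul_span_singleton, span_singleton_mul_span_singleton, h1]
  obtain ⟨f, hf, hfσ⟩ := exists_classFun hc1 hcp hcσ
  by_cases hp3 : p = 3
  · subst hp3
    have hpid : IsPrincipalIdealRing (𝓞 K) := IsCyclotomicExtension.Rat.three_pid K
    obtain ⟨x, hx⟩ := hpid.principal 𝔞
    exact hprin x hx
  · have h5 : 5 ≤ p := by
      by_contra h
      have h4 : p = 4 := by omega
      rw [h4] at hp'
      exact absurd hp' (by decide)
    exact density_contradiction h5 hz hbound f hf hfσ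

end Fermat.Agent.S14Lib
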