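import Fermat.Agent.S14Lib.EigLemma

/-!
# A Minkowski unit: the conjugates of one unit generate a subgroup of finite index
-/

set_option autoImplicit false
set_option linter.unusedSectionVars false

open NumberField NumberField.Units NumberField.Units.dirichletUnitTheorem Module Finset

namespace Fermat.Agent.S14Lib

variable (K : Type) [Field K] [NumberField K]

set_option backward.isDefEq.respectTransparency.types false in
open scoped Classical in
theorem linearIndependent_log (u : InfinitePlace K → (𝓞 K)ˣ)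
    (hu : ∀ w₁ w : InfinitePlace K, w ≠ w₁ → Real.log (w (u w₁)) < 0) :
    LinearIndependent ℝ (fun w : {w : InfinitePlace K // w ≠ w₀} =>
      logEmbedding K (Additive.ofMul (u w))) := by
  let B := Pi.basisFun ℝ {w : InfinitePlace K // w ≠ w₀}
  let v := fun w : { w : InfinitePlace K // w ≠ w₀ } => logEmbedding K (Additive.ofMul (u w))
  change LinearIndependent ℝ v
  suffices h : B.det v ≠ 0 by
    rw [← isUnit_iff_ne_zero, ← Basis.is_basis_iff_det] at h
    exact h.1
  rw [Basis.det_apply]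
  refine det_ne_zero_of_sum_col_lt_diag (fun w ↦ ?_)
  simp_rw [Real.norm_eq_abs, B, Basis.coePiBasisFun.toMatrix_eq_transpose, Matrix.transpose_apply]
  rw [← sub_pos, sum_congr rfl (fun x hx ↦ abs_of_neg ?_), sum_neg_distrib, sub_neg_eq_add,
    sum_erase_eq_sub (mem_univ _), ← add_comm_sub]
  · refine add_pos_of_nonneg_of_pos ?_ ?_
    · rw [sub_nonneg]
      exact le_abs_self _
    · rw [sum_logEmbedding_component (u w)]
      refine mul_pos_of_neg_of_neg ?_ (hu _ _ w.prop.symm)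
      rw [InfinitePlace.mult]; split_ifs <;> norm_num
  · refine mul_neg_of_pos_of_neg ?_ (hu _ x ?_)
    · rw [InfinitePlace.mult]; split_ifs <;> norm_num
    · exact Subtype.ext_iff.not.mp (ne_of_mem_erase hx)

/-- the lattice of units modulo torsion -/
def UL := Additive ((𝓞 K)ˣ ⧸ (torsion K))

noncomputable instance : AddCommGroup (UL K) :=
  inferInstanceAs (AddCommGroup (Additive ((𝓞 K)ˣ ⧸ (torsion K))))

instance : Module.Free ℤ (UL K) :=
  (inferInstance : @Module.Free ℤ (Additive ((𝓞 K)ˣ ⧸ (torsion K))) _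
    (@AddCommGroup.toAddCommMonoid _ _) (@AddCommGroup.toIntModule _ _))

instance : Module.Finite ℤ (UL K) :=
  (inferInstance : @Module.Finite ℤ (Additive ((𝓞 K)ˣ ⧸ (torsion K))) _
    (@AddCommGroup.toAddCommMonoid _ _) (@AddCommGroup.toIntModule _ _))

theorem finrank_UL : finrank ℤ (UL K) = rank K := finrank_modTorsion K

/-- logarithmic embedding of the unit lattice -/
noncomputable def ulLog : UL K →+ logSpace K := logEmbeddingQuot K

/-- class of a unit in the unit lattice -/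
def ulMk (x : (𝓞 K)ˣ) : UL K := Additive.ofMul (QuotientGroup.mk x)

theorem exists_index (u : InfinitePlace K → (𝓞 K)ˣ)
    (hu : ∀ w₁ w : InfinitePlace K, w ≠ w₁ → Real.log (w (u w₁)) < 0) :
    ∃ m : ℕ, m ≠ 0 ∧ ∀ x : UL K, m • x ∈ Submodule.span ℤ (Set.range fun w => ulMk K (u w)) := by
  classical
  let v : {w : InfinitePlace K // w ≠ w₀} → UL K := fun w => ulMk K (u w)
  have h1 : LinearIndependent ℤ v := by
    have h2 := (linearIndependent_log K u hu).restrict_scalars' ℤ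
    refine LinearIndependent.of_comp (ulLog K).toIntLinearMap ?_
    exact h2
  let N : Submodule ℤ (UL K) := Submodule.span ℤ (Set.range v)
  have h3 : finrank ℤ N = finrank ℤ (UL K) := by
    rw [finrank_span_eq_card h1, finrank_UL]
    rw [Fintype.card_subtype_compl, rank, Fintype.card_subtype_eq]
  have h4 : Finite (UL K ⧸ N) := Submodule.finiteQuotientOfFreeOfRankEq N h3
  refine ⟨Nat.card (UL K ⧸ N), Nat.card_pos.ne', fun x => ?_⟩
  have h5 : Nat.card (UL K ⧸ N) • x ∈ N := by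
    rw [← Submodule.Quotient.mk_eq_zero, Submodule.Quotient.mk_smul]
    exact card_nsmul_eq_zero'
  refine Submodule.span_mono ?_ h5
  rintro _ ⟨w, rfl⟩
  exact ⟨w, rfl⟩

/-- Galois action on units -/
noncomputable def uact (σ : Gal(K/ℚ)) : (𝓞 K)ˣ →* (𝓞 K)ˣ :=
  Units.map (MulSemiringAction.toRingHom Gal(K/ℚ) (𝓞 K) σ : 𝓞 K →* 𝓞 K)

@[simp]
theorem coe_uact (σ : Gal(K/ℚ)) (x : (𝓞 K)ˣ) : ((uact K σ x : (𝓞 K)ˣ) : 𝓞 K) = σ • (x : 𝓞 K) :=
  rfl

theorem uact_mul (σ τ : Gal(K/ℚ)) (x : (𝓞 K)ˣ) : uact K (σ * τ) x = uact K σ (uact K τ x) := by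
  ext
  simp [mul_smul]

theorem uact_one (x : (𝓞 K)ˣ) : uact K 1 x = x := by
  ext
  simp

/-- The action on the unit lattice. -/
noncomputable def ulact (σ : Gal(K/ℚ)) : Module.End ℤ (UL K) :=
  (MonoidHom.toAdditive (QuotientGroup.map (torsion K) (torsion K) (uact K σ) (by
    intro x hx
    rw [Subgroup.mem_comap]
    exact (CommGroup.mem_torsion _).2 ((uact K σ).isOfFinOrder
      ((CommGroup.mem_torsion _).1 hx)))) : UL K →+ UL K).toIntLinearMap

theorem ulact_ulMk (σ : Gal(K/ℚ)) (x : (𝓞 K)ˣ) : ulact K σ (ulMk K x) = ulMk K (uact K σ x) := rfl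

theorem ulMk_mul (x y : (𝓞 K)ˣ) : ulMk K (x * y) = ulMk K x + ulMk K y := rfl

theorem ulMk_zpow (x : (𝓞 K)ˣ) (n : ℤ) : ulMk K (x ^ n) = n • ulMk K x := rfl

theorem ulMk_pow (x : (𝓞 K)ˣ) (n : ℕ) : ulMk K (x ^ n) = n • ulMk K x := rfl

theorem ulMk_surjective : Function.Surjective (ulMk K) := fun x => by
  obtain ⟨y, hy⟩ := QuotientGroup.mk_surjective (Additive.toMul x)
  exact ⟨y, by rw [ulMk, hy]; rfl⟩

theorem ulMk_eq_zero_iff (x : (𝓞 K)ˣ) : ulMk K x = 0 ↔ x ∈ torsion K :=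
  QuotientGroup.eq_one_iff x

theorem ulact_pow (σ : Gal(K/ℚ)) (i : ℕ) (x : (𝓞 K)ˣ) :
    (ulact K σ ^ i) (ulMk K x) = ulMk K (uact K (σ ^ i) x) := by
  induction i with
  | zero => simp [uact_one]
  | succ i ih =>
    rw [pow_succ', Module.End.mul_apply, ih, ulact_ulMk, pow_succ', uact_mul]

theorem ul_torsionfree (n : ℤ) (x : UL K) (hn : n ≠ 0) (h : n • x = 0) : x = 0 := by
  exact (smul_eq_zero.1 h).resolve_left hn

/-- existence of a Minkowski unit for a cyclic extension of `ℚ` -/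
theorem exists_minkowski_unit [IsGalois ℚ K] {g : Gal(K/ℚ)} (hg : ∀ σ, σ ∈ Subgroup.zpowers g) :
    ∃ (η : UL K) (m : ℕ), m ≠ 0 ∧
      ∀ x : UL K, m • x ∈ Submodule.span ℤ (Set.range fun i : ℕ => ((ulact K g) ^ i) η) := by
  obtain ⟨η, hη⟩ := exists_unit K w₀
  have htrans : ∀ w : InfinitePlace K, ∃ σ : Gal(K/ℚ), σ • (w₀ : InfinitePlace K) = w := fun w =>
    InfinitePlace.exists_smul_eq_of_comap_eq (Subsingleton.elim _ _)
  choose s hs using htrans
  obtain ⟨m, hm, h⟩ := exists_index K (fun w => uact K (s w) η) (by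
    intro w₁ w hw
    have h1 : (w : InfinitePlace K) ((uact K (s w₁) η : (𝓞 K)ˣ) : K) =
        ((s w₁)⁻¹ • w) ((η : (𝓞 K)ˣ) : K) := by
      rw [InfinitePlace.smul_apply]
      rfl
    rw [h1]
    apply hη
    intro h2
    apply hw
    rw [← hs w₁, ← h2, smul_inv_smul])
  refine ⟨ulMk K η, m, hm, fun x => ?_⟩
  refine Submodule.span_mono ?_ (h x)
  rintro _ ⟨w, rfl⟩
  obtain ⟨i, hi⟩ : ∃ i : ℕ, g ^ i = s w := by
    have hfin : IsOfFinOrder g := isOfFinOrder_of_finite g
    exact Submonoid.mem_powers_iff _ _ |>.1 (hfin.mem_powers_iff_mem_zpowers.2 (hg (s w)))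
  refine ⟨i, ?_⟩
  simp only
  rw [ulact_pow, hi]

end Fermat.Agent.S14Lib
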