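import Fermat.Agent.S14Lib.Jets
import Fermat.Agent.S14Lib.MinkUnit

/-!
# `ω²`-units of `ℚ(ζ_p)` which are locally `p`-th powers are `p`-th powers
-/

set_option autoImplicit false
set_option linter.unusedSectionVars false
set_option linter.unusedSimpArgs false

open NumberField NumberField.Units Module Finset
open scoped Pointwise

namespace Fermat.Agent.S14Lib

variable {p : ℕ} [Fact p.Prime] {K : Type} [Field K] [NumberField K]
  [IsCyclotomicExtension {p} ℚ K]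

theorem isUnit_one_add (h5 : 5 ≤ p) {z : K} (hz : IsPrimitiveRoot z p) :
    IsUnit (1 + hz.toInteger) := by
  have hp' : p.Prime := Fact.out
  have h2cop : Nat.Coprime 2 p := by
    rw [Nat.coprime_primes Nat.prime_two hp']; omega
  have h := hz.toInteger_isPrimitiveRoot.associated_sub_one_pow_sub_one_of_coprime h2cop
  obtain ⟨u, hu⟩ := h
  have h1 : hz.toInteger - 1 ≠ 0 := by
    rw [sub_ne_zero]
    exact hz.toInteger_isPrimitiveRoot.ne_one hp'.one_lt
  have h2 : (hz.toInteger - 1) * (1 + hz.toInteger) = (hz.toInteger - 1) * u := by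
    rw [hu]; ring
  rw [mul_left_cancel₀ h1 h2]
  exact u.isUnit

/-- jets of units: the homomorphism `L2`. -/
noncomputable def L2 (ρ : 𝓞 K →+* Jet (ZMod p)) : (𝓞 K)ˣ →* Multiplicative (ZMod p) where
  toFun x := Multiplicative.ofAdd (l2 (ρ x))
  map_one' := by simp [l2_one]
  map_mul' x y := by
    rw [Units.val_mul, map_mul, l2_mul (jA_ne_zero_of_isUnit (x.isUnit.map ρ))
      (jA_ne_zero_of_isUnit (y.isUnit.map ρ))]
    rfl

/-- jets of units: the homomorphism `L1`. -/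
noncomputable def L1 (ρ : 𝓞 K →+* Jet (ZMod p)) : (𝓞 K)ˣ →* Multiplicative (ZMod p) where
  toFun x := Multiplicative.ofAdd (l1 (ρ x))
  map_one' := by simp [l1_one]
  map_mul' x y := by
    rw [Units.val_mul, map_mul, l1_mul (jA_ne_zero_of_isUnit (x.isUnit.map ρ))
      (jA_ne_zero_of_isUnit (y.isUnit.map ρ))]
    rfl

theorem multiplicative_pow_p (x : Multiplicative (ZMod p)) : x ^ p = 1 := by
  have h : (p : ℕ) • (Multiplicative.toAdd x) = 0 := by
    rw [nsmul_eq_mul, CharP.cast_eq_zero, zero_mul]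
  exact h

theorem multiplicative_zpow_eq_one {x : Multiplicative (ZMod p)} {n : ℤ} (h : x ^ n = 1)
    (hx : x ≠ 1) : (p : ℤ) ∣ n := by
  have h1 : n • (Multiplicative.toAdd x) = 0 := h
  rw [zsmul_eq_mul, mul_eq_zero] at h1
  rcases h1 with h1 | h1
  · exact (ZMod.intCast_zmod_eq_zero_iff_dvd n p).1 h1
  · exact absurd h1 hx

theorem eq_pow_of_zpow_eq {G : Type*} [CommGroup G] {p : ℕ} (hp : p.Prime) {u w : G} {s : ℤ}
    (hs : ¬ (p : ℤ) ∣ s) (h : u ^ s = w ^ p) : ∃ v : G, u = v ^ p := by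
  have hcop : IsCoprime s (p : ℤ) := by
    rw [isCoprime_comm]
    exact (Prime.coprime_iff_not_dvd (Nat.prime_iff_prime_int.1 hp)).2 hs
  obtain ⟨x, y, hxy⟩ := hcop
  refine ⟨w ^ x * u ^ y, ?_⟩
  calc u = u ^ (x * s + y * p) := by rw [hxy, zpow_one]
    _ = (u ^ s) ^ x * (u ^ y) ^ (p : ℕ) := by
        rw [zpow_add, mul_comm x s, zpow_mul, zpow_mul, zpow_natCast]
    _ = (w ^ x * u ^ y) ^ p := by
        rw [h, mul_pow]
        congr 1
        rw [← zpow_natCast, ← zpow_natCast, ← zpow_mul, ← zpow_mul, mul_comm]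

theorem ulMk_prod {ι : Type*} (s : Finset ι) (f : ι → (𝓞 K)ˣ) :
    ulMk K (∏ i ∈ s, f i) = ∑ i ∈ s, ulMk K (f i) := by
  classical
  induction s using Finset.induction_on with
  | empty => simp only [Finset.prod_empty, Finset.sum_empty]; rfl
  | insert a s ha ih => rw [Finset.prod_insert ha, Finset.sum_insert ha, ulMk_mul, ih]

theorem unit_pow (h5 : 5 ≤ p) {z : K} (hz : IsPrimitiveRoot z p) (u : (𝓞 K)ˣ)
    (hu : ∀ σ : Gal(K/ℚ), ∃ c : (𝓞 K)ˣ, uact K σ u = c ^ p * u ^ (nexp p σ))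
    (hloc : ∃ b : 𝓞 K, (u : 𝓞 K) - b ^ p ∈ Ideal.span {1 - hz.toInteger} ^ 3) :
    ∃ w : (𝓞 K)ˣ, u = w ^ p := by
  classical
  have hp' : p.Prime := Fact.out
  have : NeZero p := ⟨hp'.ne_zero⟩
  have : IsGalois ℚ K := IsCyclotomicExtension.isGalois {p} ℚ K
  obtain ⟨ρ, hρ⟩ := exists_rho h5 hz
  have hodd : Odd p := hp'.odd_of_ne_two (by omega)
  -- generator
  let E := IsCyclotomicExtension.Rat.galEquivZMod p K
  have hcyc : IsCyclic Gal(K/ℚ) := isCyclic_of_surjective E.symm E.symm.surjective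
  obtain ⟨g, hg⟩ := hcyc.exists_generator
  have hcard : Fintype.card Gal(K/ℚ) = p - 1 := by
    rw [← Nat.card_eq_fintype_card, IsGalois.card_aut_eq_finrank,
      IsCyclotomicExtension.Rat.finrank p K, Nat.totient_prime hp']
  have hgp : g ^ (p - 1) = 1 := by
    rw [← hcard]; exact pow_card_eq_one
  have hγ : (ulact K g) ^ (p - 1) = 1 := by
    ext x
    obtain ⟨y, rfl⟩ := ulMk_surjective K x
    rw [ulact_pow, hgp, uact_one]
    rfl
  obtain ⟨η, m, hm, hη⟩ := exists_minkowski_unit K hg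
  -- the unit `v`
  obtain ⟨v₀, hv₀⟩ := isUnit_one_add h5 hz
  let v : (𝓞 K)ˣ := ∏ σ : Gal(K/ℚ), (uact K σ⁻¹ v₀) ^ (nexp p σ)
  have hv : (v : 𝓞 K) = eproj p (1 + hz.toInteger) := by
    rw [eproj, Units.coe_prod]
    refine Finset.prod_congr rfl fun σ _ => ?_
    rw [Units.val_pow_eq_pow_val, coe_uact, hv₀]
  set a : ℤ := (nexp p g : ℤ) with ha
  have hacast : ((a : ℤ) : ZMod p) = ((E g : (ZMod p)ˣ) : ZMod p) ^ 2 := by
    rw [ha, Int.cast_natCast, nexp_cast]
  have hu' : ulact K g (ulMk K u) - a • ulMk K u ∈ mulSub (UL K) p := by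
    obtain ⟨c, hc⟩ := hu g
    rw [ulact_ulMk, hc, ulMk_mul, ulMk_pow, ulMk_pow, ha, natCast_zsmul, add_sub_cancel_right]
    rw [← natCast_zsmul]
    exact smul_mem_mulSub _ _
  have hv' : ulact K g (ulMk K v) - a • ulMk K v ∈ mulSub (UL K) p := by
    have h1 : ulMk K v = ∑ σ : Gal(K/ℚ), (nexp p σ : ℤ) • ulMk K (uact K σ⁻¹ v₀) := by
      rw [ulMk_prod]
      refine Finset.sum_congr rfl fun σ _ => ?_
      rw [ulMk_pow, natCast_zsmul]
    have h2 : ulact K g (ulMk K v) =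
        ∑ σ : Gal(K/ℚ), (nexp p (σ * g) : ℤ) • ulMk K (uact K σ⁻¹ v₀) := by
      rw [h1, map_sum]
      rw [← Equiv.sum_comp (Equiv.mulRight g)]
      refine Finset.sum_congr rfl fun σ _ => ?_
      rw [map_smul, Equiv.coe_mulRight, ulact_ulMk, ← uact_mul, mul_inv_rev, mul_inv_cancel_left]
    rw [h2, h1, Finset.smul_sum, ← Finset.sum_sub_distrib]
    refine Submodule.sum_mem _ fun σ _ => ?_
    rw [← mul_smul, ← sub_smul]
    apply mul_smul_mem_mulSub
    rw [← ZMod.intCast_zmod_eq_zero_iff_dvd]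
    push_cast
    rw [nexp_cast, nexp_cast, ha]
    push_cast
    rw [nexp_cast, map_mul, Units.val_mul]
    ring
  have hadvd : (p : ℤ) ∣ a ^ (p - 1) - 1 := by
    rw [← ZMod.intCast_zmod_eq_zero_iff_dvd]
    push_cast
    rw [hacast, ZMod.pow_card_sub_one_eq_one, sub_self]
    exact pow_ne_zero _ (Units.ne_zero _)
  have hcop : IsCoprime ((p - 1 : ℕ) : ℤ) (p : ℤ) := by
    rw [Nat.isCoprime_iff_coprime]
    exact (Nat.coprime_self_sub_left hp'.one_le).2 (Nat.coprime_one_left p)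
  obtain ⟨s, t, hst, hmem⟩ := exists_dependence (ul_torsionfree K) hp' (Nat.sub_pos_of_lt hp'.one_lt)
    hγ hcop hm hη hadvd hu' hv'
  obtain ⟨w', hw'⟩ := mem_mulSub.1 hmem
  obtain ⟨w, rfl⟩ := ulMk_surjective K w'
  -- the torsion unit
  have hτ : u ^ s * v ^ t * (w ^ p)⁻¹ ∈ torsion K := by
    rw [← ulMk_eq_zero_iff]
    have h1 : ulMk K (u ^ s * v ^ t * (w ^ p)⁻¹) =
        (s • ulMk K u + t • ulMk K v) - (p : ℤ) • ulMk K w := by
      rw [natCast_zsmul]
      rfl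
    rw [h1, hw', sub_self]
  set τ := u ^ s * v ^ t * (w ^ p)⁻¹ with hτdef
  have hfin : IsOfFinOrder (((τ : (𝓞 K)ˣ) : 𝓞 K) : K) := by
    have h1 : IsOfFinOrder τ := (CommGroup.mem_torsion _).1 hτ
    exact (((algebraMap (𝓞 K) K) : 𝓞 K →* K).comp (Units.coeHom (𝓞 K))).isOfFinOrder h1
  obtain ⟨r, hr, hτr⟩ := hz.exists_pow_or_neg_mul_pow_of_isOfFinOrder hodd hfin
  -- the unit `ζ`
  let ζ : (𝓞 K)ˣ := (hz.toInteger_isPrimitiveRoot.isUnit hp'.ne_zero).unit
  have hζ : (ζ : 𝓞 K) = hz.toInteger := IsUnit.unit_spec _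
  have hτ' : τ = ζ ^ r ∨ τ = (-1) * ζ ^ r := by
    rcases hτr with h | h
    · left
      ext
      rw [h, Units.val_pow_eq_pow_val, hζ]
      rfl
    · right
      ext
      rw [h]
      simp only [Units.val_mul, Units.val_neg, Units.val_one, Units.val_pow_eq_pow_val, hζ,
        map_mul, map_neg, map_one, map_pow, neg_mul, one_mul]
      rfl
  have hm1 : ((-1 : (𝓞 K)ˣ)) = (-1) ^ p := by
    rw [hodd.neg_one_pow]
  have hL2ζ : L2 ρ ζ = 1 := by
    change Multiplicative.ofAdd (l2 (ρ (ζ : 𝓞 K))) = 1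
    rw [hζ, hρ]
    simp [l2, jY]
  have hL1ζ : L1 ρ ζ = Multiplicative.ofAdd 1 := by
    change Multiplicative.ofAdd (l1 (ρ (ζ : 𝓞 K))) = _
    rw [hζ, hρ]
    simp [l1, jY]
  have hL2τ : L2 ρ τ = 1 := by
    rcases hτ' with h | h
    · rw [h, map_pow, hL2ζ, one_pow]
    · rw [h, map_mul, map_pow, hL2ζ, one_pow, mul_one, hm1, map_pow, multiplicative_pow_p]
  have hL1τ : L1 ρ τ = Multiplicative.ofAdd (r : ZMod p) := by
    have h1 : L1 ρ (ζ ^ r) = Multiplicative.ofAdd (r : ZMod p) := by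
      rw [map_pow, hL1ζ, ← ofAdd_nsmul, nsmul_eq_mul, mul_one]
    rcases hτ' with h | h
    · rw [h, h1]
    · rw [h, map_mul, h1, hm1, map_pow, multiplicative_pow_p, one_mul]
  -- jets of `u`
  obtain ⟨b, hb⟩ := hloc
  have hρu : ρ (u : 𝓞 K) = (ρ b) ^ p := by
    have h1 : ρ ((u : 𝓞 K) - b ^ p) = 0 := by
      rw [Ideal.span_singleton_pow, Ideal.mem_span_singleton'] at hb
      obtain ⟨c, hc⟩ := hb
      rw [← hc, map_mul, map_pow, map_sub, map_one, hρ]
      have h2 : (1 - (jY : Jet (ZMod p))) ^ 3 = 0 := by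
        have h3 : (1 : Jet (ZMod p)) - jY = jmk 0 (-1) (-1) (-1) := by
          rw [sub_eq_add_neg]
          apply jet_ext <;> simp [jY]
        rw [h3]
        apply jet_ext <;>
          simp only [pow_succ, pow_zero, one_mul, jA_mul, jB_mul, jC_mul, jD_mul, jA_mk, jB_mk,
            jC_mk, jD_mk, jA_zero, jB_zero, jC_zero, jD_zero] <;> ring
      rw [h2, mul_zero]
    rw [map_sub, map_pow, sub_eq_zero] at h1
    exact h1
  have hAb : jA (ρ b) ≠ 0 := by
    have h1 := jA_ne_zero_of_isUnit (u.isUnit.map ρ)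
    rw [hρu, jA_pow] at h1
    exact fun h => h1 (by rw [h, zero_pow hp'.ne_zero])
  have hL2u : L2 ρ u = 1 := by
    change Multiplicative.ofAdd (l2 (ρ (u : 𝓞 K))) = 1
    rw [hρu, l2_pow hAb]
    simp
  have hL1u : L1 ρ u = 1 := by
    change Multiplicative.ofAdd (l1 (ρ (u : 𝓞 K))) = 1
    rw [hρu, l1_pow hAb]
    simp
  have hL2v : L2 ρ v ≠ 1 := by
    intro h
    apply l2_eproj_one_add_ne_zero h5 hρ
    rw [← hv]
    exact h
  -- conclude
  have ht : (p : ℤ) ∣ t := by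
    apply multiplicative_zpow_eq_one (x := L2 ρ v) _ hL2v
    have h1 := hL2τ
    rw [hτdef, map_mul, map_mul, map_zpow, map_zpow, map_inv, map_pow, multiplicative_pow_p,
      hL2u, one_zpow, one_mul, inv_one, mul_one] at h1
    exact h1
  have hs : ¬ (p : ℤ) ∣ s := fun h => hst ⟨h, ht⟩
  obtain ⟨t', rfl⟩ := ht
  have hr0 : r = 0 := by
    have h1 := hL1τ
    rw [hτdef, map_mul, map_mul, map_zpow, map_zpow, map_inv, map_pow, multiplicative_pow_p,
      hL1u, one_zpow, one_mul, inv_one, mul_one, zpow_mul, zpow_natCast, multiplicative_pow_p,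
      one_zpow] at h1
    have h2 : (0 : ZMod p) = (r : ZMod p) := h1
    rw [eq_comm, ZMod.natCast_eq_zero_iff] at h2
    exact Nat.eq_zero_of_dvd_of_lt h2 hr
  have hτpow : ∃ ε : (𝓞 K)ˣ, τ = ε ^ p := by
    rcases hτ' with h | h
    · exact ⟨1, by rw [h, hr0, pow_zero, one_pow]⟩
    · exact ⟨-1, by rw [h, hr0, pow_zero, mul_one, ← hm1]⟩
  obtain ⟨ε, hε⟩ := hτpow
  apply eq_pow_of_zpow_eq hp' hs (w := ε * w * (v ^ t')⁻¹)
  have h1 : u ^ s = τ * w ^ p * ((v ^ t') ^ p)⁻¹ := by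
    rw [hτdef, mul_comm (p : ℤ) t', zpow_mul, zpow_natCast]
    group
  rw [h1, hε, mul_pow, mul_pow, inv_pow]

end Fermat.Agent.S14Lib
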