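import Fermat.Agent.S14Lib.KummerLocal
import Fermat.Agent.S14Lib.DensityFinal
import Fermat.Agent.S14Lib.UnitPow

/-!
# Kummer theory at finite level
-/

set_option autoImplicit false
set_option linter.unusedSectionVars false

open NumberField Ideal UniqueFactorizationMonoid
open scoped Pointwise nonZeroDivisors

namespace Fermat.Agent.S14Lib

section General

variable {R : Type*} [CommRing R] [IsDedekindDomain R]

theorem ideal_pow_left_inj {I J : Ideal R} {n : ℕ} (hn : n ≠ 0) (h : I ^ n = J ^ n) : I = J := by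
  apply le_antisymm
  · rw [← Ideal.dvd_iff_le, ← UniqueFactorizationMonoid.pow_dvd_pow_iff_dvd hn, h]
  · rw [← Ideal.dvd_iff_le, ← UniqueFactorizationMonoid.pow_dvd_pow_iff_dvd hn, h]

theorem exists_eq_pow_of_dvd_multiplicity {I : Ideal R} (hI : I ≠ ⊥) {p : ℕ}
    (h : ∀ P : Ideal R, P.IsPrime → P ≠ ⊥ → p ∣ multiplicity P I) : ∃ J : Ideal R, I = J ^ p := by
  classical
  refine ⟨∏ P ∈ (normalizedFactors I).toFinset, P ^ (multiplicity P I / p), ?_⟩
  conv_lhs => rw [← Ideal.prod_normalizedFactors_eq_self hI, Finset.prod_multiset_count]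
  rw [← Finset.prod_pow]
  refine Finset.prod_congr rfl fun P hP => ?_
  rw [Multiset.mem_toFinset] at hP
  have h1 : multiplicity P I = (normalizedFactors I).count P := by
    rw [multiplicity_eq_count_normalizedFactors (irreducible_of_normalized_factor P hP) hI,
      normalize_normalized_factor P hP]
  rw [← pow_mul, ← h1, Nat.div_mul_cancel]
  have hPp := prime_of_normalized_factor P hP
  exact h P (Ideal.isPrime_of_prime hPp) hPp.ne_zero

end General

variable {p : ℕ} [Fact p.Prime] {K : Type} [Field K] [NumberField K]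
  [IsCyclotomicExtension {p} ℚ K] {L : Type} [Field L] [NumberField L] [Algebra K L]

theorem pow_mod_of_pow_eq_one {M : Type*} [Monoid M] {p : ℕ} {w : M} (hw : w ^ p = 1) (n : ℕ) :
    w ^ (n % p) = w ^ n := by
  conv_rhs => rw [← Nat.mod_add_div n p, pow_add, pow_mul, hw, one_pow, mul_one]

theorem val_add_pow {M : Type*} [Monoid M] {w : M} (hw : w ^ p = 1) (a b : ZMod p) :
    w ^ (a + b).val = w ^ a.val * w ^ b.val := by
  rw [← pow_add, ZMod.val_add, pow_mod_of_pow_eq_one hw]

theorem val_mul_pow {M : Type*} [Monoid M] {w : M} (hw : w ^ p = 1) (a b : ZMod p) :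
    w ^ (a * b).val = (w ^ a.val) ^ b.val := by
  rw [← pow_mul, ZMod.val_mul, pow_mod_of_pow_eq_one hw]

/-- resolvents -/
theorem exists_resolvent {z : K} (hz : IsPrimitiveRoot z p) (θ : Gal(L/K) → ZMod p)
    (hθ : ∀ g h, θ (g * h) = θ g + θ h) :
    ∃ y : 𝓞 L, y ≠ 0 ∧ ∀ τ : Gal(L/K),
      τ • y = (algebraMap (𝓞 K) (𝓞 L) hz.toInteger) ^ (θ τ).val * y := by
  have hp' : p.Prime := Fact.out
  have hzL : IsPrimitiveRoot (algebraMap K L z) p :=
    hz.map_of_injective (algebraMap K L).injective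
  let w : Lˣ := (hzL.isUnit hp'.ne_zero).unit
  have hw : (w : L) = algebraMap K L z := IsUnit.unit_spec _
  have hwp : w ^ p = 1 := by
    ext
    rw [Units.val_pow_eq_pow_val, hw, hzL.pow_eq_one, Units.val_one]
  have hfix : ∀ g : Gal(L/K), g • w = w := by
    intro g
    ext
    change g (w : L) = w
    rw [hw, AlgEquiv.commutes]
  obtain ⟨β, hβ⟩ := groupCohomology.isMulCoboundary₁_of_isMulCocycle₁_of_aut_to_units
    (K := K) (L := L) (fun τ => w ^ (θ τ).val) (by
      intro g h
      beta_reduce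
      rw [hθ, val_add_pow hwp, smul_pow', hfix, mul_comm])
  obtain ⟨d, hd0, hd⟩ := ((IsFractionRing.isAlgebraic_iff ℤ ℚ L).2
    (Algebra.IsAlgebraic.isAlgebraic (R := ℚ) (β : L))).exists_integral_multiple
  let y : 𝓞 L := ⟨d • (β : L), hd⟩
  refine ⟨y, ?_, fun τ => ?_⟩
  · intro h
    have h1 : d • (β : L) = 0 := congrArg (algebraMap (𝓞 L) L) h
    rw [smul_eq_zero] at h1
    rcases h1 with h1 | h1
    · exact hd0 h1
    · exact β.ne_zero h1
  · have h1 := hβ τ
    rw [div_eq_iff_eq_mul] at h1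
    have h2 : τ (β : L) = (algebraMap K L z) ^ (θ τ).val * β := by
      have := congrArg (Units.val) h1
      rw [Units.val_mul, Units.val_pow_eq_pow_val, hw] at this
      exact this
    apply RingOfIntegers.coe_injective
    rw [map_mul, map_pow]
    change τ (d • (β : L)) = (algebraMap K L z) ^ (θ τ).val * (d • (β : L))
    rw [map_zsmul, h2, mul_smul_comm]

theorem exists_alpha [IsGalois K L] {z : K} (hz : IsPrimitiveRoot z p) {θ : Gal(L/K) → ZMod p}
    {y : 𝓞 L} (hy : ∀ τ : Gal(L/K),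
      τ • y = (algebraMap (𝓞 K) (𝓞 L) hz.toInteger) ^ (θ τ).val * y) :
    ∃ α : 𝓞 K, algebraMap (𝓞 K) (𝓞 L) α = y ^ p := by
  apply Algebra.IsInvariant.isInvariant (A := 𝓞 K) (G := Gal(L/K)) (y ^ p)
  intro τ
  rw [smul_pow', hy, mul_pow, ← pow_mul, mul_comm _ p, pow_mul, ← map_pow,
    hz.toInteger_isPrimitiveRoot.pow_eq_one, map_one, one_pow, one_mul]

theorem smul_eq_of_alpha_pow {z : K} (hz : IsPrimitiveRoot z p) {y : 𝓞 L} {x : L}
    (hx : x ∈ Set.range (algebraMap K L)) (h : ((y : L)) ^ p = x ^ p) (τ : Gal(L/K)) :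
    τ • y = y := by
  have hp' : p.Prime := Fact.out
  have : NeZero p := ⟨hp'.ne_zero⟩
  apply RingOfIntegers.ext
  change τ (y : L) = y
  obtain ⟨x', rfl⟩ := hx
  by_cases h0 : algebraMap K L x' = 0
  · rw [h0, zero_pow hp'.ne_zero] at h
    rw [pow_eq_zero_iff hp'.ne_zero] at h
    rw [h, map_zero]
  · have h1 : ((y : L) / algebraMap K L x') ^ p = 1 := by
      rw [div_pow, h, div_self (pow_ne_zero _ h0)]
    have hzL : IsPrimitiveRoot (algebraMap K L z) p :=
      hz.map_of_injective (algebraMap K L).injective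
    obtain ⟨i, -, hi⟩ := hzL.eq_pow_of_pow_eq_one h1
    have h2 : (y : L) = algebraMap K L (z ^ i * x') := by
      rw [map_mul, map_pow, hi, div_mul_cancel₀ _ h0]
    rw [h2, AlgEquiv.commutes]

/-- an automorphism of `L` fixing `K` pointwise -/
def toK (h : Gal(L/ℚ)) (hh : ∀ x : K, h (algebraMap K L x) = algebraMap K L x) : Gal(L/K) :=
  AlgEquiv.ofRingEquiv (f := h.toRingEquiv) hh

theorem toK_restrictScalars (h : Gal(L/ℚ)) (hh : ∀ x : K, h (algebraMap K L x) = algebraMap K L x) :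
    (toK h hh).restrictScalars ℚ = h := rfl

/-- the character `χ` on `Gal(L/ℚ)` -/
noncomputable def chiL (p : ℕ) [Fact p.Prime] (K : Type) [Field K] [NumberField K]
    [IsCyclotomicExtension {p} ℚ K] [Normal ℚ K] {L : Type} [Field L] [NumberField L]
    [Algebra K L] (g : Gal(L/ℚ)) : (ZMod p)ˣ :=
  IsCyclotomicExtension.Rat.galEquivZMod p K (g.restrictNormal K)

variable [Normal ℚ K]

theorem apply_zeta {z : K} (hz : IsPrimitiveRoot z p) (g : Gal(L/ℚ)) :
    g • (algebraMap (𝓞 K) (𝓞 L) hz.toInteger) =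
      (algebraMap (𝓞 K) (𝓞 L) hz.toInteger) ^ (chiL p K g : ZMod p).val := by
  have hp' : p.Prime := Fact.out
  have : NeZero p := ⟨hp'.ne_zero⟩
  apply RingOfIntegers.coe_injective
  rw [map_pow]
  change g (algebraMap K L z) = (algebraMap K L z) ^ (chiL p K g : ZMod p).val
  rw [← AlgEquiv.restrictNormal_commutes g K z, ← map_pow]
  congr 1
  exact IsCyclotomicExtension.Rat.galEquivZMod_apply_of_pow_eq p K (g.restrictNormal K)
    hz.pow_eq_one

theorem chiL_of_fix (τ : Gal(L/K)) : chiL p K (τ.restrictScalars ℚ) = 1 := by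
  have h : (τ.restrictScalars ℚ).restrictNormal K = 1 := by
    ext x
    apply (algebraMap K L).injective
    rw [AlgEquiv.restrictNormal_commutes]
    simp
  rw [chiL, h, map_one]

/-- Equivariance of the Kummer radicand. -/
theorem radicand_equiv [IsGalois K L] {z : K} (hz : IsPrimitiveRoot z p) {a : Gal(L/ℚ) → ZMod p}
    (ha : ∀ g h, a (g * h) = (chiL p K h : ZMod p) * a g + a h) {y : 𝓞 L} (hy0 : y ≠ 0)
    (hy : ∀ τ : Gal(L/K), τ • y =
      (algebraMap (𝓞 K) (𝓞 L) hz.toInteger) ^ (a (τ.restrictScalars ℚ)).val * y)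
    {α : 𝓞 K} (hα : algebraMap (𝓞 K) (𝓞 L) α = y ^ p) (g : Gal(L/ℚ)) :
    ∃ c : K, c ≠ 0 ∧ (((g.restrictNormal K) • α : 𝓞 K) : K) =
      c ^ p * (α : K) ^ (nexp p (g.restrictNormal K)) := by
  have hp' : p.Prime := Fact.out
  set Z := algebraMap (𝓞 K) (𝓞 L) hz.toInteger with hZ
  have hZp : Z ^ p = 1 := by
    rw [hZ, ← map_pow, hz.toInteger_isPrimitiveRoot.pow_eq_one, map_one]
  set n := nexp p (g.restrictNormal K) with hn
  set χ : ZMod p := (chiL p K g : ZMod p) with hχ
  have ha1 : a 1 = 0 := by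
    have h1 := ha 1 1
    have h2 : chiL p K (1 : Gal(L/ℚ)) = 1 := chiL_of_fix (K := K) (1 : Gal(L/K))
    rw [h2, mul_one, Units.val_one, one_mul] at h1
    exact left_eq_add.1 h1
  -- action on `g y`
  have hgy : ∀ τ : Gal(L/K), τ • (g • y) =
      Z ^ (χ * (χ * a (τ.restrictScalars ℚ))).val * (g • y) := by
    intro τ
    set τ' : Gal(L/ℚ) := τ.restrictScalars ℚ with hτ'
    have hfix : ∀ x : K, (g⁻¹ * τ' * g) (algebraMap K L x) = algebraMap K L x := by
      intro x
      rw [AlgEquiv.mul_apply, AlgEquiv.mul_apply, ← AlgEquiv.restrictNormal_commutes g K x]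
      have h1 : τ' (algebraMap K L ((g.restrictNormal K) x)) =
          algebraMap K L ((g.restrictNormal K) x) := τ.commutes _
      rw [h1, AlgEquiv.restrictNormal_commutes]
      exact g.symm_apply_apply _
    have h2 := hy (toK (g⁻¹ * τ' * g) hfix)
    rw [toK_restrictScalars] at h2
    have h3 : a (g⁻¹ * τ' * g) = χ * a τ' := by
      have h4 : chiL p K τ' = 1 := chiL_of_fix τ
      have h5 := ha g⁻¹ g
      rw [inv_mul_cancel, ha1] at h5
      rw [ha, ha, h4, Units.val_one, one_mul]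
      linear_combination -h5
    have h6 : (toK (g⁻¹ * τ' * g) hfix) • y = g⁻¹ • (τ • (g • y)) := rfl
    rw [h3, h6] at h2
    have h7 := congrArg (g • ·) h2
    simp only [smul_inv_smul, smul_mul', smul_pow'] at h7
    rw [apply_zeta hz g, ← hχ, ← hZ] at h7
    rw [h7, val_mul_pow hZp]
  -- the quotient
  have hyn : ∀ τ : Gal(L/K), τ • (y ^ n) = Z ^ (χ * (χ * a (τ.restrictScalars ℚ))).val * y ^ n := by
    intro τ
    have h1 : χ * (χ * a (τ.restrictScalars ℚ)) = χ ^ 2 * a (τ.restrictScalars ℚ) := by ring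
    rw [smul_pow', hy, mul_pow, h1, val_mul_pow hZp, ← pow_mul, ← pow_mul, mul_comm _ n]
    rfl
  have hyL : algebraMap (𝓞 L) L y ≠ 0 := fun h =>
    hy0 (RingOfIntegers.coe_injective (h.trans (map_zero _).symm))
  have hZL : (algebraMap (𝓞 L) L Z) ≠ 0 := by
    intro h
    have h1 := congrArg (algebraMap (𝓞 L) L) hZp
    rw [map_pow, h, zero_pow hp'.ne_zero, map_one] at h1
    exact zero_ne_one h1
  have hmem : algebraMap (𝓞 L) L (g • y) / algebraMap (𝓞 L) L (y ^ n) ∈
      Set.range (algebraMap K L) := by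
    rw [IsGalois.mem_range_algebraMap_iff_fixed]
    intro τ
    have h1 := congrArg (algebraMap (𝓞 L) L) (hgy τ)
    have h2 := congrArg (algebraMap (𝓞 L) L) (hyn τ)
    rw [map_mul, map_pow] at h1 h2
    have h1' : τ (algebraMap (𝓞 L) L (g • y)) = _ := h1
    have h2' : τ (algebraMap (𝓞 L) L (y ^ n)) = _ := h2
    rw [map_div₀, h1', h2', mul_div_mul_left _ _ (pow_ne_zero _ hZL)]
  obtain ⟨c, hc⟩ := hmem
  have hyn0 : algebraMap (𝓞 L) L (y ^ n) ≠ 0 := by
    rw [map_pow]; exact pow_ne_zero _ hyL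
  have hgy0 : algebraMap (𝓞 L) L (g • y) ≠ 0 := by
    intro h
    apply hyL
    have h1 : g (algebraMap (𝓞 L) L y) = 0 := h
    exact (map_eq_zero g).1 h1
  refine ⟨c, ?_, ?_⟩
  · rintro rfl
    rw [map_zero, eq_comm, div_eq_zero_iff] at hc
    rcases hc with h | h
    · exact hgy0 h
    · exact hyn0 h
  · apply (algebraMap K L).injective
    rw [map_mul, map_pow, map_pow, hc]
    have h1 : algebraMap K L (((g.restrictNormal K) • α : 𝓞 K) : K) =
        (algebraMap (𝓞 L) L (g • y)) ^ p := by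
      have h2 : algebraMap K L (((g.restrictNormal K) • α : 𝓞 K) : K) =
          g (algebraMap K L (α : K)) := AlgEquiv.restrictNormal_commutes g K (α : K)
      have h3 : algebraMap K L (α : K) = (algebraMap (𝓞 L) L y) ^ p := by
        have := congrArg (algebraMap (𝓞 L) L) hα
        rw [map_pow] at this
        exact this
      rw [h2, h3, map_pow]
      rfl
    have h4 : algebraMap K L (α : K) = (algebraMap (𝓞 L) L y) ^ p := by
      have := congrArg (algebraMap (𝓞 L) L) hα
      rw [map_pow] at this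
      exact this
    rw [h1, h4, div_pow, map_pow, ← pow_mul, ← pow_mul, mul_comm n p,
      div_mul_cancel₀ _ (pow_ne_zero _ hyL)]

end Fermat.Agent.S14Lib
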