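import Mathlib

/-!
# The tame symbol computation at a totally ramified prime
-/

set_option autoImplicit false

open Ideal

namespace Fermat.Agent.S14Lib

variable {S : Type*} [CommRing S] [IsDedekindDomain S]

theorem exists_mul_eq_mul {Q : Ideal S} (hQ : Q.IsPrime) (hQ0 : Q ≠ ⊥) {u v : S} (hu : u ≠ 0)
    (hv : v ≠ 0)
    (h : emultiplicity Q (span {u}) = emultiplicity Q (span {v})) :
    ∃ x y : S, x ∉ Q ∧ y ∉ Q ∧ y * u = v * x := by
  have hQp : Prime Q := (Ideal.prime_iff_isPrime hQ0).2 hQ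
  have hu0 : span {u} ≠ (⊥ : Ideal S) := by simpa using hu
  have hv0 : span {v} ≠ (⊥ : Ideal S) := by simpa using hv
  have hfu : FiniteMultiplicity Q (span {u}) := FiniteMultiplicity.of_prime_left hQp hu0
  have hfv : FiniteMultiplicity Q (span {v}) := FiniteMultiplicity.of_prime_left hQp hv0
  obtain ⟨I, hI, hI'⟩ := hfu.exists_eq_pow_mul_and_not_dvd
  obtain ⟨J, hJ, hJ'⟩ := hfv.exists_eq_pow_mul_and_not_dvd
  have hm : multiplicity Q (span {u}) = multiplicity Q (span {v}) :=
    multiplicity_eq_of_emultiplicity_eq h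
  have hJQ : ∃ y ∈ J, y ∉ Q := by
    by_contra! hh
    exact hJ' (Ideal.dvd_iff_le.2 hh)
  obtain ⟨y, hyJ, hyQ⟩ := hJQ
  have h1 : y * u ∈ span {v} := by
    have h2 : y * u ∈ J * span {u} := Ideal.mul_mem_mul hyJ (mem_span_singleton_self u)
    have h3 : J * span {u} ≤ span {v} := by
      calc J * span {u} = (Q ^ multiplicity Q (span {v}) * J) * I := by
            rw [← hm]
            nth_rewrite 1 [hI]
            ring
        _ = span {v} * I := by rw [← hJ]
        _ ≤ span {v} := Ideal.mul_le_left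
    exact h3 h2
  obtain ⟨x, hx⟩ := mem_span_singleton'.1 h1
  refine ⟨x, y, fun hxQ => ?_, hyQ, by rw [← hx, mul_comm]⟩
  -- valuation argument
  have h3 : span {y} * span {u} = span {x} * span {v} := by
    rw [span_singleton_mul_span_singleton, span_singleton_mul_span_singleton, hx]
  have h4 : Q ∣ span {x} := Ideal.dvd_iff_le.2 ((span_singleton_le_iff_mem _).2 hxQ)
  have h5 : emultiplicity Q (span {y}) = 0 :=
    emultiplicity_eq_zero.2 fun hh => hyQ ((span_singleton_le_iff_mem _).1 (Ideal.dvd_iff_le.1 hh))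
  have h6 := congrArg (emultiplicity Q) h3
  rw [emultiplicity_mul hQp, emultiplicity_mul hQp, h5, zero_add, h] at h6
  have h7 : emultiplicity Q (span {x}) ≠ 0 := emultiplicity_ne_zero.2 h4
  have h8 : emultiplicity Q (span {v}) ≠ ⊤ := finiteMultiplicity_iff_emultiplicity_ne_top.1 hfv
  apply h7
  have h9 : emultiplicity Q (span {x}) + emultiplicity Q (span {v}) =
    0 + emultiplicity Q (span {v}) := by rw [zero_add, ← h6]
  exact ENat.add_left_injective_of_ne_top h8 h9

/-- tame symbol: `τ ε = ξ ε`, `τ π = π c`, `v(ε) = a`, `v(π) = 1`, `τ` acting trivially modulo `Q`,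
imply `ξ ≡ c ^ a` modulo `Q`. -/
theorem tame {Q : Ideal S} (hQ : Q.IsPrime) (hQ0 : Q ≠ ⊥) {ε π ξ c : S} (hε : ε ≠ 0) (hπ : π ≠ 0)
    (hvπ : emultiplicity Q (span {π}) = 1) (τ : S →+* S) (hτ : ∀ x, τ x - x ∈ Q)
    (hτπ : τ π = π * c) (hτε : τ ε = ξ * ε) {a : ℕ} (ha : emultiplicity Q (span {ε}) = a) :
    ξ - c ^ a ∈ Q := by
  have hQp : Prime Q := (Ideal.prime_iff_isPrime hQ0).2 hQ
  have h1 : emultiplicity Q (span {π ^ a}) = a := by
    rw [← span_singleton_pow, emultiplicity_pow hQp, hvπ, mul_one]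
  obtain ⟨x, y, hx, hy, hxy⟩ := exists_mul_eq_mul hQ hQ0 hε (pow_ne_zero a hπ) (ha.trans h1.symm)
  have h2 : τ y * ξ * x = y * c ^ a * τ x := by
    have h3 : π ^ a * (τ y * ξ * x) = π ^ a * (y * c ^ a * τ x) := by
      have h4 := congrArg τ hxy
      rw [map_mul, map_mul, map_pow, hτπ, hτε, mul_pow] at h4
      calc π ^ a * (τ y * ξ * x) = τ y * ξ * (π ^ a * x) := by ring
        _ = τ y * ξ * (y * ε) := by rw [hxy]
        _ = y * (τ y * (ξ * ε)) := by ring
        _ = y * (π ^ a * c ^ a * τ x) := by rw [h4]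
        _ = _ := by ring
    exact mul_left_cancel₀ (pow_ne_zero a hπ) h3
  have h5 : y * x * (ξ - c ^ a) ∈ Q := by
    have h6 : y * x * (ξ - c ^ a) = - ((τ y - y) * ξ * x) + (τ x - x) * (y * c ^ a) := by
      linear_combination h2
    rw [h6]
    refine Ideal.add_mem _ (Q.neg_mem ?_) ?_
    · exact Ideal.mul_mem_right _ _ (Ideal.mul_mem_right _ _ (hτ y))
    · exact Ideal.mul_mem_right _ _ (hτ x)
  rcases hQ.mem_or_mem h5 with h7 | h7
  · exfalso
    rcases hQ.mem_or_mem h7 with h8 | h8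
    · exact hy h8
    · exact hx h8
  · exact h7

end Fermat.Agent.S14Lib
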