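import Fermat.Agent.S14Lib.CycTower
import Fermat.Agent.S14Lib.Tame

/-!
# Thaine's relation
-/

set_option autoImplicit false

open NumberField Ideal Polynomial

namespace Fermat.Agent.S14Lib

theorem emultiplicity_map_eq {R S : Type*} [CommRing R] [IsDedekindDomain R] [CommRing S]
    [IsDedekindDomain S] [Algebra R S] [FaithfulSMul R S] {P : Ideal R} {Q : Ideal S}
    (hP : P.IsPrime) (hQ : Q.IsPrime) (hP0 : P ≠ ⊥) [Q.LiesOver P] {I : Ideal R} (hI : I ≠ ⊥) :
    emultiplicity Q (I.map (algebraMap R S)) = Q.ramificationIdx R * emultiplicity P I := by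
  have hQ0 : Q ≠ ⊥ := Ideal.ne_bot_of_liesOver_of_ne_bot hP0 Q
  rw [IsDedekindDomain.emultiplicity_map_eq_ramificationIdx'_mul (v := P) hI
    ((Ideal.prime_iff_isPrime hP0).2 hP).irreducible
    ((Ideal.prime_iff_isPrime hQ0).2 hQ).irreducible hQ0,
    ramificationIdx'_eq_ramificationIdx P Q hP0]

variable {p q : ℕ} [Fact p.Prime] [Fact q.Prime] {K M : Type*} [Field K] [NumberField K]
  [Field M] [NumberField M] [Algebra K M] [IsCyclotomicExtension {p} ℚ K]
  [IsCyclotomicExtension {q} K M]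

theorem liesOver_of_mem {R : Type*} [CommRing R] {ℓ : ℕ} (hℓ : ℓ.Prime) {Q : Ideal R}
    (hQ : Q.IsPrime) (h : (ℓ : R) ∈ Q) : Q.LiesOver (span {(ℓ : ℤ)}) := by
  constructor
  have : Fact ℓ.Prime := ⟨hℓ⟩
  apply IsMaximal.eq_of_le (Int.ideal_span_isMaximal_of_prime ℓ) (IsPrime.ne_top inferInstance)
  rw [span_singleton_le_iff_mem, mem_comap]
  simpa using h

theorem ne_bot_of_mem {R : Type*} [CommRing R] [CharZero R] {ℓ : ℕ} (hℓ : ℓ.Prime) {Q : Ideal R}
    (h : (ℓ : R) ∈ Q) : Q ≠ ⊥ := by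
  rintro rfl
  rw [mem_bot] at h
  exact hℓ.ne_zero (by exact_mod_cast h)

variable (K) in
include K in
theorem ramificationIdx_top_q (hpq : p ≠ q) {Q : Ideal (𝓞 M)} (hQ : Q.IsPrime)
    (hq : (q : 𝓞 M) ∈ Q) : Q.ramificationIdx ℤ = q - 1 := by
  have h1 := isCyclotomicExtension_mul p q K M hpq
  have hq' : q.Prime := Fact.out
  have hp' : p.Prime := Fact.out
  have := liesOver_of_mem hq' hQ hq
  have h2 := IsCyclotomicExtension.Rat.ramificationIdx_eq (p * q) (m := p) (p := q) (k := 0) M Q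
    (by rw [zero_add, pow_one, mul_comm]) (by rwa [(Nat.prime_dvd_prime_iff_eq hq' hp'), eq_comm])
  simpa using h2


theorem ramificationIdx_bot_q (hpq : p ≠ q) {P : Ideal (𝓞 K)} (hP : P.IsPrime)
    (hq : (q : 𝓞 K) ∈ P) : P.ramificationIdx ℤ = 1 := by
  have hq' : q.Prime := Fact.out
  have hp' : p.Prime := Fact.out
  have := liesOver_of_mem hq' hP hq
  exact IsCyclotomicExtension.Rat.ramificationIdx_eq_of_not_dvd q K P (m := p)
    (by rwa [(Nat.prime_dvd_prime_iff_eq hq' hp'), eq_comm])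

theorem ramificationIdx_rel_q (hpq : p ≠ q) {P : Ideal (𝓞 K)} {Q : Ideal (𝓞 M)} (hP : P.IsPrime)
    (hQ : Q.IsPrime) [Q.LiesOver P] (hq : (q : 𝓞 K) ∈ P) : Q.ramificationIdx (𝓞 K) = q - 1 := by
  have h1 := Ideal.ramificationIdx_tower (R := ℤ) (q := P) (r := Q)
  have hqQ : (q : 𝓞 M) ∈ Q := by
    have := Q.mem_of_liesOver P (q : 𝓞 K)
    simpa using this.1 hq
  rw [ramificationIdx_top_q K hpq hQ hqQ, ramificationIdx_bot_q hpq hP hq, one_mul] at h1
  exact h1.symm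

theorem ramificationIdx_rel_not_q (hpq : p ≠ q) {P : Ideal (𝓞 K)} {Q : Ideal (𝓞 M)}
    (hP : P.IsPrime) (hP0 : P ≠ ⊥)
    (hQ : Q.IsPrime) [Q.LiesOver P] (hq : (q : 𝓞 K) ∉ P) : Q.ramificationIdx (𝓞 K) = 1 := by
  have hq' : q.Prime := Fact.out
  have hp' : p.Prime := Fact.out
  have hM := isCyclotomicExtension_mul p q K M hpq
  have hPmax : P.IsMaximal := hP.isMaximal hP0
  -- the residue characteristic
  obtain ⟨ℓ, hℓ, hℓP⟩ : ∃ ℓ : ℕ, ℓ.Prime ∧ (ℓ : 𝓞 K) ∈ P := by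
    have : NeZero P := ⟨hP0⟩
    refine ⟨_, Nat.absNorm_under_prime P, ?_⟩
    have h := Ideal.absNorm_mem (P.under ℤ)
    rw [Ideal.mem_comap] at h
    simpa using h
  have : Fact ℓ.Prime := ⟨hℓ⟩
  have hℓQ : (ℓ : 𝓞 M) ∈ Q := by
    have := Q.mem_of_liesOver P (ℓ : 𝓞 K)
    simpa using this.1 hℓP
  have hne : ℓ ≠ q := by rintro rfl; exact hq hℓP
  have := liesOver_of_mem hℓ hP hℓP
  have := liesOver_of_mem hℓ hQ hℓQ
  have h1 := Ideal.ramificationIdx_tower (R := ℤ) (q := P) (r := Q)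
  by_cases hℓp : ℓ = p
  · subst hℓp
    have h2 := IsCyclotomicExtension.Rat.ramificationIdx_eq (ℓ * q) (m := q) (p := ℓ) (k := 0) M Q
      (by rw [zero_add, pow_one]) (by rwa [(Nat.prime_dvd_prime_iff_eq hℓ hq')])
    have h3 := IsCyclotomicExtension.Rat.ramificationIdx_eq_of_prime ℓ K P
    rw [h2, h3, pow_zero, one_mul] at h1
    exact (Nat.eq_of_mul_eq_mul_left (Nat.sub_pos_of_lt hℓ.one_lt) (by rw [mul_one, ← h1])).symm
  · have h2 := IsCyclotomicExtension.Rat.ramificationIdx_eq_of_not_dvd ℓ M Q (m := p * q) (by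
      rw [hℓ.dvd_mul, not_or, Nat.prime_dvd_prime_iff_eq hℓ hp', Nat.prime_dvd_prime_iff_eq hℓ hq']
      exact ⟨hℓp, hne⟩)
    have h3 := IsCyclotomicExtension.Rat.ramificationIdx_eq_of_not_dvd ℓ K P (m := p) (by
      rwa [Nat.prime_dvd_prime_iff_eq hℓ hp'])
    rw [h2, h3, one_mul] at h1
    exact h1.symm


variable (K) in
include K in
theorem emultiplicity_one_sub (hpq : p ≠ q) {Q : Ideal (𝓞 M)} (hQ : Q.IsPrime)
    (hq : (q : 𝓞 M) ∈ Q) {w : M} (hw : IsPrimitiveRoot w q) :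
    emultiplicity Q (span {1 - hw.toInteger}) = 1 := by
  have hq' : q.Prime := Fact.out
  have hQ0 : Q ≠ ⊥ := ne_bot_of_mem hq' hq
  have hQp : Prime Q := (Ideal.prime_iff_isPrime hQ0).2 hQ
  have := liesOver_of_mem hq' hQ hq
  have h0 : (span {(q : ℤ)}).map (algebraMap ℤ (𝓞 M)) = span {(q : 𝓞 M)} := by
    rw [Ideal.map_span, Set.image_singleton]; simp
  have hqne : span {(q : 𝓞 M)} ≠ ⊥ := by
    rw [Ne, span_singleton_eq_bot]
    exact_mod_cast hq'.ne_zero
  have h1 := IsDedekindDomain.ramificationIdx_eq_multiplicity (span {(q : ℤ)}) Q (by rwa [h0])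
  rw [ramificationIdx_top_q K hpq hQ hq, h0] at h1
  have h2 := IsCyclotomicExtension.Rat.associated_zeta_sub_one_pow_prime q hw
  have h3 : span {(hw.toInteger - 1) ^ (q - 1)} = span {(q : 𝓞 M)} :=
    span_singleton_eq_span_singleton.2 h2
  have h4 : span {1 - hw.toInteger} = span {hw.toInteger - 1} := by
    rw [← neg_sub, span_singleton_neg]
  rw [← h3, ← span_singleton_pow, ← h4] at h1
  have hne : span {1 - hw.toInteger} ≠ ⊥ := by
    intro h
    rw [← h3, ← span_singleton_pow, ← h4, h] at hqne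
    apply hqne
    rw [Ideal.bot_pow]
    exact (Nat.sub_pos_of_lt hq'.one_lt).ne'
  have hfin : FiniteMultiplicity Q (span {1 - hw.toInteger}) :=
    FiniteMultiplicity.of_prime_left hQp hne
  rw [hfin.multiplicity_pow hQp] at h1
  have h5 : multiplicity Q (span {1 - hw.toInteger}) = 1 := by
    apply Nat.eq_of_mul_eq_mul_left (Nat.sub_pos_of_lt hq'.one_lt)
    rw [← h1, mul_one]
  rw [hfin.emultiplicity_eq_multiplicity, h5]
  rfl

theorem sub_one_mem_of_pow_eq_one {R : Type*} [CommRing R] {q : ℕ} [Fact q.Prime] {Q : Ideal R}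
    (hQ : Q.IsPrime) (hq : (q : R) ∈ Q) {y : R} (hy : y ^ q = 1) : y - 1 ∈ Q := by
  have hq' : q.Prime := Fact.out
  have : CharP (R ⧸ Q) q := by
    refine (CharP.charP_iff_prime_eq_zero hq').2 ?_
    rw [← map_natCast (Ideal.Quotient.mk Q), Ideal.Quotient.eq_zero_iff_mem]
    exact hq
  apply hQ.mem_of_pow_mem q
  rw [← Ideal.Quotient.eq_zero_iff_mem, map_pow, map_sub, sub_pow_char, ← map_pow, hy]
  simp

/-- elements of the Galois group act trivially modulo primes above `q`. -/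
theorem galRestrict_sub_mem (hpq : p ≠ q) {Q : Ideal (𝓞 M)} (hQ : Q.IsPrime)
    (hq : (q : 𝓞 M) ∈ Q) (τ : M ≃ₐ[K] M) (x : 𝓞 M) :
    galRestrict (𝓞 K) K M (𝓞 M) τ x - x ∈ Q := by
  have hq' : q.Prime := Fact.out
  have hp' : p.Prime := Fact.out
  have hM := isCyclotomicExtension_mul p q K M hpq
  have hz := (IsCyclotomicExtension.zeta_spec p ℚ K).map_of_injective (algebraMap K M).injective
  have hw := IsCyclotomicExtension.zeta_spec q K M
  set z := algebraMap K M (IsCyclotomicExtension.zeta p ℚ K)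
  set w := IsCyclotomicExtension.zeta q K M
  have hzw := isPrimitiveRoot_mul hp' hq' hpq hz hw
  have : NeZero (p * q) := ⟨mul_ne_zero hp'.ne_zero hq'.ne_zero⟩
  have htop := IsCyclotomicExtension.Rat.adjoin_singleton_eq_top hzw
  have hx : x ∈ Algebra.adjoin ℤ {hzw.toInteger} := by
    rw [htop]; trivial
  have hmem : ∀ y : 𝓞 M, y ^ q = 1 → y - 1 ∈ Q := fun y hy => sub_one_mem_of_pow_eq_one hQ hq hy
  induction hx using Algebra.adjoin_induction with
  | mem y hy =>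
    rw [Set.mem_singleton_iff] at hy
    subst hy
    set Z : 𝓞 M := algebraMap (𝓞 K) (𝓞 M) (IsCyclotomicExtension.zeta_spec p ℚ K).toInteger with hZ
    have h1 : hzw.toInteger = Z * hw.toInteger := by
      apply RingOfIntegers.ext
      rfl
    have h2 : galRestrict (𝓞 K) K M (𝓞 M) τ hzw.toInteger - hzw.toInteger =
        Z * ((galRestrict (𝓞 K) K M (𝓞 M) τ hw.toInteger - 1) - (hw.toInteger - 1)) := by
      rw [h1, map_mul, hZ, AlgEquiv.commutes]
      ring
    rw [h2]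
    refine Q.mul_mem_left _ (Q.sub_mem (hmem _ ?_) (hmem _ ?_))
    · rw [← map_pow, hw.toInteger_isPrimitiveRoot.pow_eq_one, map_one]
    · exact hw.toInteger_isPrimitiveRoot.pow_eq_one
  | algebraMap r => simp
  | add a b _ _ ha hb =>
    rw [map_add]
    have : galRestrict (𝓞 K) K M (𝓞 M) τ a + galRestrict (𝓞 K) K M (𝓞 M) τ b - (a + b) =
      (galRestrict (𝓞 K) K M (𝓞 M) τ a - a) + (galRestrict (𝓞 K) K M (𝓞 M) τ b - b) := by ring
    rw [this]
    exact Q.add_mem ha hb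
  | mul a b _ _ ha hb =>
    rw [map_mul]
    have : galRestrict (𝓞 K) K M (𝓞 M) τ a * galRestrict (𝓞 K) K M (𝓞 M) τ b - (a * b) =
      (galRestrict (𝓞 K) K M (𝓞 M) τ a - a) * galRestrict (𝓞 K) K M (𝓞 M) τ b
      + (galRestrict (𝓞 K) K M (𝓞 M) τ b - b) * a := by ring
    rw [this]
    exact Q.add_mem (Q.mul_mem_right _ ha) (Q.mul_mem_right _ hb)

end Fermat.Agent.S14Lib
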