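import Fermat.Agent.S14Lib.Thaine

/-!
# Thaine's relation: the element `κ`
-/

set_option autoImplicit false

open NumberField Ideal Polynomial

namespace Fermat.Agent.S14Lib

theorem multiplicity_eq_of_mul {Sx Rx : Type*} [CommRing Rx] [IsDedekindDomain Rx] [CommRing Sx]
    [IsDedekindDomain Sx] [Algebra Rx Sx] [FaithfulSMul Rx Sx] {P : Ideal Rx} {Q : Ideal Sx}
    (hP : P.IsPrime) (hQ : Q.IsPrime) (hP0 : P ≠ ⊥) [Q.LiesOver P] {κ : Rx} (hκ : κ ≠ 0)
    {ε : Sx} (hε : ε ≠ 0) {n e : ℕ} (he : Q.ramificationIdx Rx = e)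
    (h : span {algebraMap Rx Sx κ} = span {ε} ^ n) :
    e * multiplicity P (span {κ}) = n * multiplicity Q (span {ε}) := by
  have hQ0 : Q ≠ ⊥ := Ideal.ne_bot_of_liesOver_of_ne_bot hP0 Q
  have hPp : Prime P := (Ideal.prime_iff_isPrime hP0).2 hP
  have hQp : Prime Q := (Ideal.prime_iff_isPrime hQ0).2 hQ
  have hκ0 : span {κ} ≠ (⊥ : Ideal Rx) := by simpa using hκ
  have hε0 : span {ε} ≠ (⊥ : Ideal Sx) := by simpa using hε
  have h1 := emultiplicity_map_eq (P := P) (Q := Q) hP hQ hP0 hκ0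
  rw [Ideal.map_span, Set.image_singleton, h, emultiplicity_pow hQp, he,
    (FiniteMultiplicity.of_prime_left hQp hε0).emultiplicity_eq_multiplicity,
    (FiniteMultiplicity.of_prime_left hPp hκ0).emultiplicity_eq_multiplicity] at h1
  exact_mod_cast h1.symm

theorem exists_thaine_element_aux {p q : ℕ} [Fact p.Prime] [Fact q.Prime] {K : Type} (M : Type)
    [Field K] [NumberField K] [Field M] [NumberField M] [Algebra K M]
    [IsCyclotomicExtension {p} ℚ K] [IsCyclotomicExtension {q} K M] (hpq : p ≠ q)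
    (hqp : q % p = 1) {z : K} (hz : IsPrimitiveRoot z p) :
    ∃ (s : ℕ) (κ : 𝓞 K), s.Coprime q ∧ κ ≠ 0 ∧
      (∀ P : Ideal (𝓞 K), P.IsPrime → P ≠ ⊥ → (q : 𝓞 K) ∉ P → p ∣ multiplicity P (span {κ})) ∧
      (∀ P : Ideal (𝓞 K), P.IsPrime → (q : 𝓞 K) ∈ P →
        (1 - hz.toInteger) - (s : 𝓞 K) ^ (multiplicity P (span {κ})) ∈ P) := by
  classical
  have hp' : p.Prime := Fact.out
  have hq' : q.Prime := Fact.out
  have hdvd : p ∣ q - 1 := (Nat.modEq_iff_dvd' hq'.one_le).1 (by
    rw [Nat.ModEq, hqp, Nat.mod_eq_of_lt hp'.one_lt])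
  have hirr := irreducible_cyclotomic_tower p q K M hpq
  have : IsGalois K M := IsCyclotomicExtension.isGalois {q} K M
  set w := IsCyclotomicExtension.zeta q K M with hwdef
  have hw : IsPrimitiveRoot w q := IsCyclotomicExtension.zeta_spec q K M
  let e := IsCyclotomicExtension.autEquivPow (n := q) (K := K) M hirr
  have hcyc : IsCyclic (M ≃ₐ[K] M) := isCyclic_of_surjective e.symm e.symm.surjective
  obtain ⟨g, hg⟩ := hcyc.exists_generator
  set Z : 𝓞 M := algebraMap (𝓞 K) (𝓞 M) hz.toInteger with hZ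
  set W : 𝓞 M := hw.toInteger with hW
  set ξ : 𝓞 M := 1 - Z * W with hξ
  have hnorm : Algebra.norm K (algebraMap (𝓞 M) M ξ) = 1 := by
    have : algebraMap (𝓞 M) M ξ = 1 - algebraMap K M z * w := by
      rw [hξ, map_sub, map_mul, map_one]
      rfl
    rw [this]
    exact norm_one_sub_mul hpq hqp hz hw
  obtain ⟨ε, hε0, hε⟩ := groupCohomology.exists_mul_galRestrict_of_norm_eq_one
    (A := 𝓞 K) (B := 𝓞 M) hg hnorm
  -- `ξ` is a unit
  have hprod : ∀ x : 𝓞 M, algebraMap K M (Algebra.norm K (algebraMap (𝓞 M) M x)) =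
      algebraMap (𝓞 M) M (∏ σ : M ≃ₐ[K] M, galRestrict (𝓞 K) K M (𝓞 M) σ x) := by
    intro x
    rw [Algebra.norm_eq_prod_automorphisms, map_prod]
    refine Finset.prod_congr rfl fun σ _ => ?_
    rw [algebraMap_galRestrict_apply]
  have hξu : IsUnit ξ := by
    have h1 : (∏ σ : M ≃ₐ[K] M, galRestrict (𝓞 K) K M (𝓞 M) σ ξ) = 1 := by
      apply RingOfIntegers.coe_injective
      have := hprod ξ
      rw [hnorm, map_one] at this
      exact this.symm
    have h2 : galRestrict (𝓞 K) K M (𝓞 M) 1 ξ ∣ 1 := by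
      rw [← h1]
      exact Finset.dvd_prod_of_mem _ (Finset.mem_univ _)
    rw [map_one] at h2
    exact isUnit_of_dvd_one h2
  -- all conjugates of `ε` generate the same ideal
  have hG : span {galRestrict (𝓞 K) K M (𝓞 M) g ε} = span {ε} := by
    rw [span_singleton_eq_span_singleton]
    refine ⟨hξu.unit, ?_⟩
    rw [IsUnit.unit_spec, mul_comm, hε]
  have hconj : ∀ σ : M ≃ₐ[K] M, span {galRestrict (𝓞 K) K M (𝓞 M) σ ε} = span {ε} := by
    intro σ
    let S : Subgroup (M ≃ₐ[K] M) :=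
      { carrier := {σ | span {galRestrict (𝓞 K) K M (𝓞 M) σ ε} = span {ε}}
        one_mem' := by simp
        mul_mem' := by
          intro a b ha hb
          simp only [Set.mem_ofPred_eq] at ha hb ⊢
          rw [span_singleton_eq_span_singleton] at hb ⊢
          rw [map_mul, AlgEquiv.mul_apply]
          refine (hb.map (galRestrict (𝓞 K) K M (𝓞 M) a)).trans ?_
          rwa [span_singleton_eq_span_singleton] at ha
        inv_mem' := by
          intro a ha
          simp only [Set.mem_ofPred_eq] at ha ⊢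
          rw [span_singleton_eq_span_singleton] at ha ⊢
          have := ha.map (galRestrict (𝓞 K) K M (𝓞 M) a⁻¹)
          rw [← AlgEquiv.mul_apply, ← map_mul, inv_mul_cancel, map_one, AlgEquiv.one_apply] at this
          exact this.symm }
    have : g ∈ S := hG
    have h3 : Subgroup.zpowers g ≤ S := Subgroup.zpowers_le.2 this
    exact h3 (hg σ)
  -- the norm of `ε`
  obtain ⟨κ, hκ⟩ : ∃ κ : 𝓞 K, (κ : K) = Algebra.norm K (algebraMap (𝓞 M) M ε) :=
    ⟨⟨_, Algebra.isIntegral_norm K (RingOfIntegers.isIntegral_coe ε)⟩, rfl⟩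
  have hκ' : algebraMap (𝓞 K) (𝓞 M) κ = ∏ σ : M ≃ₐ[K] M, galRestrict (𝓞 K) K M (𝓞 M) σ ε := by
    apply RingOfIntegers.coe_injective
    rw [← hprod, ← hκ]
    rfl
  have hcard : Fintype.card (M ≃ₐ[K] M) = q - 1 := by
    rw [← Nat.card_eq_fintype_card, IsGalois.card_aut_eq_finrank, finrank_tower p q K M hpq]
  have hspan : span {algebraMap (𝓞 K) (𝓞 M) κ} = span {ε} ^ (q - 1) := by
    rw [hκ', ← prod_span_singleton, Finset.prod_congr rfl (fun σ _ => hconj σ), Finset.prod_const,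
      Finset.card_univ, hcard]
  have hκ0 : κ ≠ 0 := by
    rintro rfl
    rw [map_zero, span_singleton_zero] at hspan
    have h1 : span {ε} ^ (q - 1) = (0 : Ideal (𝓞 M)) := hspan.symm
    exact hε0 (span_singleton_eq_bot.1
      ((pow_eq_zero_iff (Nat.sub_pos_of_lt hq'.one_lt).ne').1 h1))
  -- the exponent
  let s : ℕ := ((e g⁻¹ : (ZMod q)ˣ) : ZMod q).val
  refine ⟨s, κ, ZMod.val_coe_unit_coprime _, hκ0, ?_, ?_⟩
  · intro P hP hP0 hqP
    have hPmax := hP.isMaximal hP0
    obtain ⟨Q, hQmax, hQP⟩ := exists_maximal_ideal_liesOver_of_isIntegral (S := 𝓞 M) P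
    have h1 := ramificationIdx_rel_not_q (M := M) hpq hP hP0 hQmax.isPrime hqP
    have h2 := multiplicity_eq_of_mul hP hQmax.isPrime hP0 hκ0 hε0 h1 hspan
    rw [one_mul] at h2
    rw [h2]
    exact Dvd.dvd.mul_right hdvd _
  · intro P hP hqP
    have hP0 := ne_bot_of_mem hq' hqP
    have hPmax := hP.isMaximal hP0
    obtain ⟨Q, hQmax, hQP⟩ := exists_maximal_ideal_liesOver_of_isIntegral (S := 𝓞 M) P
    have hQ := hQmax.isPrime
    have hqQ : (q : 𝓞 M) ∈ Q := by
      have := Q.mem_of_liesOver P (q : 𝓞 K)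
      simpa using this.1 hqP
    have hQ0 := ne_bot_of_mem hq' hqQ
    have h1 := ramificationIdx_rel_q (M := M) hpq hP hQ hqP
    have h2 := multiplicity_eq_of_mul hP hQ hP0 hκ0 hε0 h1 hspan
    have h3 : multiplicity P (span {κ}) = multiplicity Q (span {ε}) :=
      Nat.eq_of_mul_eq_mul_left (Nat.sub_pos_of_lt hq'.one_lt) h2
    set a := multiplicity P (span {κ}) with ha
    have hQp : Prime Q := (Ideal.prime_iff_isPrime hQ0).2 hQ
    have hεspan : span {ε} ≠ (⊥ : Ideal (𝓞 M)) := by simpa using hε0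
    have h4 : emultiplicity Q (span {ε}) = a := by
      rw [(FiniteMultiplicity.of_prime_left hQp hεspan).emultiplicity_eq_multiplicity, h3]
    set G' := galRestrict (𝓞 K) K M (𝓞 M) g⁻¹ with hG'
    have hG'ε : G' ε = G' ξ * ε := by
      have h5 := congrArg G' hε
      rw [map_mul] at h5
      rw [← h5]
      congr 1
      rw [hG', ← AlgEquiv.mul_apply, ← map_mul, inv_mul_cancel, map_one, AlgEquiv.one_apply]
    have hG'W : G' W = W ^ s := by
      apply RingOfIntegers.coe_injective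
      rw [hG', algebraMap_galRestrict_apply, map_pow]
      have := (IsCyclotomicExtension.zeta_spec q K M).autToPow_spec K g⁻¹
      exact this.symm
    have hWQ : W - 1 ∈ Q :=
      sub_one_mem_of_pow_eq_one hQ hqQ hw.toInteger_isPrimitiveRoot.pow_eq_one
    have hπ : G' (1 - W) = (1 - W) * ∑ i ∈ Finset.range s, W ^ i := by
      rw [map_sub, map_one, hG'W, mul_comm, geom_sum_mul_neg]
    have h1W : (1 : 𝓞 M) - W ≠ 0 := by
      rw [sub_ne_zero]
      exact fun h => hw.toInteger_isPrimitiveRoot.ne_one hq'.one_lt h.symm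
    have h6 := tame hQ hQ0 hε0 h1W (emultiplicity_one_sub K hpq hQ hqQ hw)
      (G' : 𝓞 M →+* 𝓞 M) (fun x => galRestrict_sub_mem hpq hQ hqQ g⁻¹ x) hπ hG'ε h4
    -- reduce modulo `Q`
    have h7 : (1 - Z) - (s : 𝓞 M) ^ a ∈ Q := by
      have hWmod : Ideal.Quotient.mk Q W = 1 := by
        rw [← map_one (Ideal.Quotient.mk Q), Ideal.Quotient.eq]; exact hWQ
      have h8 := galRestrict_sub_mem hpq hQ hqQ g⁻¹ ξ
      rw [← Ideal.Quotient.eq_zero_iff_mem] at h6 h8 ⊢
      have h9 : Ideal.Quotient.mk Q (G' ξ) = 1 - Ideal.Quotient.mk Q Z := by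
        rw [← hG', map_sub] at h8
        rw [sub_eq_zero.1 h8, hξ, map_sub, map_mul, hWmod, map_one, mul_one]
      rw [map_sub, map_pow, map_sum] at h6
      simp only [map_pow, hWmod, one_pow, Finset.sum_const, Finset.card_range, nsmul_eq_mul,
        mul_one] at h6
      rw [map_sub, map_sub, map_one, map_pow, map_natCast, ← h9]
      exact h6
    have h8 : algebraMap (𝓞 K) (𝓞 M) ((1 - hz.toInteger) - (s : 𝓞 K) ^ a) ∈ Q := by
      rw [map_sub, map_sub, map_one, map_pow, map_natCast]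
      exact h7
    exact (Q.mem_of_liesOver P _).2 h8

/-- Thaine's element. -/
theorem exists_thaine_element {p q : ℕ} [Fact p.Prime] [Fact q.Prime] {K : Type}
    [Field K] [NumberField K] [IsCyclotomicExtension {p} ℚ K] (hpq : p ≠ q)
    (hqp : q % p = 1) {z : K} (hz : IsPrimitiveRoot z p) :
    ∃ (s : ℕ) (κ : 𝓞 K), s.Coprime q ∧ κ ≠ 0 ∧
      (∀ P : Ideal (𝓞 K), P.IsPrime → P ≠ ⊥ → (q : 𝓞 K) ∉ P → p ∣ multiplicity P (span {κ})) ∧
      (∀ P : Ideal (𝓞 K), P.IsPrime → (q : 𝓞 K) ∈ P →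
        (1 - hz.toInteger) - (s : 𝓞 K) ^ (multiplicity P (span {κ})) ∈ P) := by
  have hq' : q.Prime := Fact.out
  have : NeZero ((q : ℕ) : K) := ⟨by exact_mod_cast hq'.ne_zero⟩
  have : NumberField (CyclotomicField q K) := IsCyclotomicExtension.numberField {q} K _
  exact exists_thaine_element_aux (CyclotomicField q K) hpq hqp hz

end Fermat.Agent.S14Lib
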